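import Fermat.Agent.Igusa.JacobianGood
import Fermat.Agent.Curve.ReductionFunctorial
import Fermat.Agent.Curve.ConnectedTorsion
import Fermat.Agent.Curve.BasicModular
import Fermat.Agent.Curve.Zeta
import Fermat.Agent.Galois.Frobenius
import Mathlib.FieldTheory.Finite.Basic
import Mathlib.Algebra.Algebra.ZMod
import Mathlib.FieldTheory.IntermediateField.Adjoin.Basic

/-!
# Reduction of `J0(N)` at a good prime: inertia invariance, injectivity and finiteness of torsion
-/

set_option autoImplicit false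

noncomputable section

open scoped Pointwise

namespace Fermat.Agent.MW

open AlgebraicCurve ModularCurve Fermat.Agent.Galois Fermat.Agent.Curve

local notation "Qb" => AlgebraicClosure ℚ
local notation "GQ" => (AlgebraicClosure ℚ ≃ₐ[ℚ] AlgebraicClosure ℚ)

/-- Every element of the residue field of a place of `Qb` over `ℓ` lies in a finite field. -/
theorem exists_pow_pow_eq {ℓ : ℕ} [Fact ℓ.Prime] {A : ValuationSubring Qb}
    (hA : A.LiesOverPrime ℓ) (c : IsLocalRing.ResidueField A) :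
    ∃ n, 0 < n ∧ c ^ ℓ ^ n = c := by
  have : CharP (IsLocalRing.ResidueField A) ℓ := by
    refine (CharP.charP_iff_prime_eq_zero Fact.out).2 ?_
    rw [← map_natCast (IsLocalRing.residue A) ℓ, IsLocalRing.residue_eq_zero_iff,
      ← A.coe_mem_nonunits_iff]
    exact hA
  let : Algebra (ZMod ℓ) (IsLocalRing.ResidueField A) := ZMod.algebra (IsLocalRing.ResidueField A) ℓ
  have hint : ∀ b : Qb, ∀ hb : IsIntegral ℤ b,
      IsIntegral (ZMod ℓ) (IsLocalRing.residue A ⟨b, mem_valuationSubring_of_isIntegral A hb⟩) := by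
    intro b hb
    have h1 : IsIntegral ℤ (⟨b, mem_valuationSubring_of_isIntegral A hb⟩ : A) :=
      (isIntegral_algebraMap_iff (A := A) (B := Qb) Subtype.val_injective).1 hb
    obtain ⟨p, hp, hp0⟩ := h1
    refine ⟨p.map (Int.castRingHom (ZMod ℓ)), hp.map _, ?_⟩
    rw [Polynomial.eval₂_map, RingHom.ext_int ((algebraMap (ZMod ℓ) (IsLocalRing.ResidueField A)).comp (Int.castRingHom _))
      ((IsLocalRing.residue A).comp (algebraMap ℤ A)), ← Polynomial.hom_eval₂, hp0, map_zero]
  obtain ⟨x, hxc⟩ := IsLocalRing.residue_surjective (R := A) c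
  obtain ⟨b, s, hb, hs, hsu, hxs⟩ := exists_integral_num_den A x.2
  have hs0 : IsLocalRing.residue A ⟨s, mem_valuationSubring_of_isIntegral A hs⟩ ≠ 0 := by
    rw [Ne, IsLocalRing.residue_eq_zero_iff, ← ValuationSubring.coe_mem_nonunits_iff]
    exact hsu
  have hx : IsIntegral (ZMod ℓ) (IsLocalRing.residue A x) := by
    have : IsLocalRing.residue A x * IsLocalRing.residue A ⟨s, mem_valuationSubring_of_isIntegral A hs⟩
        = IsLocalRing.residue A ⟨b, mem_valuationSubring_of_isIntegral A hb⟩ := by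
      rw [← map_mul]; exact congrArg _ (Subtype.ext hxs)
    rw [← eq_div_iff hs0, div_eq_mul_inv] at this
    rw [this]
    exact (hint b hb).mul (hint s hs).inv
  have hfd : FiniteDimensional (ZMod ℓ) (IntermediateField.adjoin (ZMod ℓ)
      ({IsLocalRing.residue A x} : Set (IsLocalRing.ResidueField A))) := IntermediateField.adjoin.finiteDimensional hx
  set L := IntermediateField.adjoin (ZMod ℓ) ({IsLocalRing.residue A x} : Set (IsLocalRing.ResidueField A))
  have : Finite L := Module.finite_of_finite (ZMod ℓ)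
  have := Fintype.ofFinite L
  refine ⟨Module.finrank (ZMod ℓ) L, Module.finrank_pos, ?_⟩
  have h := FiniteField.pow_card
    (⟨_, IntermediateField.mem_adjoin_simple_self (ZMod ℓ) (IsLocalRing.residue A x)⟩ : L)
  rw [Module.card_eq_pow_finrank (K := ZMod ℓ), ZMod.card] at h
  rw [← hxc]
  simpa using congrArg (fun u : L => (u : (IsLocalRing.ResidueField A))) h

variable {N : ℕ} [NeZero N] {ℓ : ℕ} [Fact ℓ.Prime] {A : ValuationSubring (AlgebraicClosure ℚ)}

set_option synthInstance.maxHeartbeats 400000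

/-- Inertia does not change the reduction of a function. -/
theorem exists_inertia_smul_mem {A : ValuationSubring Qb} {N : ℕ}
    (G : Curve.GoodReduction A (modularFunctionFieldBar N) (IsLocalRing.ResidueField A)
      (modularFunctionFieldFullC (IsLocalRing.ResidueField A) N))
    (hcoeff : ∀ (y : LaurentSeries A) (hy : coeffMap A.subtype y ∈ modularFunctionFieldBar N),
      ∃ h : (⟨coeffMap A.subtype y, hy⟩ : modularFunctionFieldBar N) ∈ G.V,
        (G.φ ⟨_, h⟩ : LaurentSeries (IsLocalRing.ResidueField A)) =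
          coeffMap (IsLocalRing.residue A) y)
    {σ : GQ} (hσ : σ ∈ A.inertiaSubgroupIn ℚ) (f : G.V)
    (hquot : ∃ u v : LaurentSeries A, coeffMap (IsLocalRing.residue A) v ≠ 0 ∧
      ((f : modularFunctionFieldBar N) : LaurentSeries Qb) * coeffMap A.subtype v =
        coeffMap A.subtype u ∧
      coeffMap A.subtype u ∈ modularFunctionFieldBar N ∧
      coeffMap A.subtype v ∈ modularFunctionFieldBar N) :
    ∃ h : arithmeticGalois (modularFunctionFieldFull N) σ • (f : modularFunctionFieldBar N) ∈ G.V,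
      G.φ ⟨_, h⟩ = G.φ f := by
  obtain ⟨τ, hτ, rfl⟩ := hσ
  rw [SetLike.mem_coe, ValuationSubring.inertiaSubgroup, MonoidHom.mem_ker] at hτ
  let τA : A →+* A := MulSemiringAction.toRingHom (A.decompositionSubgroup ℚ) A τ
  have hres : (IsLocalRing.residue A).comp τA = IsLocalRing.residue A :=
    RingHom.ext fun a => by
      have h := RingEquiv.congr_fun hτ (IsLocalRing.residue A a)
      show IsLocalRing.residue A (τ • a) = IsLocalRing.residue A a
      rw [IsLocalRing.ResidueField.residue_smul]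
      exact h
  -- the action on integral series
  have hser : ∀ (y : LaurentSeries A) (hy : coeffMap A.subtype y ∈ modularFunctionFieldBar N),
      ∃ (h₁ : (⟨coeffMap A.subtype y, hy⟩ : modularFunctionFieldBar N) ∈ G.V)
        (h₂ : arithmeticGalois (modularFunctionFieldFull N) (τ : GQ) •
          (⟨coeffMap A.subtype y, hy⟩ : modularFunctionFieldBar N) ∈ G.V),
        G.φ ⟨_, h₂⟩ = G.φ ⟨_, h₁⟩ ∧
        ((G.φ ⟨_, h₁⟩ : LaurentSeries (IsLocalRing.ResidueField A)) =
          coeffMap (IsLocalRing.residue A) y) := by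
    intro y hy
    have heq : coeffMap ((τ : GQ) : Qb →+* Qb) (coeffMap A.subtype y) =
        coeffMap A.subtype (coeffMap τA y) := by
      rw [coeffMap_coeffMap, coeffMap_coeffMap]; rfl
    have hy' : coeffMap A.subtype (coeffMap τA y) ∈ modularFunctionFieldBar N :=
      heq ▸ coeffMap_mem_laurentBaseChange _ hy
    obtain ⟨h₁, e₁⟩ := hcoeff y hy
    obtain ⟨h₂, e₂⟩ := hcoeff (coeffMap τA y) hy'
    have hsmul : arithmeticGalois (modularFunctionFieldFull N) (τ : GQ) •
        (⟨coeffMap A.subtype y, hy⟩ : modularFunctionFieldBar N) = ⟨_, hy'⟩ := Subtype.ext heq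
    refine ⟨h₁, hsmul ▸ h₂, Subtype.ext ?_, e₁⟩
    rw [show (⟨_, hsmul ▸ h₂⟩ : G.V) = ⟨_, h₂⟩ from Subtype.ext hsmul, e₁, e₂, coeffMap_coeffMap,
      hres]
  obtain ⟨u, v, hv0, huv, hu, hv⟩ := hquot
  obtain ⟨hu₁, hu₂, hφu, -⟩ := hser u hu
  obtain ⟨hv₁, hv₂, hφv, hv₁eq⟩ := hser v hv
  have hne : G.φ ⟨_, hv₁⟩ ≠ 0 := fun h => hv0 (by rw [← hv₁eq, h]; rfl)
  have hunit : IsUnit (⟨_, hv₂⟩ : G.V) := not_not.1 (mt (G.φ_eq_zero_iff _).2 (hφv ▸ hne))
  obtain ⟨w, hw⟩ := hunit.exists_right_inv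
  set g := arithmeticGalois (L := Qb) (modularFunctionFieldFull N) (τ : GQ)
  have hfv : (f : modularFunctionFieldBar N) * ⟨_, hv⟩ = ⟨_, hu⟩ := Subtype.ext huv
  have hgfv : g • (f : modularFunctionFieldBar N) * g • (⟨_, hv⟩ : modularFunctionFieldBar N) =
      g • (⟨_, hu⟩ : modularFunctionFieldBar N) := by rw [← smul_mul', hfv]
  have hmem : g • (f : modularFunctionFieldBar N) ∈ G.V := by
    have : g • (f : modularFunctionFieldBar N) =
        ((⟨_, hu₂⟩ * w : G.V) : modularFunctionFieldBar N) := by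
      have h1 : g • (⟨_, hv⟩ : modularFunctionFieldBar N) * (w : modularFunctionFieldBar N) = 1 :=
        congrArg Subtype.val hw
      exact ((congrArg (· * (w : modularFunctionFieldBar N)) hgfv.symm).trans
        ((mul_assoc _ _ _).trans ((congrArg _ h1).trans (mul_one _)))).symm
    exact this ▸ SetLike.coe_mem _
  have e1 : G.φ ⟨_, hmem⟩ * G.φ ⟨_, hv₂⟩ = G.φ ⟨_, hu₂⟩ := by
    rw [← map_mul]; exact congrArg G.φ (Subtype.ext hgfv)
  have e2 : G.φ f * G.φ ⟨_, hv₁⟩ = G.φ ⟨_, hu₁⟩ := by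
    rw [← map_mul]; exact congrArg G.φ (Subtype.ext hfv)
  refine ⟨hmem, ?_⟩
  rw [hφv, hφu, ← e2] at e1
  exact mul_right_cancel₀ hne e1

theorem inertia_smul_x0GoodReduction (hℓN : ¬ ℓ ∣ N) (hA : A.LiesOverPrime ℓ)
    {σ : GQ} (hσ : σ ∈ A.inertiaSubgroupIn ℚ) (f : (Igusa.x0GoodReduction hℓN hA).V) :
    ∃ h : arithmeticGalois (modularFunctionFieldFull N) σ • (f : modularFunctionFieldBar N) ∈
        (Igusa.x0GoodReduction hℓN hA).V,
      (Igusa.x0GoodReduction hℓN hA).φ ⟨_, h⟩ = (Igusa.x0GoodReduction hℓN hA).φ f :=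
  exists_inertia_smul_mem _ (Igusa.x0GoodReduction_φ_coeffMap hℓN hA) hσ f
    (Igusa.x0GoodReduction_exists_quotient hℓN hA f)

/-- The reduction map of `J0(N)` given by good reduction of `X0(N)`. -/
def x0Reduction (hℓN : ¬ ℓ ∣ N) (hA : A.LiesOverPrime ℓ) :
    JZero N →+ Pic0 (IsLocalRing.ResidueField A)
      (modularFunctionFieldFullC (IsLocalRing.ResidueField A) N) :=
  haveI := (Igusa.x0GoodReduction hℓN hA).isAlgClosed_residue
  (Igusa.x0GoodReduction hℓN hA).reductionPic0

theorem x0Reduction_smul_inertia (hℓN : ¬ ℓ ∣ N) (hA : A.LiesOverPrime ℓ)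
    {σ : GQ} (hσ : σ ∈ A.inertiaSubgroupIn ℚ) (x : JZero N) :
    x0Reduction hℓN hA (σ • x) = x0Reduction hℓN hA x := by
  have := (Igusa.x0GoodReduction hℓN hA).isAlgClosed_residue
  rw [galois_smul_pic0_def]
  refine ((Igusa.x0GoodReduction hℓN hA).reductionPic0_smul _ 1
    (fun f => (inertia_smul_x0GoodReduction hℓN hA hσ f).1)
    (fun f => by rw [one_smul]; exact (inertia_smul_x0GoodReduction hℓN hA hσ f).2) x).trans ?_
  rw [one_smul]
  rfl

theorem natCast_residueField_ne_zero (hA : A.LiesOverPrime ℓ) {m : ℕ} (hm : ¬ ℓ ∣ m) :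
    (m : IsLocalRing.ResidueField A) ≠ 0 := by
  rw [← map_natCast (IsLocalRing.residue A) m, ne_eq, IsLocalRing.residue_eq_zero_iff,
    ← A.coe_mem_nonunits_iff]
  have h := intCast_mem_nonunits_iff (Fact.out : ℓ.Prime) hA (m : ℤ)
  push_cast at h ⊢
  rw [h, Int.natCast_dvd_natCast]
  exact hm

theorem eq_zero_of_x0Reduction_eq_zero (hℓN : ¬ ℓ ∣ N) (hA : A.LiesOverPrime ℓ) {m : ℕ}
    (hm : ¬ ℓ ∣ m) {z : JZero N} (hmz : m • z = 0) (hz : x0Reduction hℓN hA z = 0) : z = 0 := by
  have := (Igusa.x0GoodReduction hℓN hA).isAlgClosed_residue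
  exact (Igusa.x0GoodReduction hℓN hA).eq_zero_of_reductionPic0_eq_zero_of_nsmul_eq_zero
    (natCast_residueField_ne_zero hA hm) hmz hz

/-- `J0(N)` has finite `m`-torsion for `m ≠ 0`. -/
theorem finite_nsmul_eq_zero (N : ℕ) [NeZero N] {m : ℕ} (hm : m ≠ 0) :
    {z : JZero N | m • z = 0}.Finite := by
  obtain ⟨ℓ, hle, hℓ⟩ := Nat.exists_infinite_primes (N + m + 1)
  have : Fact ℓ.Prime := ⟨hℓ⟩
  have hℓN : ¬ ℓ ∣ N := fun h => by
    have := Nat.le_of_dvd (NeZero.pos N) h; omega
  have hℓm : ¬ ℓ ∣ m := fun h => by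
    have := Nat.le_of_dvd (Nat.pos_of_ne_zero hm) h; omega
  obtain ⟨A, hA⟩ := exists_liesOverPrime hℓ
  set k := IsLocalRing.ResidueField A
  have := (Igusa.x0GoodReduction hℓN hA).isAlgClosed_residue
  have : CharP k ℓ := by
    refine (CharP.charP_iff_prime_eq_zero hℓ).2 ?_
    rw [← map_natCast (IsLocalRing.residue A) ℓ, IsLocalRing.residue_eq_zero_iff,
      ← A.coe_mem_nonunits_iff]
    exact hA
  have hfin : Finite (Pic0.torsion k (modularFunctionFieldFullC k N) m) :=
    finite_torsion_of_algClosure_finite ℓ (exists_pow_pow_eq hA) m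
      (natCast_residueField_ne_zero hA hℓm)
  refine Set.Finite.of_finite_image (f := x0Reduction hℓN hA) ?_ ?_
  · refine Set.Finite.subset (Set.toFinite
      (Pic0.torsion k (modularFunctionFieldFullC k N) m : Set _)) ?_
    rintro _ ⟨z, hz, rfl⟩
    rw [SetLike.mem_coe, Pic0.mem_torsion, natCast_zsmul, ← map_nsmul]
    exact (congrArg _ hz).trans (map_zero _)
  · intro x hx y hy hxy
    rw [← sub_eq_zero]
    refine eq_zero_of_x0Reduction_eq_zero hℓN hA hℓm ?_ (by rw [map_sub, hxy, sub_self])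
    rw [nsmul_sub, show m • x = 0 from hx, show m • y = 0 from hy, sub_zero]

end Fermat.Agent.MW

end
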