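import Fermat.Prelude.Def_FLTPrelim_Ramification
import Mathlib.RingTheory.Invariant.Profinite
import Mathlib.RingTheory.IntegralClosure.Algebra.Basic
import Mathlib.FieldTheory.Galois.Infinite
import Mathlib.FieldTheory.Galois.Profinite
import Fermat.Agent.Galois.Frobenius

/-!
# Lifting inertia elements to the algebraic closure of `ℚ`
-/

set_option autoImplicit false

open scoped Pointwise

namespace Fermat.Agent.MW

open Fermat.Agent.Galois

local notation "Qb" => AlgebraicClosure ℚ
local notation "OQb" => integralClosure ℤ (AlgebraicClosure ℚ)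
local notation "GQ" => (AlgebraicClosure ℚ ≃ₐ[ℚ] AlgebraicClosure ℚ)

/-- An automorphism congruent to the identity modulo the centre of `A` on all algebraic
integers lies in the inertia group of `A`. -/
theorem mem_inertiaSubgroupIn_of_centre {A : ValuationSubring Qb} {ρ : GQ}
    (h : ∀ c : OQb, ρ • c - c ∈ centre A) : ρ ∈ A.inertiaSubgroupIn ℚ := by
  have hQ : ρ • centre A = centre A := by
    ext c
    rw [Ideal.mem_pointwise_smul_iff_inv_smul_mem]
    constructor <;> intro hc
    · have := add_mem (h (ρ⁻¹ • c)) hc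
      rwa [smul_inv_smul, sub_add_cancel] at this
    · have := sub_mem hc (h (ρ⁻¹ • c))
      rwa [smul_inv_smul, sub_sub_cancel] at this
  have hρA : ρ ∈ A.decompositionSubgroup ℚ :=
    MulAction.mem_stabilizer_iff.mpr (smul_eq_of_centre ρ A A hQ)
  refine ⟨⟨ρ, hρA⟩, ?_, rfl⟩
  rw [SetLike.mem_coe, ValuationSubring.inertiaSubgroup, MonoidHom.mem_ker]
  refine RingEquiv.ext fun y => ?_
  show (⟨ρ, hρA⟩ : A.decompositionSubgroup ℚ) • y = y
  obtain ⟨y, rfl⟩ := IsLocalRing.residue_surjective y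
  obtain ⟨b, s, hb, hs, hsu, hys⟩ := exists_integral_num_den A y.2
  have key : ∀ c : OQb, (⟨ρ, hρA⟩ : A.decompositionSubgroup ℚ) •
        IsLocalRing.residue A ⟨c.1, mem_valuationSubring_of_isIntegral A c.2⟩ =
      IsLocalRing.residue A ⟨c.1, mem_valuationSubring_of_isIntegral A c.2⟩ := by
    intro c
    have h1 := h c
    rw [mem_centre] at h1
    rw [← IsLocalRing.ResidueField.residue_smul, ← sub_eq_zero, ← map_sub,
      IsLocalRing.residue_eq_zero_iff, ← ValuationSubring.coe_mem_nonunits_iff]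
    exact h1
  set bA : A := ⟨b, mem_valuationSubring_of_isIntegral A hb⟩ with hbA
  set sA : A := ⟨s, mem_valuationSubring_of_isIntegral A hs⟩ with hsA
  have hprod : IsLocalRing.residue A y * IsLocalRing.residue A sA = IsLocalRing.residue A bA := by
    rw [← map_mul]; exact congrArg _ (Subtype.ext hys)
  have hsne : IsLocalRing.residue A sA ≠ 0 := by
    rw [Ne, IsLocalRing.residue_eq_zero_iff, ← ValuationSubring.coe_mem_nonunits_iff]
    exact hsu
  have h2 := congrArg ((⟨ρ, hρA⟩ : A.decompositionSubgroup ℚ) • ·) hprod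
  simp only [smul_mul', key ⟨b, hb⟩, key ⟨s, hs⟩, hbA, hsA] at h2
  rw [← hbA, ← hsA, ← hprod] at h2
  exact mul_right_cancel₀ hsne h2

section Action

local instance oqbTopology : TopologicalSpace OQb := ⊥

local instance oqbDiscrete : DiscreteTopology OQb := ⟨rfl⟩

/-- If `σ` is congruent to the identity on the integers of `L` modulo the centre of `A`, then
some element of the inertia group of `A` agrees with `σ` on `L`. -/
theorem exists_mem_inertia_eqOn (A : ValuationSubring Qb) (L : IntermediateField ℚ Qb) (σ : GQ)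
    (hσ : ∀ x ∈ L, IsIntegral ℤ x → σ x - x ∈ A.nonunits) :
    ∃ τ ∈ A.inertiaSubgroupIn ℚ, ∀ x ∈ L, τ x = σ x := by
  let H : Subgroup GQ := L.fixingSubgroup
  have : CompactSpace H :=
    isCompact_iff_compactSpace.mp (InfiniteGalois.fixingSubgroup_isClosed L).isCompact
  have : TotallyDisconnectedSpace H := Subtype.totallyDisconnectedSpace
  have : ContinuousSMul H OQb := by
    rw [continuousSMul_iff_stabilizer_isOpen]
    intro b
    have hb : (MulAction.stabilizer H b : Set H) =
        (Subtype.val : H → GQ) ⁻¹' (MulAction.stabilizer GQ (b : Qb) : Set GQ) := by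
      ext g
      simp only [SetLike.mem_coe, MulAction.mem_stabilizer_iff, Set.mem_preimage, Subtype.ext_iff]
      rfl
    rw [hb]
    exact (stabilizer_isOpen_of_isIntegral _).preimage continuous_subtype_val
  let R0 : Subalgebra ℤ OQb := FixedPoints.subalgebra ℤ OQb H
  have : SMulCommClass H R0 OQb := ⟨fun g a x => by
    show g • ((a : OQb) * x) = (a : OQb) * g • x
    rw [smul_mul', a.2 g]⟩
  have : Algebra.IsInvariant R0 OQb H := ⟨fun b hb => ⟨⟨b, hb⟩, rfl⟩⟩
  -- elements of `R0` lie in `L`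
  have hR0 : ∀ a : R0, ((a : OQb) : Qb) ∈ L := by
    intro a
    rw [← InfiniteGalois.fixedField_fixingSubgroup L, IntermediateField.mem_fixedField_iff]
    intro g hg
    exact congrArg Subtype.val (a.2 (⟨g, hg⟩ : H))
  set Q := centre A with hQ
  have hcong : ∀ c : OQb, (c : Qb) ∈ L → σ • c - c ∈ Q := fun c hc => by
    rw [hQ, mem_centre]
    exact hσ _ hc c.2
  have hunder : (σ⁻¹ • Q).under R0 = Q.under R0 := by
    ext a
    rw [Ideal.mem_comap, Ideal.mem_comap, Ideal.mem_inv_pointwise_smul_iff]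
    have := hcong (a : OQb) (hR0 a)
    constructor <;> intro ha
    · have h2 := sub_mem ha this
      rwa [show algebraMap R0 OQb a = (a : OQb) from rfl, sub_sub_cancel] at h2
    · have h2 := add_mem this ha
      rwa [show algebraMap R0 OQb a = (a : OQb) from rfl, sub_add_cancel] at h2
  obtain ⟨g, hg⟩ := Algebra.IsInvariant.exists_smul_of_under_eq_of_profinite
    (A := R0) (G := H) Q (σ⁻¹ • Q) hunder.symm
  have hσ'Q : (σ * (g : GQ)) • Q = Q := by
    have hgQ : (g : GQ) • Q = σ⁻¹ • Q := hg.symm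
    rw [mul_smul, hgQ, smul_inv_smul]
  let P : Ideal R0 := Q.under R0
  let F : (OQb ⧸ Q) ≃ₐ[R0 ⧸ P] (OQb ⧸ Q) := AlgEquiv.ofRingEquiv
    (f := Ideal.quotientEquiv Q Q (MulSemiringAction.toRingEquiv GQ OQb (σ * (g : GQ)))
      hσ'Q.symm) fun r => by
    obtain ⟨a, rfl⟩ := Ideal.Quotient.mk_surjective r
    show Ideal.Quotient.mk Q ((σ * (g : GQ)) • (a : OQb)) = Ideal.Quotient.mk Q (a : OQb)
    rw [Ideal.Quotient.eq, mul_smul]
    have : (g : GQ) • (a : OQb) = (a : OQb) := a.2 g
    rw [this]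
    exact hcong _ (hR0 a)
  obtain ⟨⟨t, htQ⟩, ht⟩ := Ideal.Quotient.stabilizerHom_surjective_of_profinite (G := H) P Q F
  refine ⟨σ * (g : GQ) * (t : GQ)⁻¹, mem_inertiaSubgroupIn_of_centre fun c => ?_, fun x hx => ?_⟩
  · have h1 := DFunLike.congr_fun ht (Ideal.Quotient.mk Q (t⁻¹ • c))
    replace h1 : Ideal.Quotient.mk Q (t • (t⁻¹ • c)) =
        Ideal.Quotient.mk Q ((σ * (g : GQ)) • (t⁻¹ • c)) := h1
    rw [smul_inv_smul, Ideal.Quotient.eq] at h1
    have h2 := neg_mem h1
    rw [neg_sub] at h2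
    rw [mul_smul]
    exact h2
  · have hfix : ∀ u : H, (u : GQ) x = x := fun u =>
      (mem_fixingSubgroup_iff GQ).mp u.2 x hx
    have htx : ((t : GQ)⁻¹ : GQ) x = x := hfix t⁻¹
    rw [AlgEquiv.mul_apply, AlgEquiv.mul_apply, htx, hfix g]

end Action

end Fermat.Agent.MW
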