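import Fermat.Agent.Curve.BasicModular
import Fermat.Agent.Galois.QbarInstances
import Mathlib.FieldTheory.Galois.Infinite
import Mathlib.FieldTheory.Galois.Profinite

/-!
# Points of `J0(N)` have open stabilisers in the absolute Galois group of `ℚ`
-/

set_option autoImplicit false

noncomputable section

open scoped Pointwise

namespace Fermat.Agent.MW

open AlgebraicCurve ModularCurve Fermat.Agent.Curve

local notation "Qb" => AlgebraicClosure ℚ
local notation "GQ" => (AlgebraicClosure ℚ ≃ₐ[ℚ] AlgebraicClosure ℚ)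

variable {N : ℕ}

/-- The elements of the Galois group fixing a given function. -/
def functionStabilizer (f : modularFunctionFieldBar N) : Subgroup GQ :=
  (MulAction.stabilizer (SemilinearAut Qb (modularFunctionFieldBar N)) f).comap
    (arithmeticGalois (modularFunctionFieldFull N))

theorem mem_functionStabilizer {f : modularFunctionFieldBar N} {σ : GQ} :
    σ ∈ functionStabilizer f ↔
      coeffMap (σ : Qb →+* Qb) (f : LaurentSeries Qb) = (f : LaurentSeries Qb) := by
  rw [functionStabilizer, Subgroup.mem_comap, MulAction.mem_stabilizer_iff, Subtype.ext_iff,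
    coe_arithmeticGalois_smul]

theorem isOpen_functionStabilizer (f : modularFunctionFieldBar N) :
    IsOpen (functionStabilizer f : Set GQ) := by
  have mono : ∀ {s t : Set GQ} {U : Subgroup GQ}, IsOpen s → IsOpen t → (1 : GQ) ∈ s ∩ t →
      s ∩ t ⊆ U → IsOpen (U : Set GQ) := fun {s t U} hs ht h1 hsub =>
    Subgroup.isOpen_of_mem_nhds U
      (Filter.mem_of_superset ((hs.inter ht).mem_nhds h1) hsub)
  obtain ⟨x, hx⟩ := f
  induction hx using IntermediateField.adjoin_induction with
  | mem y hy =>
    obtain ⟨z, _, rfl⟩ := hy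
    convert isOpen_univ
    exact Set.eq_univ_of_forall fun σ => mem_functionStabilizer.2 (coeffMap_coeffEmb σ z)
  | algebraMap a =>
    refine mono (stabilizer_isOpen_of_isIntegral (K := ℚ) a) isOpen_univ
      ⟨one_mem (MulAction.stabilizer GQ a), Set.mem_univ _⟩ fun σ hσ => ?_
    refine mem_functionStabilizer.2 ((coeffMap_algebraMap _ a).trans ?_)
    congr 1
    exact MulAction.mem_stabilizer_iff.1 hσ.1
  | add y z hy hz ihy ihz =>
    refine mono ihy ihz ⟨one_mem _, one_mem _⟩ fun σ hσ => mem_functionStabilizer.2 ?_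
    rw [map_add, show coeffMap _ y = y from mem_functionStabilizer.1 hσ.1,
      show coeffMap _ z = z from mem_functionStabilizer.1 hσ.2]
  | inv y hy ihy =>
    refine mono ihy ihy ⟨one_mem _, one_mem _⟩ fun σ hσ => mem_functionStabilizer.2 ?_
    rw [map_inv₀, show coeffMap _ y = y from mem_functionStabilizer.1 hσ.1]
  | mul y z hy hz ihy ihz =>
    refine mono ihy ihz ⟨one_mem _, one_mem _⟩ fun σ hσ => mem_functionStabilizer.2 ?_
    rw [map_mul, show coeffMap _ y = y from mem_functionStabilizer.1 hσ.1,
      show coeffMap _ z = z from mem_functionStabilizer.1 hσ.2]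

/-- The elements of the Galois group fixing a given place. -/
def placeStabilizer (P : Place Qb (modularFunctionFieldBar N)) : Subgroup GQ :=
  (MulAction.stabilizer (SemilinearAut Qb (modularFunctionFieldBar N)) P).comap
    (arithmeticGalois (modularFunctionFieldFull N))

theorem isClosed_placeStabilizer (P : Place Qb (modularFunctionFieldBar N)) :
    IsClosed (placeStabilizer P : Set GQ) := by
  rw [← isOpen_compl_iff, isOpen_iff_mem_nhds]
  intro σ hσ
  set g := arithmeticGalois (L := Qb) (modularFunctionFieldFull N)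
  obtain ⟨f, hf, hf'⟩ :=
    Set.not_subset.1 fun h : ((g σ • P).toValuationSubring : Set (modularFunctionFieldBar N)) ⊆
        P.toValuationSubring => hσ (place_eq_of_le h)
  rw [SetLike.mem_coe, SemilinearAut.smul_toValuationSubring,
    ValuationSubring.mem_pointwise_smul_iff_inv_smul_mem] at hf
  refine Filter.mem_of_superset (((isOpen_functionStabilizer ((g σ)⁻¹ • f)).smul σ).mem_nhds
    ⟨1, one_mem _, mul_one σ⟩) ?_
  rintro _ ⟨u, hu, rfl⟩ hmem
  replace hu : g u • (g σ)⁻¹ • f = (g σ)⁻¹ • f := hu
  replace hmem : g (σ * u) • P = P := hmem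
  have h1 := ValuationSubring.smul_mem_pointwise_smul (g (σ * u)) ((g σ)⁻¹ • f) _ hf
  rw [← SemilinearAut.smul_toValuationSubring, hmem, map_mul, mul_smul, hu, smul_inv_smul] at h1
  exact hf' h1

variable [NeZero N]

/-- The function `j`. -/
def jFun (N : ℕ) [NeZero N] : modularFunctionFieldBar N :=
  ⟨coeffEmb Qb jq, coeffEmb_mem_laurentBaseChange _ (modularFunctionField_le_full N (jq_mem N))⟩

theorem jFun_ne_algebraMap (a : Qb) : jFun N ≠ algebraMap Qb _ a := by
  intro h
  have := congrArg (fun x : modularFunctionFieldBar N => (x : LaurentSeries Qb).coeff (-1)) h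
  simp [jFun, algebraMap_laurentSeries_eq_single] at this

theorem arithmeticGalois_smul_jFun_sub (σ : GQ) (a : Qb) :
    arithmeticGalois (modularFunctionFieldFull N) σ • (jFun N - algebraMap Qb _ a) =
      jFun N - algebraMap Qb _ (σ a) := by
  rw [smul_sub, SemilinearAut.smul_algebraMap, baseAut_arithmeticGalois]
  congr 1
  exact Subtype.ext (coeffMap_coeffEmb σ jq)

theorem finite_orbit_place (P : Place Qb (modularFunctionFieldBar N)) :
    (Set.range fun σ : GQ => arithmeticGalois (modularFunctionFieldFull N) σ • P).Finite := by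
  set g := arithmeticGalois (L := Qb) (modularFunctionFieldFull N)
  have hj : ∀ σ : GQ, g σ • jFun N = jFun N := fun σ => Subtype.ext (coeffMap_coeffEmb σ jq)
  by_cases hP : jFun N ∈ P.toValuationSubring
  · haveI : Module.Finite Qb P.ResidueField := finite_residueField P
    obtain ⟨a, ha⟩ := (IsAlgClosed.algebraMap_bijective_of_isIntegral (k := Qb)
      (K := P.ResidueField)).2 (IsLocalRing.residue _ ⟨jFun N, hP⟩)
    have hmem : 0 < P.ord (jFun N - algebraMap Qb _ a) := by
      have hnu : ¬ IsUnit ((⟨jFun N, hP⟩ : P.toValuationSubring) -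
          algebraMap Qb P.toValuationSubring a) := by
        rw [← mem_nonunits_iff, ← IsLocalRing.mem_maximalIdeal, ← IsLocalRing.residue_eq_zero_iff,
          map_sub, ← ha, sub_eq_zero]
        rfl
      refine lt_of_le_of_ne (ord_nonneg_of_mem P (SetLike.coe_mem ((⟨jFun N, hP⟩ :
        P.toValuationSubring) - algebraMap Qb P.toValuationSubring a))) fun h0 => hnu ?_
      obtain ⟨π, hπ⟩ := IsDiscreteValuationRing.exists_irreducible P.toValuationSubring
      obtain ⟨u, hu⟩ := P.exists_unit_mul_zpow (sub_ne_zero.2 (jFun_ne_algebraMap (N := N) a)) hπ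
      refine ⟨u, Subtype.ext ?_⟩
      rw [← h0, zpow_zero, mul_one] at hu
      exact hu.symm
    have hfin : (Set.range fun σ : GQ => σ a).Finite := by
      refine (minpoly ℚ a).rootSet_finite Qb |>.subset ?_
      rintro _ ⟨σ, rfl⟩
      rw [Polynomial.mem_rootSet]
      exact ⟨minpoly.ne_zero (Algebra.IsIntegral.isIntegral a), by
        rw [Polynomial.aeval_algHom_apply, minpoly.aeval, map_zero]⟩
    refine (hfin.biUnion fun b _ => finite_setOf_ord_ne_zero (K := Qb)
      (jFun N - algebraMap Qb _ b)).subset ?_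
    rintro _ ⟨σ, rfl⟩
    refine Set.mem_biUnion ⟨σ, rfl⟩ ?_
    show (g σ • P).ord _ ≠ 0
    rw [← arithmeticGalois_smul_jFun_sub, SemilinearAut.ord_smul]
    exact hmem.ne'
  · refine (finite_setOf_ord_ne_zero (K := Qb) (jFun N)).subset ?_
    rintro _ ⟨σ, rfl⟩
    show (g σ • P).ord _ ≠ 0
    rw [← hj σ, SemilinearAut.ord_smul]
    exact fun h => hP (mem_of_ord_nonneg P h.ge)

theorem isOpen_placeStabilizer (P : Place Qb (modularFunctionFieldBar N)) :
    IsOpen (placeStabilizer P : Set GQ) := by
  let _ : MulAction GQ (Place Qb (modularFunctionFieldBar N)) :=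
    MulAction.compHom _ (arithmeticGalois (modularFunctionFieldFull N))
  have hst : placeStabilizer P = MulAction.stabilizer GQ P := rfl
  have hfi : (placeStabilizer P).FiniteIndex := by
    refine ⟨?_⟩
    rw [hst, MulAction.index_stabilizer]
    exact ((Set.ncard_pos (finite_orbit_place P)).2 ⟨_, ⟨1, rfl⟩⟩).ne'
  exact Subgroup.isOpen_of_isClosed_of_finiteIndex _ (isClosed_placeStabilizer P)

/-- Every point of `J0(N)` has open stabiliser. -/
theorem isOpen_stabilizer_jZero (x : JZero N) :
    IsOpen (MulAction.stabilizer GQ x : Set GQ) := by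
  obtain ⟨D, rfl⟩ := Pic0.mk_surjective x
  refine Subgroup.isOpen_mono (H₁ := ⨅ P : (D : Divisor Qb (modularFunctionFieldBar N)).support,
    placeStabilizer (P : Place Qb (modularFunctionFieldBar N))) ?_ ?_
  · intro σ hσ
    rw [MulAction.mem_stabilizer_iff, galois_smul_pic0_def, SemilinearAut.pic0_smul_mk]
    congr 1
    refine Subtype.ext ?_
    rw [SemilinearAut.coe_degZeroSMulHom, SemilinearAut.divisor_smul_def]
    conv_rhs => rw [← Finsupp.mapDomain_id (v := (D : Divisor Qb (modularFunctionFieldBar N)))]
    refine Finsupp.mapDomain_congr fun P hP => ?_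
    exact MulAction.mem_stabilizer_iff.1
      (Subgroup.mem_comap.1 ((Subgroup.mem_iInf.1 hσ) ⟨P, hP⟩))
  · rw [Subgroup.coe_iInf]
    exact isOpen_iInter_of_finite fun P => isOpen_placeStabilizer _

end Fermat.Agent.MW

end
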