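import Fermat.Agent.MW.WeakDiscriminant
import Fermat.Agent.MW.WeakInertia
import Mathlib.NumberTheory.NumberField.Discriminant.Basic

/-!
# Finiteness of the normal extensions of bounded degree unramified outside a finite set
-/

set_option autoImplicit false

namespace Fermat.Agent.MW

open Fermat.Agent.Galois NumberField Module IntermediateField

local notation "Qb" => AlgebraicClosure ℚ
local notation "GQ" => (AlgebraicClosure ℚ ≃ₐ[ℚ] AlgebraicClosure ℚ)

/-- A subgroup of the absolute Galois group of `ℚ` contains all inertia groups outside `S`. -/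
def IsUnramifiedOutside (S : Finset ℕ) (H : Subgroup GQ) : Prop :=
  ∀ ℓ : ℕ, ℓ.Prime → ℓ ∉ S → ∀ A : ValuationSubring Qb,
    A.LiesOverPrime ℓ → A.inertiaSubgroupIn ℚ ≤ H

/-- The product of the primes in `S`. -/
def primeProduct (S : Finset ℕ) : ℕ := ∏ p ∈ S.filter Nat.Prime, p

theorem primeProduct_pos (S : Finset ℕ) : 0 < primeProduct S :=
  Finset.prod_pos fun _ hp => (Finset.mem_filter.mp hp).2.pos

theorem not_mem_of_not_dvd_primeProduct {S : Finset ℕ} {ℓ : ℕ} (hℓ : ℓ.Prime)
    (h : ¬ ℓ ∣ primeProduct S) : ℓ ∉ S := fun hS =>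
  h (Finset.dvd_prod_of_mem _ (Finset.mem_filter.mpr ⟨hS, hℓ⟩))

/-- If the fixing subgroup of a finite Galois `L` is unramified outside `S`, then the inertia
groups of `L` at primes prime to `S` are trivial. -/
theorem inertia_eq_bot_of_isUnramifiedOutside {S : Finset ℕ} {L : IntermediateField ℚ Qb}
    [FiniteDimensional ℚ L] [IsGalois ℚ L] (hL : IsUnramifiedOutside S L.fixingSubgroup)
    (P : Ideal (𝓞 L)) (hP : P.IsPrime) (hPm : (primeProduct S : 𝓞 L) ∉ P) :
    P.inertia (L ≃ₐ[ℚ] L) = ⊥ := by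
  have : NumberField L := @NumberField.mk _ _ inferInstance inferInstance
  rw [eq_bot_iff]
  intro s hs
  rw [Subgroup.mem_bot]
  obtain ⟨σ, hσ⟩ := AlgEquiv.restrictNormalHom_surjective (K₁ := L) (F := ℚ) Qb s
  by_cases hP0 : P = ⊥
  · ext x
    obtain ⟨a, b, _, rfl⟩ := IsFractionRing.div_surjective (𝓞 L) x
    have hfix : ∀ c : 𝓞 L, s (algebraMap (𝓞 L) L c) = algebraMap (𝓞 L) L c := fun c => by
      have := hs c
      rw [hP0, Submodule.mem_toAddSubgroup, Ideal.mem_bot, sub_eq_zero] at this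
      exact congrArg (algebraMap (𝓞 L) L) this
    simp [map_div₀, hfix]
  -- a rational prime below `P`
  have : (P.under ℤ).IsPrime := Ideal.IsPrime.under ℤ P
  obtain ⟨z, hz⟩ := IsPrincipalIdealRing.principal (P.under ℤ)
  have hz' : P.under ℤ = Ideal.span {z} := hz
  have hz0 : z ≠ 0 := by
    rintro rfl
    rw [Ideal.span_singleton_eq_bot.mpr rfl] at hz'
    exact hP0 (Ideal.eq_bot_of_comap_eq_bot hz')
  have hzp : Prime z := by rw [← Ideal.span_singleton_prime hz0, ← hz']; infer_instance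
  set ℓ := z.natAbs with hℓdef
  have hℓ : ℓ.Prime := Int.prime_iff_natAbs_prime.mp hzp
  have hℓP : ((ℓ : ℕ) : 𝓞 L) ∈ P := by
    have : (ℓ : ℤ) ∈ P.under ℤ := by
      rw [hz', Ideal.mem_span_singleton, hℓdef]
      exact Int.dvd_natAbs_self
    simpa [Ideal.mem_comap] using this
  have hℓS : ℓ ∉ S := not_mem_of_not_dvd_primeProduct hℓ fun hdvd =>
    hPm (P.mem_of_dvd (map_dvd (Nat.castRingHom (𝓞 L)) hdvd) hℓP)
  -- a valuation subring of `Qb` over `P`
  let φ : 𝓞 L →+* Qb := L.val.toRingHom.comp (algebraMap (𝓞 L) L)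
  have hφ : Function.Injective φ := fun a b h =>
    FaithfulSMul.algebraMap_injective (𝓞 L) L (Subtype.ext h)
  let e : 𝓞 L ≃+* φ.range := RingEquiv.ofBijective φ.rangeRestrict
    ⟨fun a b (h : φ.rangeRestrict a = φ.rangeRestrict b) => hφ (congrArg (fun u : φ.range => (u : Qb)) h),
      φ.rangeRestrict_surjective⟩
  let I : Ideal φ.range := Ideal.comap (e.symm : φ.range →+* 𝓞 L) P
  have hI : I ≠ ⊤ := fun h => hP.ne_top (Ideal.comap_eq_top_iff.mp h)
  obtain ⟨A, -, hA⟩ := Ideal.image_subset_nonunits_valuationSubring I hI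
  have hPA : ∀ c ∈ P, φ c ∈ A.nonunits := fun c hc =>
    hA ⟨e c, by
      show e.symm (e c) ∈ P
      rwa [RingEquiv.symm_apply_apply], rfl⟩
  have hℓA : A.LiesOverPrime ℓ := by
    have := hPA _ hℓP
    rwa [map_natCast] at this
  have hcong : ∀ x ∈ L, IsIntegral ℤ x → σ x - x ∈ A.nonunits := by
    intro x hx hint
    have hint' : IsIntegral ℤ (⟨x, hx⟩ : L) :=
      (isIntegral_algHom_iff ((L.val.restrictScalars ℤ)) L.val.injective).mp hint
    let c : 𝓞 L := ⟨⟨x, hx⟩, hint'⟩
    have h1 := hPA _ (hs c)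
    have h2 : ((s ⟨x, hx⟩ : L) : Qb) = σ x := by
      rw [← hσ]
      exact AlgEquiv.restrictNormal_commutes σ L ⟨x, hx⟩
    rw [← h2]
    rwa [map_sub] at h1
  obtain ⟨τ, hτ, hτL⟩ := exists_mem_inertia_eqOn A L σ hcong
  have hτH := hL ℓ hℓ hℓS A hℓA hτ
  rw [← hσ]
  ext x
  refine (AlgEquiv.restrictNormal_commutes σ L x).trans ?_
  show σ x = (x : Qb)
  rw [← hτL x x.2]
  exact (mem_fixingSubgroup_iff GQ).mp hτH x x.2

/-- The fixed field of an open subgroup has finite degree. -/
theorem finiteDimensional_fixedField {H : Subgroup GQ} (hH : IsOpen (H : Set GQ)) :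
    FiniteDimensional ℚ (fixedField H) := by
  rw [← InfiniteGalois.isOpen_iff_finite,
    InfiniteGalois.fixingSubgroup_fixedField ⟨H, Subgroup.isClosed_of_isOpen H hH⟩]
  exact hH

/-- There are only finitely many open normal subgroups of index at most `d` unramified
outside `S`. -/
theorem finite_setOf_isUnramifiedOutside (S : Finset ℕ) (d : ℕ) :
    {H : Subgroup GQ | H.Normal ∧ IsOpen (H : Set GQ) ∧ H.index ≤ d ∧
      IsUnramifiedOutside S H}.Finite := by
  let T := {K : {F : IntermediateField ℚ Qb // FiniteDimensional ℚ F} |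
    haveI : NumberField K := @NumberField.mk _ _ inferInstance K.prop
    |discr K| ≤ ((primeProduct S ^ (d * d) : ℕ) : ℤ)}
  have hT : T.Finite := NumberField.finite_of_discr_bdd Qb _
  refine (hT.image fun K => K.1.fixingSubgroup).subset ?_
  rintro H ⟨hn, ho, hd, hu⟩
  have hcl : IsClosed (H : Set GQ) := Subgroup.isClosed_of_isOpen H ho
  let Hc : ClosedSubgroup GQ := ⟨H, hcl⟩
  have hfix : (fixedField H).fixingSubgroup = H := InfiniteGalois.fixingSubgroup_fixedField Hc
  have hfd : FiniteDimensional ℚ (fixedField H) := finiteDimensional_fixedField ho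
  refine ⟨⟨fixedField H, hfd⟩, ?_, hfix⟩
  have : IsGalois ℚ (fixedField H) :=
    (InfiniteGalois.normal_iff_isGalois _).mp (hfix.symm ▸ hn)
  have : NumberField (fixedField H) := @NumberField.mk _ _ inferInstance hfd
  have hdeg : finrank ℚ (fixedField H) = H.index := by
    have : Hc.Normal := hn
    rw [← IsGalois.card_aut_eq_finrank, Subgroup.index_eq_card]
    exact Nat.card_congr (InfiniteGalois.normalAutEquivQuotient Hc).symm.toEquiv
  have hbd := natAbs_discr_le_pow (L := fixedField H) (primeProduct_pos S)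
    (inertia_eq_bot_of_isUnramifiedOutside (hfix.symm ▸ hu))
  show |discr (fixedField H)| ≤ _
  rw [Int.abs_eq_natAbs, Int.ofNat_le]
  refine hbd.trans (Nat.pow_le_pow_right (primeProduct_pos S) ?_)
  rw [hdeg]
  exact Nat.mul_le_mul hd hd

/-- One open subgroup is contained in all open normal subgroups of index at most `d` unramified
outside `S`. -/
theorem exists_isOpen_le_of_isUnramifiedOutside (S : Finset ℕ) (d : ℕ) :
    ∃ U : Subgroup GQ, IsOpen (U : Set GQ) ∧
      ∀ H : Subgroup GQ, H.Normal → IsOpen (H : Set GQ) → H.index ≤ d →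
        IsUnramifiedOutside S H → U ≤ H := by
  refine ⟨sInf _, ?_, fun H hn ho hd hu =>
    sInf_le (a := H) (s := {H : Subgroup GQ | H.Normal ∧ IsOpen (H : Set GQ) ∧ H.index ≤ d ∧
      IsUnramifiedOutside S H}) ⟨hn, ho, hd, hu⟩⟩
  rw [Subgroup.coe_sInf]
  exact (finite_setOf_isUnramifiedOutside S d).isOpen_biInter fun H hH => hH.2.1

end Fermat.Agent.MW
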