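/-
Heights on the degree zero class group, part 1: marked curves.

A marked curve is a function field over an algebraically closed field together with an expansion
`ι` at a place `P0` and the Riemann-Roch formula for divisors of large degree. The coordinates of
a function with poles only at `P0` are coefficients of its expansion, which makes every
construction equivariant under coefficientwise automorphisms.
-/
import Fermat.Agent.Curve.BasicPlace
import Fermat.Prelude.Def_AlgebraicCurve_IsCurveOver
import Fermat.Prelude.Def_AlgebraicCurve_Repartitions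
import Mathlib.RingTheory.LaurentSeries
import Mathlib.LinearAlgebra.Dimension.Constructions
import Mathlib.LinearAlgebra.FiniteDimensional.Lemmas

set_option autoImplicit false
set_option linter.style.haveILetI false
set_option linter.unusedSectionVars false

noncomputable section

namespace Fermat.Agent.MW.Kummer

open AlgebraicCurve Fermat.Agent.Curve

/-- A function field with a marked expansion and Riemann-Roch in large degree. -/
structure Marked (K F : Type*) [Field K] [Field F] [Algebra K F] where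
  /-- the marked place -/
  P0 : Place K F
  /-- the expansion at the marked place -/
  ι : F →ₐ[K] LaurentSeries K
  order_ι : ∀ f : F, (ι f).order = P0.ord f
  /-- the genus -/
  g : ℕ
  finite_L : ∀ D : Divisor K F, Module.Finite K ↥(riemannRochSpace D)
  finrank_L : ∀ D : Divisor K F, 2 * (g : ℤ) - 1 ≤ Divisor.degree D →
    (Module.finrank K ↥(riemannRochSpace D) : ℤ) = Divisor.degree D + 1 - g

variable {K F : Type*} [Field K] [Field F] [Algebra K F]

theorem mem_L_iff {D : Divisor K F} {f : F} :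
    f ∈ riemannRochSpace D ↔ (f ≠ 0 → ∀ v : Place K F, -D v ≤ v.ord f) := by
  rw [mem_riemannRochSpace_iff]
  exact ⟨fun h hf v => (h v).resolve_left hf,
    fun h v => (eq_or_ne f 0).imp id fun hf => h hf v⟩

theorem le_ord_of_mem_L {D : Divisor K F} {f : F} (hf : f ∈ riemannRochSpace D) (h0 : f ≠ 0)
    (v : Place K F) : -D v ≤ v.ord f :=
  mem_L_iff.1 hf h0 v

theorem L_mono {D E : Divisor K F} (h : D ≤ E) :
    riemannRochSpace D ≤ riemannRochSpace E := fun f hf => mem_L_iff.2 fun h0 v => by
  have := le_ord_of_mem_L hf h0 v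
  have := Finsupp.le_def.1 h v
  omega

theorem mul_mem_L {D E : Divisor K F} {f e : F} (hf : f ∈ riemannRochSpace D)
    (he : e ∈ riemannRochSpace E) : f * e ∈ riemannRochSpace (D + E) := mem_L_iff.2 fun h0 v => by
  obtain ⟨hf0, he0⟩ := mul_ne_zero_iff.1 h0
  rw [v.ord_mul hf0 he0, Finsupp.add_apply]
  have := le_ord_of_mem_L hf hf0 v
  have := le_ord_of_mem_L he he0 v
  omega

section Deg

variable [IsAlgClosed K] [IsCurveOver K F]

theorem degree_eq_sum (D : Divisor K F) : Divisor.degree D = D.sum fun _ m => m := by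
  simp [Divisor.degree, IsCurveOver.deg_eq_one_of_isAlgClosed]

theorem degree_single' (v : Place K F) (m : ℤ) :
    Divisor.degree (Finsupp.single v m) = m := by
  simp [IsCurveOver.deg_eq_one_of_isAlgClosed]

theorem degree_le_degree {D E : Divisor K F} (h : D ≤ E) :
    Divisor.degree D ≤ Divisor.degree E := by
  classical
  have hs : ∀ G : Divisor K F, 0 ≤ G → 0 ≤ Divisor.degree G := fun G hG => by
    rw [degree_eq_sum]
    exact Finset.sum_nonneg fun v _ => hG v
  have h2 : (0 : Divisor K F) ≤ E - D :=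
    Finsupp.le_def.2 fun v => by simpa using Finsupp.le_def.1 h v
  have := hs _ h2
  rw [map_sub] at this
  omega

theorem eq_of_le_of_degree_eq {D E : Divisor K F} (h : D ≤ E)
    (hd : Divisor.degree D = Divisor.degree E) : D = E := by
  classical
  by_contra hne
  obtain ⟨v, hv⟩ : ∃ v, D v ≠ E v := by
    by_contra h'
    push Not at h'
    exact hne (Finsupp.ext h')
  have hle : D + Finsupp.single v 1 ≤ E := Finsupp.le_def.2 fun w => by
    have := Finsupp.le_def.1 h w
    rw [Finsupp.add_apply, Finsupp.single_apply]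
    split_ifs with hw
    · subst hw; omega
    · omega
  have := degree_le_degree hle
  rw [map_add, degree_single', hd] at this
  omega

end Deg

namespace Marked

variable (c : Marked K F)

/-- The places other than the marked one. -/
abbrev Pt : Type _ := {v : Place K F // v ≠ c.P0}

/-- The multiple `m • P0` of the marked place. -/
def mP (m : ℤ) : Divisor K F := Finsupp.single c.P0 m

@[simp]
theorem mP_self (m : ℤ) : c.mP m c.P0 = m := Finsupp.single_eq_same

@[simp]
theorem mP_pt (m : ℤ) (v : c.Pt) : c.mP m v.1 = 0 :=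
  Finsupp.single_eq_of_ne v.2

theorem mP_add (a b : ℤ) : c.mP (a + b) = c.mP a + c.mP b := Finsupp.single_add ..

/-- Functions with poles only at `P0`, of order at most `j`. -/
def W (j : ℕ) : Submodule K F := riemannRochSpace (c.mP j)

theorem mem_W_iff {j : ℕ} {f : F} :
    f ∈ c.W j ↔ (f ≠ 0 → (∀ v : c.Pt, 0 ≤ v.1.ord f) ∧ -(j : ℤ) ≤ c.P0.ord f) := by
  rw [W, mem_L_iff]
  refine forall_congr' fun _ => ⟨fun h => ⟨fun v => by simpa using h v.1, by simpa using h c.P0⟩,
    fun h v => ?_⟩
  by_cases hv : v = c.P0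
  · subst hv; simpa using h.2
  · rw [c.mP_pt _ ⟨v, hv⟩, neg_zero]
    exact h.1 ⟨v, hv⟩

theorem W_mono {i j : ℕ} (h : i ≤ j) : c.W i ≤ c.W j := by
  refine L_mono (Finsupp.le_def.2 fun v => ?_)
  by_cases hv : v = c.P0
  · subst hv; simpa using h
  · simp [c.mP_pt _ ⟨v, hv⟩]

theorem mul_mem_W {i j : ℕ} {f e : F} (hf : f ∈ c.W i) (he : e ∈ c.W j) :
    f * e ∈ c.W (i + j) := by
  have h := mul_mem_L (D := c.mP i) (E := c.mP j) hf he
  rwa [← c.mP_add, ← Nat.cast_add] at h

/-- A function is regular away from `P0`. -/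
def Reg (f : F) : Prop := ∀ v : c.Pt, f ∈ v.1.toValuationSubring

theorem reg_of_mem_W {j : ℕ} {f : F} (hf : f ∈ c.W j) : c.Reg f := fun v => by
  rcases eq_or_ne f 0 with rfl | h0
  · exact zero_mem _
  · exact mem_of_ord_nonneg _ ((c.mem_W_iff.1 hf h0).1 v)

theorem Reg.mul {c : Marked K F} {f e : F} (hf : c.Reg f) (he : c.Reg e) : c.Reg (f * e) :=
  fun v => mul_mem (hf v) (he v)

theorem Reg.smul {c : Marked K F} {f : F} (hf : c.Reg f) (a : K) : c.Reg (a • f) := fun v => by
  rw [Algebra.smul_def]
  exact mul_mem (v.1.algebraMap_mem' a) (hf v)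

theorem Reg.sum {c : Marked K F} {α : Type*} {s : Finset α} {f : α → F}
    (hf : ∀ a ∈ s, c.Reg (f a)) : c.Reg (∑ a ∈ s, f a) :=
  fun v => sum_mem fun a ha => hf a ha v

theorem Reg.prod {c : Marked K F} {α : Type*} {s : Finset α} {f : α → F}
    (hf : ∀ a ∈ s, c.Reg (f a)) : c.Reg (∏ a ∈ s, f a) :=
  fun v => prod_mem fun a ha => hf a ha v

section Eval

variable [IsAlgClosed K] [IsCurveOver K F]

omit [IsAlgClosed K] in
theorem isIntegral_residueField (v : Place K F) : Algebra.IsIntegral K v.ResidueField :=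
  haveI : Module.Finite K v.ResidueField := IsCurveOver.finiteResidue v
  Algebra.IsIntegral.of_finite K v.ResidueField

/-- The residue field of a place is the constant field. -/
def resEquiv (v : Place K F) : K ≃ₐ[K] v.ResidueField :=
  AlgEquiv.ofBijective (Algebra.ofId K v.ResidueField)
    (haveI := isIntegral_residueField v
     IsAlgClosed.algebraMap_bijective_of_isIntegral)

/-- Evaluation at a place, on its valuation ring. -/
def evHom (v : Place K F) : v.toValuationSubring →+* K :=
  (resEquiv v).symm.toAlgHom.toRingHom.comp (IsLocalRing.residue v.toValuationSubring)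

open Classical in
/-- The value of a function at a point (zero if it has a pole there). -/
def ev (v : c.Pt) (f : F) : K :=
  if h : f ∈ v.1.toValuationSubring then evHom v.1 ⟨f, h⟩ else 0

theorem ev_of_mem (v : c.Pt) {f : F} (h : f ∈ v.1.toValuationSubring) :
    c.ev v f = evHom v.1 ⟨f, h⟩ := dif_pos h

theorem evHom_algebraMap (v : Place K F) (a : K) :
    evHom v ⟨algebraMap K F a, v.algebraMap_mem' a⟩ = a := by
  apply (resEquiv v).injective
  show resEquiv v ((resEquiv v).symm _) = _
  rw [AlgEquiv.apply_symm_apply]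
  rfl

@[simp]
theorem ev_algebraMap (v : c.Pt) (a : K) : c.ev v (algebraMap K F a) = a := by
  rw [c.ev_of_mem v (v.1.algebraMap_mem' a), evHom_algebraMap]

@[simp]
theorem ev_zero (v : c.Pt) : c.ev v 0 = 0 := by
  simpa using c.ev_algebraMap v 0

@[simp]
theorem ev_one (v : c.Pt) : c.ev v 1 = 1 := by
  simpa using c.ev_algebraMap v 1

theorem ev_add (v : c.Pt) {f e : F} (hf : f ∈ v.1.toValuationSubring)
    (he : e ∈ v.1.toValuationSubring) : c.ev v (f + e) = c.ev v f + c.ev v e := by
  rw [c.ev_of_mem v hf, c.ev_of_mem v he, c.ev_of_mem v (add_mem hf he), ← map_add]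
  rfl

theorem ev_mul (v : c.Pt) {f e : F} (hf : f ∈ v.1.toValuationSubring)
    (he : e ∈ v.1.toValuationSubring) : c.ev v (f * e) = c.ev v f * c.ev v e := by
  rw [c.ev_of_mem v hf, c.ev_of_mem v he, c.ev_of_mem v (mul_mem hf he), ← map_mul]
  rfl

theorem ev_smul (v : c.Pt) (a : K) {f : F} (hf : f ∈ v.1.toValuationSubring) :
    c.ev v (a • f) = a * c.ev v f := by
  rw [Algebra.smul_def, c.ev_mul v (v.1.algebraMap_mem' a) hf, ev_algebraMap]

theorem ev_sum (v : c.Pt) {α : Type*} (s : Finset α) {f : α → F}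
    (hf : ∀ a ∈ s, f a ∈ v.1.toValuationSubring) :
    c.ev v (∑ a ∈ s, f a) = ∑ a ∈ s, c.ev v (f a) := by
  classical
  induction s using Finset.induction_on with
  | empty => simp
  | insert a t hat ih =>
    rw [Finset.sum_insert hat, Finset.sum_insert hat,
      c.ev_add v (hf a (Finset.mem_insert_self _ _))
        (sum_mem fun b hb => hf b (Finset.mem_insert_of_mem hb)),
      ih fun b hb => hf b (Finset.mem_insert_of_mem hb)]

theorem ev_prod (v : c.Pt) {α : Type*} (s : Finset α) {f : α → F}
    (hf : ∀ a ∈ s, f a ∈ v.1.toValuationSubring) :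
    c.ev v (∏ a ∈ s, f a) = ∏ a ∈ s, c.ev v (f a) := by
  classical
  induction s using Finset.induction_on with
  | empty => simp
  | insert a t hat ih =>
    rw [Finset.prod_insert hat, Finset.prod_insert hat,
      c.ev_mul v (hf a (Finset.mem_insert_self _ _))
        (prod_mem fun b hb => hf b (Finset.mem_insert_of_mem hb)),
      ih fun b hb => hf b (Finset.mem_insert_of_mem hb)]

theorem ev_eq_zero_iff (v : c.Pt) {f : F} (hf : f ∈ v.1.toValuationSubring) (h0 : f ≠ 0) :
    c.ev v f = 0 ↔ 0 < v.1.ord f := by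
  rw [c.ev_of_mem v hf]
  show (resEquiv v.1).symm (IsLocalRing.residue _ ⟨f, hf⟩) = 0 ↔ _
  rw [map_eq_zero_iff _ (resEquiv v.1).symm.injective, IsLocalRing.residue_eq_zero_iff,
    IsLocalRing.mem_maximalIdeal, mem_nonunits_iff]
  have hnn := ord_nonneg_of_mem v.1 hf
  refine ⟨fun h => lt_of_le_of_ne hnn fun he => h ?_, fun h hu => ?_⟩
  · obtain ⟨π, hπ⟩ := IsDiscreteValuationRing.exists_irreducible v.1.toValuationSubring
    obtain ⟨u, hu⟩ := v.1.exists_unit_mul_zpow h0 hπ
    rw [← he, zpow_zero, mul_one] at hu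
    have : (⟨f, hf⟩ : v.1.toValuationSubring) = u := Subtype.ext hu
    rw [this]
    exact u.isUnit
  · have h2 := v.1.ord_coe_unit hu.unit
    rw [IsUnit.unit_spec] at h2
    simp only at h2
    omega

end Eval

section Coord

/-- The pole orders at `P0` of functions in `W j`. -/
def poleOrders (j : ℕ) : Finset ℕ :=
  open Classical in
  (Finset.range (j + 1)).filter fun i => ∃ f ∈ c.W j, f ≠ 0 ∧ c.P0.ord f = -(i : ℤ)

/-- The index type of the coordinates on `W j`. -/
abbrev Idx (j : ℕ) : Type := ↥(c.poleOrders j)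

/-- The coordinates: coefficients of the expansion at the pole orders. -/
def cd (j : ℕ) : F →ₗ[K] (c.Idx j → K) where
  toFun f i := (c.ι f).coeff (-((i.1 : ℕ) : ℤ))
  map_add' f e := by ext i; simp
  map_smul' a f := by
    ext i
    show (c.ι (a • f)).coeff _ = a • (c.ι f).coeff _
    rw [Algebra.smul_def, map_mul, c.ι.commutes, HahnSeries.algebraMap_apply',
      smul_eq_mul]
    simp

theorem cd_apply (j : ℕ) (f : F) (i : c.Idx j) :
    c.cd j f i = (c.ι f).coeff (-((i.1 : ℕ) : ℤ)) := rfl

theorem coeff_ord_ne_zero {f : F} (hf : f ≠ 0) : (c.ι f).coeff (c.P0.ord f) ≠ 0 := by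
  have h : c.ι f ≠ 0 := (map_ne_zero_iff _ c.ι.toRingHom.injective).2 hf
  rw [← c.order_ι f]
  exact (HahnSeries.coeff_order_eq_zero (x := c.ι f)).not.2 h

theorem coeff_eq_zero_of_lt {f : F} {m : ℤ} (h : m < c.P0.ord f) : (c.ι f).coeff m = 0 :=
  HahnSeries.coeff_eq_zero_of_lt_order (by rwa [c.order_ι f])

variable [IsAlgClosed K] [IsCurveOver K F]

theorem degree_mP (m : ℤ) : Divisor.degree (c.mP m) = m := degree_single' _ _

/-- A nonzero function is not regular everywhere with a zero at `P0`. -/
theorem ord_P0_nonpos {f : F} (hf : c.Reg f) : c.P0.ord f ≤ 0 := by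
  classical
  rcases eq_or_ne f 0 with rfl | h0
  · simp
  by_contra h
  push Not at h
  obtain ⟨D, hD, hdeg⟩ := HasPrincipalDivisors.exists_divisor (K := K) f h0
  have hle : c.mP (c.P0.ord f) ≤ D := Finsupp.le_def.2 fun v => by
    rw [hD v]
    by_cases hv : v = c.P0
    · subst hv; simp
    · simpa [c.mP_pt _ ⟨v, hv⟩] using ord_nonneg_of_mem _ (hf ⟨v, hv⟩)
  have := degree_le_degree hle
  rw [degree_mP, hdeg] at this
  omega

theorem exists_idx {j : ℕ} {f : F} (hf : f ∈ c.W j) (h0 : f ≠ 0) :
    ∃ i : c.Idx j, c.P0.ord f = -((i.1 : ℕ) : ℤ) := by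
  have h1 := c.ord_P0_nonpos (c.reg_of_mem_W hf)
  have h2 := (c.mem_W_iff.1 hf h0).2
  refine ⟨⟨(-c.P0.ord f).toNat, ?_⟩, by simp only; omega⟩
  simp only [poleOrders, Finset.mem_filter, Finset.mem_range]
  exact ⟨by omega, f, hf, h0, by omega⟩

theorem eq_zero_of_cd_eq_zero {j : ℕ} {f : F} (hf : f ∈ c.W j) (h : c.cd j f = 0) : f = 0 := by
  by_contra h0
  obtain ⟨i, hi⟩ := c.exists_idx hf h0
  apply c.coeff_ord_ne_zero h0
  rw [hi]
  exact congrFun h i

/-- The coordinates are a linear equivalence on `W j`. -/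
theorem cd_bijective (j : ℕ) :
    Function.Bijective ((c.cd j).comp (c.W j).subtype) := by
  classical
  haveI : Module.Finite K ↥(c.W j) := c.finite_L _
  have hinj : Function.Injective ((c.cd j).comp (c.W j).subtype) :=
    (injective_iff_map_eq_zero _).2 fun f hf =>
      Subtype.ext (c.eq_zero_of_cd_eq_zero f.2 hf)
  refine ⟨hinj, ?_⟩
  rw [← LinearMap.range_eq_top]
  by_contra hne
  have hspec : ∀ i : c.Idx j, ∃ f ∈ c.W j, f ≠ 0 ∧ c.P0.ord f = -((i.1 : ℕ) : ℤ) := fun i =>
    (Finset.mem_filter.1 i.2).2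
  choose f hf hf0 hford using hspec
  have hli : LinearIndependent K fun i => (c.cd j) (f i) := by
    rw [Fintype.linearIndependent_iff]
    intro a ha
    by_contra hex
    push Not at hex
    obtain ⟨m, hm, hmax⟩ := Finset.exists_max_image
      (Finset.univ.filter fun i => a i ≠ 0) (fun i => (i.1 : ℕ))
      (hex.imp fun i hi => by simp [hi])
    simp only [Finset.mem_filter, Finset.mem_univ, true_and] at hm hmax
    have h := congrFun ha m
    rw [Finset.sum_apply, Finset.sum_eq_single m] at h
    · rw [Pi.smul_apply, smul_eq_mul, cd_apply, ← hford m] at h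
      exact (mul_ne_zero hm (c.coeff_ord_ne_zero (hf0 m))) h
    · intro i _ him
      rw [Pi.smul_apply, smul_eq_mul]
      rcases eq_or_ne (a i) 0 with hai | hai
      · rw [hai, zero_mul]
      · rw [cd_apply, c.coeff_eq_zero_of_lt, mul_zero]
        rw [hford i]
        have h1 := hmax i hai
        have h2 : (i.1 : ℕ) ≠ m.1 := fun h => him (Subtype.ext h)
        omega
    · simp
  refine hne (top_unique ?_)
  rw [← hli.span_eq_top_of_card_eq_finrank' (by simp), Submodule.span_le]
  rintro - ⟨i, rfl⟩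
  exact ⟨⟨f i, hf i⟩, rfl⟩

/-- The coordinate equivalence. -/
def cdEquiv (j : ℕ) : ↥(c.W j) ≃ₗ[K] (c.Idx j → K) :=
  LinearEquiv.ofBijective _ (c.cd_bijective j)

open Classical in
/-- The echelon basis of `W j`. -/
def e (j : ℕ) (i : c.Idx j) : F := ((c.cdEquiv j).symm (Pi.single i 1) : F)

theorem e_mem (j : ℕ) (i : c.Idx j) : c.e j i ∈ c.W j := ((c.cdEquiv j).symm _).2

open Classical in
theorem cd_e (j : ℕ) (i : c.Idx j) : c.cd j (c.e j i) = Pi.single i 1 :=
  (c.cdEquiv j).apply_symm_apply _

theorem sum_cd_smul_e {j : ℕ} {f : F} (hf : f ∈ c.W j) :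
    ∑ i, c.cd j f i • c.e j i = f := by
  classical
  refine sub_eq_zero.1 (c.eq_zero_of_cd_eq_zero (j := j) ?_ ?_)
  · exact sub_mem (sum_mem fun i _ => Submodule.smul_mem _ _ (c.e_mem j i)) hf
  · rw [map_sub, sub_eq_zero, map_sum]
    simp only [map_smul, cd_e]
    ext i
    simp [Finset.sum_apply, Pi.single_apply]

theorem card_idx {j : ℕ} (hj : 2 * c.g ≤ j + 1) : Fintype.card (c.Idx j) + c.g = j + 1 := by
  haveI : Module.Finite K ↥(c.W j) := c.finite_L _
  have h := (c.cdEquiv j).finrank_eq
  rw [Module.finrank_fintype_fun_eq_card] at h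
  have h2 := c.finrank_L (c.mP j) (by rw [degree_mP]; omega)
  rw [degree_mP] at h2
  have h3 : Module.finrank K ↥(riemannRochSpace (c.mP j)) = Module.finrank K ↥(c.W j) := rfl
  omega

theorem ev_eq_sum (v : c.Pt) {j : ℕ} {f : F} (hf : f ∈ c.W j) :
    c.ev v f = ∑ i, c.cd j f i * c.ev v (c.e j i) := by
  conv_lhs => rw [← c.sum_cd_smul_e hf]
  rw [c.ev_sum v _ fun i _ => (c.reg_of_mem_W (c.e_mem j i)).smul _ v]
  exact Finset.sum_congr rfl fun i _ => c.ev_smul v _ (c.reg_of_mem_W (c.e_mem j i) v)

end Coord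

section Points

variable [IsAlgClosed K] [IsCurveOver K F]

theorem finite_zeros {f : F} (h0 : f ≠ 0) : {v : c.Pt | v.1.ord f ≠ 0}.Finite := by
  obtain ⟨D, hD, -⟩ := HasPrincipalDivisors.exists_divisor (K := K) f h0
  exact (D.support.finite_toSet.preimage Subtype.val_injective.injOn).subset fun v hv => by
    simpa [hD v.1] using hv

theorem finite_ev_eq_zero {f : F} (hf : c.Reg f) (h0 : f ≠ 0) :
    {v : c.Pt | c.ev v f = 0}.Finite :=
  (c.finite_zeros h0).subset fun v hv => ne_of_gt ((c.ev_eq_zero_iff v (hf v) h0).1 hv)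

theorem exists_pole : ∃ f : F, c.Reg f ∧ c.P0.ord f < 0 := by
  haveI : Module.Finite K ↥(c.W (2 * c.g + 1)) := c.finite_L _
  have h1 := c.card_idx (j := 2 * c.g + 1) (by omega)
  obtain ⟨a, b, hab⟩ := Fintype.exists_pair_of_one_lt_card (α := c.Idx (2 * c.g + 1)) (by omega)
  obtain ⟨i, hi⟩ : ∃ i : c.Idx (2 * c.g + 1), (i.1 : ℕ) ≠ 0 := by
    by_cases ha : (a.1 : ℕ) = 0
    · exact ⟨b, fun hb => hab (Subtype.ext (ha.trans hb.symm))⟩
    · exact ⟨a, ha⟩
  obtain ⟨f, hf, -, hord⟩ := (by classical exact (Finset.mem_filter.1 i.2).2)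
  exact ⟨f, c.reg_of_mem_W hf, by omega⟩

/-- There are infinitely many points. -/
theorem infinite_pt : Infinite c.Pt := by
  obtain ⟨f, hf, hord⟩ := c.exists_pole
  haveI := IsAlgClosed.instInfinite (K := K)
  have hsurj : ∀ a : K, ∃ v : c.Pt, c.ev v f = a := fun a => by
    have hord' : c.P0.ord (f - algebraMap K F a) = c.P0.ord f := by
      rw [sub_eq_add_neg]
      refine ord_add_eq_left _ (fun h => by simp [h] at hord) fun _ => ?_
      rw [ord_neg, ord_algebraMap]
      exact hord
    have hne : f - algebraMap K F a ≠ 0 := fun h => by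
      rw [h, Place.ord_zero] at hord'; omega
    obtain ⟨D, hD, hdeg⟩ := HasPrincipalDivisors.exists_divisor (K := K) _ hne
    by_contra hnone
    push Not at hnone
    have hle : D ≤ c.mP (c.P0.ord f) := Finsupp.le_def.2 fun v => by
      rw [hD v]
      by_cases hv : v = c.P0
      · subst hv; simp [hord']
      · rw [c.mP_pt _ ⟨v, hv⟩]
        have hreg : c.Reg (f - algebraMap K F a) := fun w =>
          sub_mem (hf w) (w.1.algebraMap_mem' a)
        refine not_lt.1 fun hpos => hnone ⟨v, hv⟩ ?_
        have h := (c.ev_eq_zero_iff ⟨v, hv⟩ (hreg _) hne).2 hpos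
        rw [sub_eq_add_neg, ← map_neg, c.ev_add _ (hf _) (Place.algebraMap_mem' _ _),
          ev_algebraMap] at h
        linear_combination h
    have := degree_le_degree hle
    rw [degree_mP, hdeg] at this
    omega
  choose v hv using hsurj
  exact Infinite.of_injective v fun a b h => by rw [← hv a, h, hv b]

theorem eq_zero_of_ev {f : F} (hf : c.Reg f) (Z : Finset c.Pt)
    (h : ∀ v ∉ Z, c.ev v f = 0) : f = 0 := by
  by_contra h0
  haveI := c.infinite_pt
  obtain ⟨v, hv⟩ := Set.Finite.exists_notMem (Z.finite_toSet.union (c.finite_ev_eq_zero hf h0))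
  simp only [Set.mem_union, Finset.mem_coe, Set.mem_ofPred_eq, not_or] at hv
  exact hv.2 (h v hv.1)

end Points

/-- A representation of a class: `f` has a pole of exact order `2k` at `P0` with leading
coefficient `1`, and `2k` simple zeros in two halves. -/
structure Rep (k : ℕ) where
  /-- the function -/
  f : F
  mem : f ∈ c.W (2 * k)
  monic : (c.ι f).coeff (-(2 * k : ℤ)) = 1
  /-- the zeros -/
  P : Fin k ⊕ Fin k → c.Pt
  inj : Function.Injective P
  ord_P : ∀ i, (P i).1.ord f = 1
  ord_other : ∀ v : c.Pt, (∀ i, P i ≠ v) → v.1.ord f = 0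

namespace Rep

variable {c} {k : ℕ} (R : c.Rep k)

/-- The divisor `k P0 - (first half of the zeros)`. -/
def divisor : Divisor K F :=
  c.mP k - ∑ i : Fin k, Finsupp.single (R.P (Sum.inl i)).1 1

variable [IsAlgClosed K] [IsCurveOver K F]

theorem divisor_mem_degZero : R.divisor ∈ Divisor.degZero (K := K) (F := F) := by
  rw [Divisor.mem_degZero, divisor, map_sub, map_sum, c.degree_mP]
  simp [IsCurveOver.deg_eq_one_of_isAlgClosed]

/-- The class represented. -/
def cls : Pic0 K F := Pic0.mk ⟨R.divisor, R.divisor_mem_degZero⟩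

/-- The value of another representation at all zeros of this one. -/
def res (R P : c.Rep k) : K := ∏ i, c.ev (P.P i) R.f

/-- The two representations have no common zero. -/
def Disjoint (R P : c.Rep k) : Prop := ∀ i l, R.P i ≠ P.P l

end Rep

end Marked

end Fermat.Agent.MW.Kummer

end
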