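/-
Heights on the degree zero class group, part 2: functions on tuples of points.

`evT j a` is the function on tuples with coefficient vector `a` in the product basis of `W j`;
`prodVec` is the coefficient vector of the product of two determinants and `detVec` that of one.
-/
import Fermat.Agent.MW.HeightBase
import Mathlib.LinearAlgebra.Matrix.NonsingularInverse
import Mathlib.LinearAlgebra.Matrix.Determinant.Basic

set_option autoImplicit false
set_option linter.style.haveILetI false
set_option linter.unusedSectionVars false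

noncomputable section

open AlgebraicCurve Fermat.Agent.Curve

namespace Fermat.Agent.MW.Kummer.Marked

variable {K F : Type*} [Field K] [Field F] [Algebra K F] [IsAlgClosed K] [IsCurveOver K F]
variable (c : Marked K F) {ι : Type*} [Fintype ι] [DecidableEq ι]

/-- The function on tuples with given coefficients. -/
def evT (j : ℕ) : ((ι → c.Idx j) → K) →ₗ[K] ((ι → c.Pt) → K) where
  toFun a Q := ∑ I, a I * ∏ i, c.ev (Q i) (c.e j (I i))
  map_add' a b := by
    ext Q
    simp [add_mul, Finset.sum_add_distrib]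
  map_smul' m a := by
    ext Q
    simp [Finset.mul_sum, mul_assoc]

theorem evT_apply (j : ℕ) (a : (ι → c.Idx j) → K) (Q : ι → c.Pt) :
    c.evT j a Q = ∑ I, a I * ∏ i, c.ev (Q i) (c.e j (I i)) := rfl

/-- A product of one-variable functions. -/
theorem evT_prodCoord {j : ℕ} (w : ι → F) (hw : ∀ i, w i ∈ c.W j) (Q : ι → c.Pt) :
    c.evT j (fun I => ∏ i, c.cd j (w i) (I i)) Q = ∏ i, c.ev (Q i) (w i) := by
  rw [evT_apply, Finset.prod_congr rfl fun i _ => c.ev_eq_sum (Q i) (hw i), Fintype.prod_sum]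
  exact Finset.sum_congr rfl fun I _ => Finset.prod_mul_distrib.symm

/-- The determinant function of a family. -/
def detFn (u : ι → F) (Q : ι → c.Pt) : K :=
  Matrix.det (Matrix.of fun l i => c.ev (Q i) (u l))

theorem detFn_eq (u : ι → F) (Q : ι → c.Pt) :
    c.detFn u Q = ∑ p : Equiv.Perm ι,
      (Equiv.Perm.sign p : ℤ) * ∏ i, c.ev (Q i) (u (p i)) := by
  rw [detFn, Matrix.det_apply']
  rfl

/-- The coefficient vector of a determinant. -/
def detVec (j : ℕ) (u : ι → F) : (ι → c.Idx j) → K := fun I =>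
  ∑ p : Equiv.Perm ι, (Equiv.Perm.sign p : ℤ) * ∏ i, c.cd j (u (p i)) (I i)

theorem detVec_eq_det (j : ℕ) (u : ι → F) (I : ι → c.Idx j) :
    c.detVec j u I = Matrix.det (Matrix.of fun l i => c.cd j (u l) (I i)) := by
  rw [Matrix.det_apply']
  rfl

theorem evT_detVec {j : ℕ} {u : ι → F} (hu : ∀ l, u l ∈ c.W j) (Q : ι → c.Pt) :
    c.evT j (c.detVec j u) Q = c.detFn u Q := by
  have h : c.detVec j u = ∑ p : Equiv.Perm ι,
      ((Equiv.Perm.sign p : ℤ) : K) • fun I => ∏ i, c.cd j (u (p i)) (I i) := by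
    ext I
    simp [detVec]
  rw [h, map_sum, Finset.sum_apply, detFn_eq]
  refine Finset.sum_congr rfl fun p _ => ?_
  rw [map_smul, Pi.smul_apply, c.evT_prodCoord _ (fun i => hu (p i)), smul_eq_mul]

/-- The coefficient vector of the product of two determinants. -/
def prodVec (j : ℕ) (s t : ι → F) : (ι → c.Idx j) → K := fun I =>
  ∑ p : Equiv.Perm ι, ∑ r : Equiv.Perm ι,
    ((Equiv.Perm.sign p : ℤ) : K) * ((Equiv.Perm.sign r : ℤ) : K) *
      ∏ i, c.cd j (s (p i) * t (r i)) (I i)

theorem prodVec_comm (j : ℕ) (s t : ι → F) : c.prodVec j s t = c.prodVec j t s := by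
  ext I
  simp only [prodVec]
  rw [Finset.sum_comm]
  simp [mul_comm]

theorem evT_prodVec {j : ℕ} {s t : ι → F} (h : ∀ l m, s l * t m ∈ c.W j) (Q : ι → c.Pt) :
    c.evT j (c.prodVec j s t) Q = ∑ p : Equiv.Perm ι, ∑ r : Equiv.Perm ι,
      ((Equiv.Perm.sign p : ℤ) : K) * ((Equiv.Perm.sign r : ℤ) : K) *
        ∏ i, c.ev (Q i) (s (p i) * t (r i)) := by
  have he : c.prodVec j s t = ∑ p : Equiv.Perm ι, ∑ r : Equiv.Perm ι,
      (((Equiv.Perm.sign p : ℤ) : K) * ((Equiv.Perm.sign r : ℤ) : K)) •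
        fun I => ∏ i, c.cd j (s (p i) * t (r i)) (I i) := by
    ext I
    simp [prodVec, Finset.sum_apply]
  rw [he, map_sum, Finset.sum_apply]
  refine Finset.sum_congr rfl fun p _ => ?_
  rw [map_sum, Finset.sum_apply]
  refine Finset.sum_congr rfl fun r _ => ?_
  rw [map_smul, Pi.smul_apply, c.evT_prodCoord _ (fun i => h (p i) (r i)), smul_eq_mul]

/-- The basic identity: clearing poles turns `prodVec` into a product of determinants. -/
theorem evT_prodVec_mul {j : ℕ} {s t : ι → F} (h : ∀ l m, s l * t m ∈ c.W j) {a b : F}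
    (hs : ∀ l, c.Reg (a * s l)) (ht : ∀ l, c.Reg (b * t l)) (hab : c.Reg (a * b))
    (Q : ι → c.Pt) :
    c.evT j (c.prodVec j s t) Q * ∏ i, c.ev (Q i) (a * b) =
      c.detFn (fun l => a * s l) Q * c.detFn (fun l => b * t l) Q := by
  rw [c.evT_prodVec h, detFn_eq, detFn_eq, Finset.sum_mul_sum, Finset.sum_mul]
  refine Finset.sum_congr rfl fun p _ => ?_
  rw [Finset.sum_mul]
  refine Finset.sum_congr rfl fun r _ => ?_
  rw [mul_assoc, ← Finset.prod_mul_distrib, mul_mul_mul_comm, ← Finset.prod_mul_distrib]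
  congr 1
  refine Finset.prod_congr rfl fun i _ => ?_
  rw [← c.ev_mul _ (c.reg_of_mem_W (h _ _) _) (hab _), ← c.ev_mul _ (hs _ _) (ht _ _)]
  congr 1
  ring

theorem detFn_mul_left {u : ι → F} {a : F} (hu : ∀ l, c.Reg (u l)) (ha : c.Reg a)
    (Q : ι → c.Pt) :
    c.detFn (fun l => a * u l) Q = (∏ i, c.ev (Q i) a) * c.detFn u Q := by
  rw [detFn_eq, detFn_eq, Finset.mul_sum]
  refine Finset.sum_congr rfl fun p _ => ?_
  rw [Finset.prod_congr rfl fun i _ => c.ev_mul (Q i) (ha _) (hu (p i) _),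
    Finset.prod_mul_distrib]
  ring

theorem detFn_change {u : ι → F} (hu : ∀ l, c.Reg (u l)) (A : Matrix ι ι K) (Q : ι → c.Pt) :
    c.detFn (fun l => ∑ m, A l m • u m) Q = A.det * c.detFn u Q := by
  rw [detFn, detFn, ← Matrix.det_mul]
  congr 1
  ext l i
  simp only [Matrix.mul_apply, Matrix.of_apply]
  rw [c.ev_sum _ _ fun m _ => (hu m).smul _ _]
  exact Finset.sum_congr rfl fun m _ => c.ev_smul _ _ (hu m _)

/-- Independent regular functions have a non-degenerate tuple avoiding any finite set. -/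
theorem exists_detFn_ne_zero {u : ι → F} (hu : ∀ l, c.Reg (u l))
    (hli : LinearIndependent K u) (Z : Finset c.Pt) :
    ∃ Q : ι → c.Pt, (∀ i, Q i ∉ Z) ∧ c.detFn u Q ≠ 0 := by
  classical
  let r : {v : c.Pt // v ∉ Z} → ι → K := fun v l => c.ev v.1 (u l)
  have hspan : Submodule.span K (Set.range r) = ⊤ := by
    by_contra hne
    obtain ⟨φ, hφ0, hφ⟩ := Submodule.exists_dual_map_eq_bot_of_lt_top (lt_top_iff_ne_top.2 hne)
      inferInstance
    apply hφ0
    have hvan : ∀ v ∉ Z, c.ev v (∑ l, φ (Pi.single l 1) • u l) = 0 := by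
      intro v hv
      rw [c.ev_sum _ _ fun l _ => (hu l).smul _ _]
      have h1 : φ (r ⟨v, hv⟩) = 0 := by
        have := Submodule.mem_map_of_mem (f := φ)
          (Submodule.subset_span (R := K) (Set.mem_range_self (f := r) ⟨v, hv⟩))
        rwa [hφ, Submodule.mem_bot] at this
      rw [pi_eq_sum_univ (r ⟨v, hv⟩), map_sum] at h1
      refine Eq.trans (Finset.sum_congr rfl fun l _ => ?_) h1
      rw [c.ev_smul _ _ (hu l _), map_smul, smul_eq_mul, mul_comm]
      congr 1
      congr 1
      ext m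
      simp [Pi.single_apply, eq_comm]
    have h0 := c.eq_zero_of_ev (Reg.sum fun l _ => (hu l).smul _) Z hvan
    have h1 := Fintype.linearIndependent_iff.1 hli _ h0
    refine LinearMap.pi_ext' fun l => LinearMap.ext_ring ?_
    simpa using h1 l
  obtain ⟨s, hs, hsspan, hsli⟩ := exists_linearIndependent K (Set.range r)
  rw [hspan] at hsspan
  let B := Module.Basis.mk hsli (by rw [Subtype.range_coe, hsspan])
  haveI : Fintype ↥s := FiniteDimensional.fintypeBasisIndex B
  have hcard : Fintype.card ↥s = Fintype.card ι := by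
    rw [← Module.finrank_eq_card_basis B, Module.finrank_fintype_fun_eq_card]
  let e := Fintype.equivOfCardEq hcard
  have hsel : ∀ i : ι, ∃ v : {v : c.Pt // v ∉ Z}, r v = (e.symm i : ι → K) :=
    fun i => hs (e.symm i).2
  choose v hv using hsel
  refine ⟨fun i => (v i).1, fun i => (v i).2, ?_⟩
  rw [detFn, ← Matrix.det_transpose, ← isUnit_iff_ne_zero, ← Matrix.isUnit_iff_isUnit_det,
    ← Matrix.linearIndependent_rows_iff_isUnit]
  have h2 := hsli.comp e.symm e.symm.injective
  have heq : (Matrix.of fun l i => c.ev (v i).1 (u l)).transpose.row =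
      (Subtype.val ∘ e.symm : ι → ι → K) := by
    ext i l
    rw [Function.comp_apply, ← hv i]
    rfl
  rw [heq]
  exact h2

theorem linearIndependent_e (j : ℕ) : LinearIndependent K (c.e j) := by
  classical
  rw [Fintype.linearIndependent_iff]
  intro a ha i
  have h := congrFun (congrArg (c.cd j) ha) i
  simpa [map_sum, cd_e, Finset.sum_apply, Pi.single_apply] using h

/-- Coefficients are determined by the values at tuples avoiding a finite set. -/
theorem eq_zero_of_evT {j : ℕ} {a : (ι → c.Idx j) → K} (Z : Finset c.Pt)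
    (h : ∀ Q : ι → c.Pt, (∀ i, Q i ∉ Z) → c.evT j a Q = 0) : a = 0 := by
  classical
  obtain ⟨v, hv, hdet⟩ := c.exists_detFn_ne_zero (fun i => c.reg_of_mem_W (c.e_mem j i))
    (c.linearIndependent_e j) Z
  let M : Matrix (c.Idx j) (c.Idx j) K := Matrix.of fun l i => c.ev (v i) (c.e j l)
  have hM : IsUnit M.det := isUnit_iff_ne_zero.2 hdet
  ext J
  calc a J = ∑ I, a I * ∏ i, (M * M⁻¹) (I i) (J i) := by
        rw [Matrix.mul_nonsing_inv M hM, Finset.sum_eq_single J]
        · simp
        · intro I _ hI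
          obtain ⟨i, hi⟩ := Function.ne_iff.1 hI
          rw [Finset.prod_eq_zero (Finset.mem_univ i) (by simp [Matrix.one_apply_ne hi]), mul_zero]
        · simp
    _ = ∑ L : ι → c.Idx j, c.evT j a (fun i => v (L i)) * ∏ i, M⁻¹ (L i) (J i) := by
        simp only [Matrix.mul_apply, Fintype.prod_sum, evT_apply, Finset.mul_sum, Finset.sum_mul]
        rw [Finset.sum_comm]
        refine Finset.sum_congr rfl fun L _ => Finset.sum_congr rfl fun I _ => ?_
        rw [mul_assoc, ← Finset.prod_mul_distrib]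
        rfl
    _ = 0 := Finset.sum_eq_zero fun L _ => by rw [h _ fun i => hv _, zero_mul]

theorem evT_injective (j : ℕ) : Function.Injective (c.evT (ι := ι) j) :=
  (injective_iff_map_eq_zero _).2 fun _ h => c.eq_zero_of_evT ∅ fun Q _ => congrFun h Q

section Slices

/-- All one-variable slices are regular functions. -/
def SliceReg (φ : (ι → c.Pt) → K) : Prop :=
  ∀ Q i, ∃ f : F, c.Reg f ∧ ∀ v, φ (Function.update Q i v) = c.ev v f

/-- All one-variable slices lie in `U`. -/
def SliceIn (U : Submodule K F) (φ : (ι → c.Pt) → K) : Prop :=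
  ∀ Q i, ∃ f ∈ U, ∀ v, φ (Function.update Q i v) = c.ev v f

variable {c}

theorem SliceReg.mul {φ ψ : (ι → c.Pt) → K} (hφ : c.SliceReg φ) (hψ : c.SliceReg ψ) :
    c.SliceReg (φ * ψ) := fun Q i => by
  obtain ⟨f, hf, hf'⟩ := hφ Q i
  obtain ⟨e, he, he'⟩ := hψ Q i
  exact ⟨f * e, hf.mul he, fun v => by rw [Pi.mul_apply, hf', he', c.ev_mul v (hf v) (he v)]⟩

theorem sliceReg_prod {f : F} (hf : c.Reg f) :
    c.SliceReg (fun Q : ι → c.Pt => ∏ i, c.ev (Q i) f) := fun Q i => by
  classical
  refine ⟨(∏ l ∈ Finset.univ.erase i, c.ev (Q l) f) • f, hf.smul _, fun v => ?_⟩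
  dsimp only
  rw [c.ev_smul v _ (hf v), ← Finset.prod_erase_mul _ _ (Finset.mem_univ i)]
  congr 1
  · exact Finset.prod_congr rfl fun l hl => by
      rw [Function.update_of_ne (Finset.ne_of_mem_erase hl)]
  · rw [Function.update_self]

variable (c)

/-- The slice of `evT j a` in the variable `i`. -/
def slice1 (j : ℕ) (Q : ι → c.Pt) (i : ι) : ((ι → c.Idx j) → K) →ₗ[K] F where
  toFun a := ∑ I, (a I * ∏ l ∈ Finset.univ.erase i, c.ev (Q l) (c.e j (I l))) • c.e j (I i)
  map_add' a b := by simp [add_mul, add_smul, Finset.sum_add_distrib]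
  map_smul' m a := by simp [Finset.smul_sum, mul_assoc, mul_smul]

theorem slice1_mem (j : ℕ) (Q : ι → c.Pt) (i : ι) (a : (ι → c.Idx j) → K) :
    c.slice1 j Q i a ∈ c.W j :=
  sum_mem fun _ _ => Submodule.smul_mem _ _ (c.e_mem _ _)

theorem evT_update (j : ℕ) (Q : ι → c.Pt) (i : ι) (a : (ι → c.Idx j) → K) (v : c.Pt) :
    c.evT j a (Function.update Q i v) = c.ev v (c.slice1 j Q i a) := by
  show _ = c.ev v (∑ I, _)
  rw [c.ev_sum v _ fun I _ => (c.reg_of_mem_W (c.e_mem j _)).smul _ v, evT_apply]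
  refine Finset.sum_congr rfl fun I _ => ?_
  rw [c.ev_smul v _ (c.reg_of_mem_W (c.e_mem j _) v), mul_assoc,
    ← Finset.prod_erase_mul _ _ (Finset.mem_univ i), Function.update_self]
  congr 2
  exact Finset.prod_congr rfl fun l hl => by
    rw [Function.update_of_ne (Finset.ne_of_mem_erase hl)]

theorem sliceIn_evT (j : ℕ) (a : (ι → c.Idx j) → K) : c.SliceIn (c.W j) (c.evT j a) :=
  fun Q i => ⟨_, c.slice1_mem j Q i a, fun v => c.evT_update j Q i a v⟩

theorem sliceReg_evT (j : ℕ) (a : (ι → c.Idx j) → K) : c.SliceReg (c.evT j a) := fun Q i =>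
  ⟨_, c.reg_of_mem_W (c.slice1_mem j Q i a), fun v => c.evT_update j Q i a v⟩

variable {c}

/-- A common tuple where two functions are both non-zero, avoiding a finite set. -/
theorem SliceReg.exists_common {φ ψ : (ι → c.Pt) → K} (hφ : c.SliceReg φ) (hψ : c.SliceReg ψ)
    (hφ0 : ∃ Q, φ Q ≠ 0) (hψ0 : ∃ Q, ψ Q ≠ 0) (Z : Finset c.Pt) :
    ∃ Q : ι → c.Pt, (∀ i, Q i ∉ Z) ∧ φ Q ≠ 0 ∧ ψ Q ≠ 0 := by
  classical
  haveI := c.infinite_pt
  suffices h : ∀ s : Finset ι, ∃ Q R : ι → c.Pt, φ Q ≠ 0 ∧ ψ R ≠ 0 ∧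
      ∀ i ∈ s, Q i = R i ∧ Q i ∉ Z by
    obtain ⟨Q, R, hQ, hR, hs⟩ := h Finset.univ
    have : Q = R := funext fun i => (hs i (Finset.mem_univ i)).1
    subst this
    exact ⟨Q, fun i => (hs i (Finset.mem_univ i)).2, hQ, hR⟩
  intro s
  induction s using Finset.induction_on with
  | empty =>
    obtain ⟨Q, hQ⟩ := hφ0
    obtain ⟨R, hR⟩ := hψ0
    exact ⟨Q, R, hQ, hR, by simp⟩
  | insert i s hi ih =>
    obtain ⟨Q, R, hQ, hR, hs⟩ := ih
    obtain ⟨f, hf, hf'⟩ := hφ Q i
    obtain ⟨e, he, he'⟩ := hψ R i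
    have hf0 : f ≠ 0 := fun h => hQ (by
      simpa [h, Function.update_eq_self] using hf' (Q i))
    have he0 : e ≠ 0 := fun h => hR (by
      simpa [h, Function.update_eq_self] using he' (R i))
    obtain ⟨v, hv⟩ := Set.Finite.exists_notMem ((Z.finite_toSet.union
      (c.finite_ev_eq_zero hf hf0)).union (c.finite_ev_eq_zero he he0))
    simp only [Set.mem_union, Finset.mem_coe, Set.mem_ofPred_eq, not_or] at hv
    refine ⟨Function.update Q i v, Function.update R i v, by rw [hf']; exact hv.1.2,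
      by rw [he']; exact hv.2, fun l hl => ?_⟩
    rcases Finset.mem_insert.1 hl with rfl | hl
    · simp [hv.1.1]
    · have : l ≠ i := fun h => hi (h ▸ hl)
      simpa [Function.update_of_ne this] using hs l hl

/-- Functions on tuples with regular slices have no zero divisors. -/
theorem SliceReg.eq_zero_or_eq_zero {φ ψ : (ι → c.Pt) → K} (hφ : c.SliceReg φ)
    (hψ : c.SliceReg ψ) (Z : Finset c.Pt)
    (h : ∀ Q : ι → c.Pt, (∀ i, Q i ∉ Z) → φ Q * ψ Q = 0) : φ = 0 ∨ ψ = 0 := by
  by_contra hne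
  push Not at hne
  obtain ⟨Q, hZ, h1, h2⟩ := hφ.exists_common hψ (Function.ne_iff.1 hne.1)
    (Function.ne_iff.1 hne.2) Z
  exact mul_ne_zero h1 h2 (h Q hZ)

/-- Cancellation of a non-zero factor. -/
theorem SliceReg.eq_of_mul_eq {φ ψ χ : (ι → c.Pt) → K} (hφ : c.SliceReg φ) (hψ : c.SliceReg ψ)
    (hχ : c.SliceReg χ) (hne : χ ≠ 0)
    (h : ∀ Q : ι → c.Pt, φ Q * χ Q = ψ Q * χ Q) : φ = ψ := by
  have hsub : c.SliceReg (φ - ψ) := fun Q i => by
    obtain ⟨f, hf, hf'⟩ := hφ Q i
    obtain ⟨e, he, he'⟩ := hψ Q i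
    refine ⟨f + (-1 : K) • e, fun v => add_mem (hf v) (he.smul _ v), fun v => ?_⟩
    rw [Pi.sub_apply, hf', he', c.ev_add v (hf v) (he.smul _ v), c.ev_smul v _ (he v)]
    ring
  rcases hsub.eq_zero_or_eq_zero hχ ∅ (fun Q _ => by
    rw [Pi.sub_apply, sub_mul, h, sub_self]) with h0 | h0
  · exact sub_eq_zero.1 h0
  · exact absurd h0 hne

variable (c)

theorem prod_ev_ne_zero {f : F} (hf : c.Reg f) (h0 : f ≠ 0) :
    (fun Q : ι → c.Pt => ∏ i, c.ev (Q i) f) ≠ 0 := by
  haveI := c.infinite_pt
  obtain ⟨v, hv⟩ := Set.Finite.exists_notMem (c.finite_ev_eq_zero hf h0)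
  exact Function.ne_iff.2 ⟨fun _ => v, Finset.prod_ne_zero_iff.2 fun i _ => hv⟩

/-- Interpolation: an antisymmetric function with slices in the span of `u` is a multiple of the
determinant of `u`. -/
theorem eq_smul_detFn {u : ι → F} (hu : ∀ l, c.Reg (u l)) (hli : LinearIndependent K u)
    {φ : (ι → c.Pt) → K} (hslice : c.SliceIn (Submodule.span K (Set.range u)) φ)
    (hswap : ∀ (Q : ι → c.Pt) (i l : ι), i ≠ l → φ (Q ∘ Equiv.swap i l) = -φ Q)
    [CharZero K] : ∃ m : K, φ = m • c.detFn u := by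
  classical
  obtain ⟨Q0, -, hdet⟩ := c.exists_detFn_ne_zero hu hli ∅
  refine ⟨φ Q0 / c.detFn u Q0, funext fun Q => ?_⟩
  set m := φ Q0 / c.detFn u Q0 with hm
  have hperm : ∀ (p : Equiv.Perm ι) (R : ι → c.Pt),
      φ (R ∘ p) = ((Equiv.Perm.sign p : ℤ) : K) * φ R := by
    intro p
    induction p using Equiv.Perm.swap_induction_on with
    | one => intro R; simp
    | swap_mul p x y hxy ih =>
      intro R
      rw [Equiv.Perm.coe_mul, ← Function.comp_assoc, ih, hswap R x y hxy,
        Equiv.Perm.sign_mul, Equiv.Perm.sign_swap hxy]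
      push_cast
      simp
  suffices h : ∀ s : Finset ι, ∀ R : ι → c.Pt, (∀ i ∉ s, R i ∈ Set.range Q0) →
      φ R = m * c.detFn u R by
    simpa using h Finset.univ Q (by simp)
  intro s
  induction s using Finset.induction_on with
  | empty =>
    intro R hR
    choose p hp using fun i => hR i (Finset.notMem_empty i)
    have hRp : R = Q0 ∘ p := funext fun i => (hp i).symm
    by_cases hinj : Function.Injective p
    · let P : Equiv.Perm ι := Equiv.ofBijective p (Finite.injective_iff_bijective.1 hinj)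
      rw [hRp, show (Q0 ∘ p) = Q0 ∘ (P : ι → ι) from rfl, hperm, hm]
      have : c.detFn u (Q0 ∘ (P : ι → ι)) =
          ((Equiv.Perm.sign P : ℤ) : K) * c.detFn u Q0 := by
        rw [detFn, detFn, ← Matrix.det_permute' P]
        rfl
      rw [this]
      field_simp
    · obtain ⟨i, l, hil, hne⟩ := Function.not_injective_iff.1 hinj
      have h1 : R ∘ Equiv.swap i l = R := by
        ext x : 1
        rw [Function.comp_apply, hRp, Function.comp_apply, Function.comp_apply]
        rcases Equiv.swap_apply_def i l x ▸ (rfl : Equiv.swap i l x = _) with hx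
        by_cases hxi : x = i
        · subst hxi; simp [hil]
        · by_cases hxl : x = l
          · subst hxl; simp [hil]
          · rw [Equiv.swap_apply_of_ne_of_ne hxi hxl]
      have h2 := hswap R i l hne
      rw [h1] at h2
      have h0 : φ R = 0 := by linear_combination h2 / 2
      have h3 : c.detFn u R = 0 := by
        refine Matrix.det_zero_of_column_eq hne fun x => ?_
        simp [hRp, hil]
      rw [h0, h3, mul_zero]
  | insert i s hi ih =>
    intro R hR
    obtain ⟨f, hf, hf'⟩ := hslice R i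
    obtain ⟨a, ha⟩ := (Submodule.mem_span_range_iff_exists_fun K).1 hf
    let M : Matrix ι ι K := Matrix.of fun l x => c.ev (Q0 x) (u l)
    have hM : IsUnit M.det := isUnit_iff_ne_zero.2 hdet
    -- values of a combination of `u` are determined by its values at `Q0`
    have hexp : ∀ (b : ι → K) (v : c.Pt), c.ev v (∑ l, b l • u l) =
        ∑ x, c.ev (Q0 x) (∑ l, b l • u l) * ∑ l, M⁻¹ x l * c.ev v (u l) := by
      intro b v
      have e1 : ∀ w : c.Pt, c.ev w (∑ l, b l • u l) = ∑ l, b l * c.ev w (u l) := fun w => by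
        rw [c.ev_sum _ _ fun l _ => (hu l).smul _ _]
        exact Finset.sum_congr rfl fun l _ => c.ev_smul _ _ (hu l _)
      have e2 : (Matrix.vecMul (Matrix.vecMul b M) M⁻¹) = b := by
        rw [Matrix.vecMul_vecMul, Matrix.mul_nonsing_inv M hM, Matrix.vecMul_one]
      rw [e1]
      conv_lhs => rw [← e2]
      simp only [e1, Matrix.vecMul, dotProduct, M, Matrix.of_apply, Finset.sum_mul, Finset.mul_sum]
      rw [Finset.sum_comm]
      simp [mul_assoc]
    -- both sides agree on all updates of `R` at `i` by points of `Q0`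
    have hagree : ∀ x, φ (Function.update R i (Q0 x)) =
        m * c.detFn u (Function.update R i (Q0 x)) := fun x => ih _ fun l hl => by
      by_cases hli' : l = i
      · subst hli'; simp
      · rw [Function.update_of_ne hli']
        exact hR l (by simp [hli', hl])
    obtain ⟨b, hb⟩ : ∃ b : ι → K, ∀ v, c.detFn u (Function.update R i v) =
        c.ev v (∑ l, b l • u l) := by
      refine ⟨fun l => Matrix.adjugate (Matrix.of fun l x => c.ev (R x) (u l)) i l, fun v => ?_⟩
      rw [c.ev_sum _ _ fun l _ => (hu l).smul _ _]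
      rw [detFn, show (Matrix.of fun l x => c.ev (Function.update R i v x) (u l)) =
          (Matrix.of fun l x => c.ev (R x) (u l)).updateCol i (fun l => c.ev v (u l)) by
        ext l x
        by_cases hx : x = i
        · subst hx; simp
        · simp [Matrix.updateCol_ne hx, Function.update_of_ne hx]]
      rw [← Matrix.cramer_apply, Matrix.cramer_eq_adjugate_mulVec]
      simp only [Matrix.mulVec, dotProduct]
      exact Finset.sum_congr rfl fun l _ => (c.ev_smul _ _ (hu l _)).symm
    have hRe : R = Function.update R i (R i) := (Function.update_eq_self i R).symm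
    rw [hRe, hf', hb, ← ha, hexp a, hexp b, Finset.mul_sum]
    refine Finset.sum_congr rfl fun x _ => ?_
    rw [ha, ← hf', ← hb, hagree x]
    ring

end Slices

end Fermat.Agent.MW.Kummer.Marked

end
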