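/-
Heights on the degree zero class group, part 3: Kummer coordinates of a class.

For a class `x` with representative `D`, bases `s` of `L(D + d P0)` and `t` of `L(-D + d P0)`,
the coefficient vector of `det s(Q) det t(Q)` depends only on `x` up to a scalar, is never zero,
is equivariant, even in `x`, and determines `x` up to finitely many choices.
-/
import Fermat.Agent.MW.HeightTuple
import Fermat.Prelude.Def_AlgebraicCurve_BaseChangeGalois
import Mathlib.GroupTheory.CosetCover
import Mathlib.Data.Finsupp.Interval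
import Mathlib.Data.Int.Interval

set_option autoImplicit false
set_option linter.style.haveILetI false
set_option linter.unusedSectionVars false

noncomputable section

open AlgebraicCurve Fermat.Agent.Curve

namespace Fermat.Agent.MW.Kummer.Marked

variable {K F : Type*} [Field K] [Field F] [Algebra K F] [IsAlgClosed K] [IsCurveOver K F]
variable (c : Marked K F)

/-- `d` is a level with `card ι = d + 1 - g`. -/
structure Level (ι : Type*) [Fintype ι] (d : ℕ) : Prop where
  two_g_le : 2 * c.g ≤ d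
  card_eq : Fintype.card ι + c.g = d + 1

theorem finrank_L' {D : Divisor K F} {d : ℕ} (hD : Divisor.degree D = d) (hd : 2 * c.g ≤ d + 1) :
    Module.finrank K ↥(riemannRochSpace D) + c.g = d + 1 := by
  have := c.finrank_L D (by omega)
  omega

/-- A function in `L(D)` with exact order at finitely many given places. -/
theorem exists_avoid (D : Divisor K F) (hD : 2 * (c.g : ℤ) ≤ Divisor.degree D)
    (Z : Finset (Place K F)) :
    ∃ s ∈ riemannRochSpace D, s ≠ 0 ∧ ∀ v ∈ Z, v.ord s = -D v := by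
  classical
  haveI := IsAlgClosed.instInfinite (K := K)
  haveI : Module.Finite K ↥(riemannRochSpace D) := c.finite_L D
  let V := riemannRochSpace D
  let sub : Place K F → Submodule K ↥V := fun v =>
    (riemannRochSpace (D - Finsupp.single v 1)).comap V.subtype
  have hsub : ∀ v, D - Finsupp.single v 1 ≤ D := fun v => Finsupp.le_def.2 fun w => by
    rw [Finsupp.sub_apply, Finsupp.single_apply]
    split_ifs <;> omega
  have hne : (⊤ : Submodule K ↥V) ∉ insert ⊥ (Z.image sub) := by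
    rw [Finset.mem_insert, Finset.mem_image, not_or]
    have hpos : 0 < Module.finrank K ↥V := by
      have := c.finrank_L D (by omega)
      show 0 < Module.finrank K ↥(riemannRochSpace D)
      omega
    refine ⟨fun h => ?_, ?_⟩
    · have := finrank_top K ↥V
      rw [h, finrank_bot] at this
      omega
    · rintro ⟨v, -, hv⟩
      have h1 : riemannRochSpace (D - Finsupp.single v 1) = riemannRochSpace D := by
        refine le_antisymm (L_mono (hsub v)) fun f hf => ?_
        have : (⟨f, hf⟩ : ↥V) ∈ sub v := hv ▸ Submodule.mem_top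
        exact this
      have h2 := c.finrank_L D (by omega)
      have h3 := c.finrank_L (D - Finsupp.single v 1)
        (by rw [map_sub, degree_single']; omega)
      rw [h1, map_sub, degree_single'] at h3
      omega
  obtain ⟨s, hs⟩ := (Set.ne_univ_iff_exists_notMem _).1
    (Subspace.biUnion_ne_univ_of_top_notMem hne)
  simp only [Set.mem_iUnion, Finset.mem_insert, Finset.mem_image, SetLike.mem_coe, not_exists]
    at hs
  have hs0 : (s : F) ≠ 0 := fun h => hs ⊥ (Or.inl rfl) (by simpa using h)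
  refine ⟨s, s.2, hs0, fun v hv => le_antisymm ?_ (le_ord_of_mem_L s.2 hs0 v)⟩
  by_contra hlt
  refine hs (sub v) (Or.inr ⟨v, hv, rfl⟩) (mem_L_iff.2 fun _ w => ?_)
  rw [Finsupp.sub_apply, Finsupp.single_apply]
  have := le_ord_of_mem_L s.2 hs0 w
  split_ifs with hw
  · subst hw
    simp only [Submodule.subtype_apply]
    omega
  · simp only [Submodule.subtype_apply]
    omega

variable {ι : Type*} [Fintype ι] [DecidableEq ι]

/-- Bases of `L(± D + d P0)` for a representative `D` of a class. -/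
structure Frame (ι : Type*) (d : ℕ) (x : Pic0 K F) where
  /-- the representative -/
  D : Divisor.degZero (K := K) (F := F)
  cls : Pic0.mk D = x
  /-- the functions of the first space -/
  s : ι → F
  hs : ∀ l, s l ∈ riemannRochSpace ((D : Divisor K F) + c.mP d)
  lis : LinearIndependent K s
  /-- the functions of the second space -/
  t : ι → F
  ht : ∀ l, t l ∈ riemannRochSpace (-(D : Divisor K F) + c.mP d)
  lit : LinearIndependent K t

theorem degree_shift (D : Divisor.degZero (K := K) (F := F)) (d : ℕ) :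
    Divisor.degree ((D : Divisor K F) + c.mP d) = (d : ℤ) := by
  rw [map_add, degree_mP, Divisor.mem_degZero.1 D.2, zero_add]

theorem degree_shift_neg (D : Divisor.degZero (K := K) (F := F)) (d : ℕ) :
    Divisor.degree (-(D : Divisor K F) + c.mP d) = (d : ℤ) := by
  rw [map_add, map_neg, degree_mP, Divisor.mem_degZero.1 D.2, neg_zero, zero_add]

/-- A basis of a Riemann-Roch space of degree `d`. -/
theorem exists_basisL {d : ℕ} (h : c.Level ι d) {E : Divisor K F}
    (hE : Divisor.degree E = (d : ℤ)) :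
    ∃ s : ι → F, (∀ l, s l ∈ riemannRochSpace E) ∧ LinearIndependent K s := by
  haveI : Module.Finite K ↥(riemannRochSpace E) := c.finite_L E
  have hfr := c.finrank_L' hE (by have := h.two_g_le; omega)
  have hcard : Fintype.card (Fin (Module.finrank K ↥(riemannRochSpace E))) = Fintype.card ι := by
    have := h.card_eq
    simp only [Fintype.card_fin]
    omega
  let b := (Module.finBasis K ↥(riemannRochSpace E)).reindex (Fintype.equivOfCardEq hcard)
  exact ⟨fun l => (b l : F), fun l => (b l).2,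
    b.linearIndependent.map' _ (Submodule.ker_subtype _)⟩

theorem Level.nonempty_frame {d : ℕ} (h : c.Level ι d) (x : Pic0 K F) :
    Nonempty (c.Frame ι d x) := by
  obtain ⟨D, hD⟩ := Pic0.mk_surjective x
  obtain ⟨s, hs, hsl⟩ := c.exists_basisL h (c.degree_shift D d)
  obtain ⟨t, ht, htl⟩ := c.exists_basisL h (c.degree_shift_neg D d)
  exact ⟨⟨D, hD, s, hs, hsl, t, ht, htl⟩⟩

theorem span_eq_L {d : ℕ} (h : c.Level ι d) {E : Divisor K F}
    (hE : Divisor.degree E = (d : ℤ)) {s : ι → F} (hs : ∀ l, s l ∈ riemannRochSpace E)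
    (hl : LinearIndependent K s) : Submodule.span K (Set.range s) = riemannRochSpace E := by
  haveI : Module.Finite K ↥(riemannRochSpace E) := c.finite_L E
  refine Submodule.eq_of_le_of_finrank_eq
    (Submodule.span_le.2 (Set.range_subset_iff.2 hs)) ?_
  rw [finrank_span_eq_card hl]
  have h1 := c.finrank_L' hE (by have := h.two_g_le; omega)
  have := h.card_eq
  omega

theorem detFn_update {u : ι → F} (hu : ∀ l, c.Reg (u l)) (Q : ι → c.Pt) (i : ι) :
    ∃ b : ι → K, ∀ v, c.detFn u (Function.update Q i v) = c.ev v (∑ l, b l • u l) := by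
  refine ⟨fun l => Matrix.adjugate (Matrix.of fun l x => c.ev (Q x) (u l)) i l, fun v => ?_⟩
  rw [c.ev_sum _ _ fun l _ => (hu l).smul _ _]
  rw [detFn, show (Matrix.of fun l x => c.ev (Function.update Q i v x) (u l)) =
      (Matrix.of fun l x => c.ev (Q x) (u l)).updateCol i (fun l => c.ev v (u l)) by
    ext l x
    by_cases hx : x = i
    · subst hx; simp
    · simp [Matrix.updateCol_ne hx, Function.update_of_ne hx]]
  rw [← Matrix.cramer_apply, Matrix.cramer_eq_adjugate_mulVec]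
  simp only [Matrix.mulVec, dotProduct]
  exact Finset.sum_congr rfl fun l _ => (c.ev_smul _ _ (hu l _)).symm

theorem sliceReg_detFn {u : ι → F} (hu : ∀ l, c.Reg (u l)) : c.SliceReg (c.detFn u) := by
  intro Q i
  obtain ⟨b, hb⟩ := c.detFn_update hu Q i
  exact ⟨_, Reg.sum fun l _ => (hu l).smul _, hb⟩

theorem detFn_ne_zero {u : ι → F} (hu : ∀ l, c.Reg (u l)) (hli : LinearIndependent K u) :
    c.detFn u ≠ 0 := by
  obtain ⟨Q, -, hQ⟩ := c.exists_detFn_ne_zero hu hli ∅
  exact fun h => hQ (congrFun h Q)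

omit [IsAlgClosed K] [IsCurveOver K F] in
theorem _root_.Fermat.Agent.MW.Kummer.linearIndependent_mul_left {u : ι → F}
    (hli : LinearIndependent K u) {a : F} (ha : a ≠ 0) :
    LinearIndependent K fun l => a * u l :=
  hli.map' (LinearMap.mulLeft K a) (LinearMap.ker_eq_bot.2 (mul_right_injective₀ ha))

variable {c}
variable {d : ℕ} {x : Pic0 K F}

theorem Frame.mul_mem_W (Φ : c.Frame ι d x) {a b : F}
    (ha : a ∈ riemannRochSpace ((Φ.D : Divisor K F) + c.mP d))
    (hb : b ∈ riemannRochSpace (-(Φ.D : Divisor K F) + c.mP d)) : a * b ∈ c.W (d + d) := by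
  have h := mul_mem_L ha hb
  have he : (Φ.D : Divisor K F) + c.mP d + (-(Φ.D : Divisor K F) + c.mP d) =
      c.mP ((d + d : ℕ) : ℤ) := by
    rw [Nat.cast_add, mP_add]; abel
  rwa [he] at h

/-- The Kummer coordinates of a frame. -/
def Frame.vec (Φ : c.Frame ι d x) : (ι → c.Idx (d + d)) → K := c.prodVec (d + d) Φ.s Φ.t

/-- The clearing identity for a frame. -/
theorem Frame.evT_vec_mul (Φ : c.Frame ι d x) {a b : F}
    (ha : a ∈ riemannRochSpace ((Φ.D : Divisor K F) + c.mP d))
    (hb : b ∈ riemannRochSpace (-(Φ.D : Divisor K F) + c.mP d)) (Q : ι → c.Pt) :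
    c.evT (d + d) Φ.vec Q * ∏ i, c.ev (Q i) (b * a) =
      c.detFn (fun l => b * Φ.s l) Q * c.detFn (fun l => a * Φ.t l) Q :=
  c.evT_prodVec_mul (fun l m => Φ.mul_mem_W (Φ.hs l) (Φ.ht m))
    (fun l => by rw [mul_comm]; exact c.reg_of_mem_W (Φ.mul_mem_W (Φ.hs l) hb))
    (fun l => c.reg_of_mem_W (Φ.mul_mem_W ha (Φ.ht l)))
    (by rw [mul_comm]; exact c.reg_of_mem_W (Φ.mul_mem_W ha hb)) Q

theorem Frame.vec_ne_zero [Nonempty ι] (Φ : c.Frame ι d x) : Φ.vec ≠ 0 := by
  intro h
  let l0 : ι := Classical.arbitrary ι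
  have hb0 := Φ.lit.ne_zero l0
  have ha0 := Φ.lis.ne_zero l0
  have h1 : ∀ l, c.Reg (Φ.t l0 * Φ.s l) := fun l => by
    rw [mul_comm]; exact c.reg_of_mem_W (Φ.mul_mem_W (Φ.hs l) (Φ.ht l0))
  have h2 : ∀ l, c.Reg (Φ.s l0 * Φ.t l) := fun l =>
    c.reg_of_mem_W (Φ.mul_mem_W (Φ.hs l0) (Φ.ht l))
  rcases (c.sliceReg_detFn h1).eq_zero_or_eq_zero (c.sliceReg_detFn h2) ∅ (fun Q _ => by
      rw [← Φ.evT_vec_mul (Φ.hs l0) (Φ.ht l0), h, map_zero, Pi.zero_apply, zero_mul]) with h0 | h0
  · exact c.detFn_ne_zero h1 (linearIndependent_mul_left Φ.lis hb0) h0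
  · exact c.detFn_ne_zero h2 (linearIndependent_mul_left Φ.lit ha0) h0

theorem Frame.exists_smul_of_eq [Nonempty ι] (h : c.Level ι d) {y : Pic0 K F}
    (Φ : c.Frame ι d x) (Ψ : c.Frame ι d y) (hD : (Ψ.D : Divisor K F) = (Φ.D : Divisor K F)) :
    ∃ m : K, m ≠ 0 ∧ Ψ.vec = m • Φ.vec := by
  have hs2 : ∀ l, Ψ.s l ∈ riemannRochSpace ((Φ.D : Divisor K F) + c.mP d) := fun l =>
    hD ▸ Ψ.hs l
  have ht2 : ∀ l, Ψ.t l ∈ riemannRochSpace (-(Φ.D : Divisor K F) + c.mP d) := fun l =>
    hD ▸ Ψ.ht l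
  have hA : ∀ l, ∃ A : ι → K, ∑ m, A m • Φ.s m = Ψ.s l := fun l =>
    (Submodule.mem_span_range_iff_exists_fun K).1
      ((c.span_eq_L h (c.degree_shift Φ.D d) Φ.hs Φ.lis).symm ▸ hs2 l)
  have hB : ∀ l, ∃ B : ι → K, ∑ m, B m • Φ.t m = Ψ.t l := fun l =>
    (Submodule.mem_span_range_iff_exists_fun K).1
      ((c.span_eq_L h (c.degree_shift_neg Φ.D d) Φ.ht Φ.lit).symm ▸ ht2 l)
  choose A hA using hA
  choose B hB using hB
  obtain ⟨l0⟩ := ‹Nonempty ι›
  set a := Φ.s l0 with ha
  set b := Φ.t l0 with hb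
  have hregb : ∀ l, c.Reg (b * Φ.s l) := fun l => by
    rw [mul_comm]; exact c.reg_of_mem_W (Φ.mul_mem_W (Φ.hs l) (Φ.ht l0))
  have hrega : ∀ l, c.Reg (a * Φ.t l) := fun l =>
    c.reg_of_mem_W (Φ.mul_mem_W (Φ.hs l0) (Φ.ht l))
  have hreg : c.Reg (b * a) := hregb l0
  let m : K := Matrix.det (Matrix.of A) * Matrix.det (Matrix.of B)
  have e1 : (fun l => b * Ψ.s l) = fun l => ∑ k, A l k • (b * Φ.s k) := funext fun l => by
    rw [← hA l, Finset.mul_sum]
    simp [mul_smul_comm]
  have e2 : (fun l => a * Ψ.t l) = fun l => ∑ k, B l k • (a * Φ.t k) := funext fun l => by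
    rw [← hB l, Finset.mul_sum]
    simp [mul_smul_comm]
  have key : c.evT (d + d) Ψ.vec = c.evT (d + d) (m • Φ.vec) := by
    refine SliceReg.eq_of_mul_eq (c.sliceReg_evT _ _) (c.sliceReg_evT _ _)
      (sliceReg_prod hreg)
      (c.prod_ev_ne_zero hreg (mul_ne_zero (Φ.lit.ne_zero l0) (Φ.lis.ne_zero l0))) fun Q => ?_
    rw [Ψ.evT_vec_mul (hD.symm ▸ Φ.hs l0) (hD.symm ▸ Φ.ht l0), map_smul, Pi.smul_apply,
      smul_eq_mul, mul_assoc, Φ.evT_vec_mul (Φ.hs l0) (Φ.ht l0), ← hb, ← ha, e1, e2]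
    have d1 := c.detFn_change hregb (Matrix.of A) Q
    have d2 := c.detFn_change hrega (Matrix.of B) Q
    simp only [Matrix.of_apply] at d1 d2
    rw [d1, d2]
    ring
  have hv := c.evT_injective _ key
  refine ⟨m, fun hm => Ψ.vec_ne_zero ?_, hv⟩
  rw [hv, hm, zero_smul]

/-- Move a frame along a linear equivalence. -/
def Frame.translate (Φ : c.Frame ι d x) (D' : Divisor.degZero (K := K) (F := F))
    (f : F) (hf : f ≠ 0)
    (hD : ∀ v, (Φ.D : Divisor K F) v - (D' : Divisor K F) v = v.ord f)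
    (hx : Pic0.mk D' = x) : c.Frame ι d x where
  D := D'
  cls := hx
  s := fun l => f * Φ.s l
  hs := fun l => mem_L_iff.2 fun h0 v => by
    have hs0 := (mul_ne_zero_iff.1 h0).2
    rw [v.ord_mul hf hs0, ← hD v, Finsupp.add_apply]
    have := le_ord_of_mem_L (Φ.hs l) hs0 v
    rw [Finsupp.add_apply] at this
    omega
  lis := linearIndependent_mul_left Φ.lis hf
  t := fun l => f⁻¹ * Φ.t l
  ht := fun l => mem_L_iff.2 fun h0 v => by
    have ht0 := (mul_ne_zero_iff.1 h0).2
    rw [v.ord_mul (inv_ne_zero hf) ht0, v.ord_inv, ← hD v, Finsupp.add_apply, Finsupp.neg_apply]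
    have := le_ord_of_mem_L (Φ.ht l) ht0 v
    rw [Finsupp.add_apply, Finsupp.neg_apply] at this
    omega
  lit := linearIndependent_mul_left Φ.lit (inv_ne_zero hf)

theorem Frame.vec_translate (Φ : c.Frame ι d x) (D' : Divisor.degZero (K := K) (F := F))
    (f : F) (hf : f ≠ 0)
    (hD : ∀ v, (Φ.D : Divisor K F) v - (D' : Divisor K F) v = v.ord f)
    (hx : Pic0.mk D' = x) : (Φ.translate D' f hf hD hx).vec = Φ.vec := by
  ext I
  simp only [Frame.vec, prodVec, Frame.translate]
  have : ∀ l m, f * Φ.s l * (f⁻¹ * Φ.t m) = Φ.s l * Φ.t m := fun l m => by field_simp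
  simp only [this]

/-- Two frames of the same class have proportional coordinates. -/
theorem Frame.exists_smul [Nonempty ι] (h : c.Level ι d) (Φ Ψ : c.Frame ι d x) :
    ∃ m : K, m ≠ 0 ∧ Ψ.vec = m • Φ.vec := by
  have hh : Pic0.mk Ψ.D = Pic0.mk Φ.D := Ψ.cls.trans Φ.cls.symm
  rw [Pic0.mk, Pic0.mk, QuotientAddGroup.eq, AddSubgroup.mem_addSubgroupOf] at hh
  obtain ⟨f, hf, hfv⟩ := hh
  have hD : ∀ v, (Φ.D : Divisor K F) v - (Ψ.D : Divisor K F) v = v.ord f := fun v => by
    rw [← hfv v]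
    simp [sub_eq_neg_add]
  obtain ⟨m, hm, hv⟩ :=
    Frame.exists_smul_of_eq h (Φ.translate Ψ.D f hf hD Ψ.cls) Ψ rfl
  exact ⟨m, hm, by rw [hv, Φ.vec_translate]⟩

/-- The frame of the opposite class. -/
def Frame.neg (Φ : c.Frame ι d x) : c.Frame ι d (-x) where
  D := -Φ.D
  cls := (by rfl : Pic0.mk (-Φ.D) = -Pic0.mk Φ.D).trans (congrArg Neg.neg Φ.cls)
  s := Φ.t
  hs := fun l => by simpa using Φ.ht l
  lis := Φ.lit
  t := Φ.s
  ht := fun l => by simpa using Φ.hs l
  lit := Φ.lis

theorem Frame.vec_neg (Φ : c.Frame ι d x) : Φ.neg.vec = Φ.vec :=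
  c.prodVec_comm _ _ _

/-- The slices of the coordinates are products of two sections. -/
theorem Frame.exists_slice (h : c.Level ι d) (Φ : c.Frame ι d x) (Q : ι → c.Pt) (i : ι) :
    ∃ s ∈ riemannRochSpace ((Φ.D : Divisor K F) + c.mP d),
      ∃ t ∈ riemannRochSpace (-(Φ.D : Divisor K F) + c.mP d),
        c.slice1 (d + d) Q i Φ.vec = s * t := by
  classical
  let Z : Finset (Place K F) := Finset.univ.image fun l => (Q l).1
  obtain ⟨a, ha, ha0, hav⟩ := c.exists_avoid _
    (by rw [c.degree_shift Φ.D d]; exact_mod_cast h.two_g_le) Z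
  obtain ⟨b, hb, hb0, hbv⟩ := c.exists_avoid _
    (by rw [c.degree_shift_neg Φ.D d]; exact_mod_cast h.two_g_le) Z
  have hsreg : ∀ l, c.Reg (b * Φ.s l) := fun l => by
    rw [mul_comm]; exact c.reg_of_mem_W (Φ.mul_mem_W (Φ.hs l) hb)
  have htreg : ∀ l, c.Reg (a * Φ.t l) := fun l => c.reg_of_mem_W (Φ.mul_mem_W ha (Φ.ht l))
  have hab : c.Reg (b * a) := by
    rw [mul_comm]; exact c.reg_of_mem_W (Φ.mul_mem_W ha hb)
  obtain ⟨α, hα⟩ := c.detFn_update hsreg Q i
  obtain ⟨β, hβ⟩ := c.detFn_update htreg Q i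
  set C := ∏ l ∈ Finset.univ.erase i, c.ev (Q l) (b * a) with hC
  have hC0 : C ≠ 0 := Finset.prod_ne_zero_iff.2 fun l _ => by
    have hmem : (Q l).1 ∈ Z := Finset.mem_image_of_mem _ (Finset.mem_univ l)
    intro h0
    have := (c.ev_eq_zero_iff (Q l) (hab _) (mul_ne_zero hb0 ha0)).1 h0
    rw [(Q l).1.ord_mul hb0 ha0, hav _ hmem, hbv _ hmem] at this
    simp at this
  have hWf := c.reg_of_mem_W (c.slice1_mem (d + d) Q i Φ.vec)
  have hα' : c.Reg (∑ l, α l • (b * Φ.s l)) := Reg.sum fun l _ => (hsreg l).smul _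
  have hβ' : c.Reg (∑ l, β l • (a * Φ.t l)) := Reg.sum fun l _ => (htreg l).smul _
  have heq : C • (c.slice1 (d + d) Q i Φ.vec * (b * a)) -
      (∑ l, α l • (b * Φ.s l)) * (∑ l, β l • (a * Φ.t l)) = 0 := by
    refine c.eq_zero_of_ev (fun v => sub_mem (((hWf.mul hab).smul C) v) ((hα'.mul hβ') v)) ∅
      fun v _ => ?_
    have e := Φ.evT_vec_mul ha hb (Function.update Q i v)
    rw [hα v, hβ v, c.evT_update, ← Finset.prod_erase_mul _ _ (Finset.mem_univ i),
      Function.update_self, Finset.prod_congr rfl (fun l hl => by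
        rw [Function.update_of_ne (Finset.ne_of_mem_erase hl)] :
        ∀ l ∈ Finset.univ.erase i, c.ev (Function.update Q i v l) (b * a) =
          c.ev (Q l) (b * a)), ← hC] at e
    rw [sub_eq_add_neg, show -((∑ l, α l • (b * Φ.s l)) * ∑ l, β l • (a * Φ.t l)) =
      (-1 : K) • ((∑ l, α l • (b * Φ.s l)) * ∑ l, β l • (a * Φ.t l)) by simp,
      c.ev_add v (((hWf.mul hab).smul C) v) (((hα'.mul hβ').smul _) v),
      c.ev_smul v _ ((hWf.mul hab) v), c.ev_smul v _ ((hα'.mul hβ') v), c.ev_mul v (hWf v) (hab v),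
      c.ev_mul v (hα' v) (hβ' v), ← e]
    ring
  refine ⟨C⁻¹ • ∑ l, α l • Φ.s l, Submodule.smul_mem _ _
      (sum_mem fun l _ => Submodule.smul_mem _ _ (Φ.hs l)),
    ∑ l, β l • Φ.t l, sum_mem fun l _ => Submodule.smul_mem _ _ (Φ.ht l), ?_⟩
  have e1 : (∑ l, α l • (b * Φ.s l)) = b * ∑ l, α l • Φ.s l := by
    rw [Finset.mul_sum]; simp [mul_smul_comm]
  have e2 : (∑ l, β l • (a * Φ.t l)) = a * ∑ l, β l • Φ.t l := by
    rw [Finset.mul_sum]; simp [mul_smul_comm]
  rw [e1, e2, sub_eq_zero] at heq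
  rw [smul_mul_assoc]
  apply smul_right_injective F hC0
  simp only [smul_smul, mul_inv_cancel₀ hC0, one_smul]
  apply mul_right_cancel₀ (mul_ne_zero hb0 ha0)
  rw [smul_mul_assoc, heq]
  ring

variable (c)

/-- Finitely many classes have given Kummer coordinates up to a scalar. -/
theorem finite_fibre [Nonempty ι] (h : c.Level ι d) (z : (ι → c.Idx (d + d)) → K) :
    {x : Pic0 K F | ∃ Φ : c.Frame ι d x, ∃ m : K, Φ.vec = m • z}.Finite := by
  classical
  rcases eq_or_ne z 0 with rfl | hz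
  · refine Set.finite_empty.subset ?_
    rintro x ⟨Φ, m, hm⟩
    exact absurd (hm.trans (smul_zero m)) Φ.vec_ne_zero
  obtain ⟨Q, hQ⟩ : ∃ Q, c.evT (d + d) z Q ≠ 0 :=
    Function.ne_iff.1 ((map_ne_zero_iff _ (c.evT_injective _)).2 hz)
  let i : ι := Classical.arbitrary ι
  set f0 := c.slice1 (d + d) Q i z with hf0
  have hf0ne : f0 ≠ 0 := fun h0 => hQ (by
    have := c.evT_update (d + d) Q i z (Q i)
    rwa [Function.update_eq_self, ← hf0, h0, ev_zero] at this)
  obtain ⟨E, hE, -⟩ := HasPrincipalDivisors.exists_divisor (K := K) f0 hf0ne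
  let top : Divisor K F := E + c.mP ((d + d : ℕ) : ℤ)
  have hfin : {D : Divisor.degZero (K := K) (F := F) |
      (D : Divisor K F) + c.mP d ∈ Set.Icc 0 top}.Finite := by
    refine ((Finset.Icc (0 : Divisor K F) top).finite_toSet.preimage
      (fun D _ D' _ hDD => Subtype.ext ?_)).subset (fun D hD => by simpa using hD)
    exact add_right_cancel hDD
  refine (hfin.image fun D => Pic0.mk D).subset ?_
  rintro x ⟨Φ, m, hm⟩
  have hm0 : m ≠ 0 := fun h0 => Φ.vec_ne_zero (by rw [hm, h0, zero_smul])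
  obtain ⟨s, hs, t, ht, hst⟩ := Φ.exists_slice h Q i
  rw [hm, map_smul, ← hf0] at hst
  have hst0 : s * t ≠ 0 := hst ▸ smul_ne_zero hm0 hf0ne
  obtain ⟨hs0, ht0⟩ := mul_ne_zero_iff.1 hst0
  obtain ⟨Ds, hDs, hDs0⟩ := HasPrincipalDivisors.exists_divisor (K := K) s hs0
  refine ⟨⟨(Φ.D : Divisor K F) + Ds, ?_⟩, ?_, ?_⟩
  · rw [Divisor.mem_degZero, map_add, hDs0, Divisor.mem_degZero.1 Φ.D.2, add_zero]
  · have hord : ∀ v, v.ord s + v.ord t = E v := fun v => by
      rw [← v.ord_mul hs0 ht0, ← hst, Algebra.smul_def, v.ord_mul (by simpa using hm0) hf0ne,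
        ord_algebraMap, zero_add, hE v]
    constructor <;> refine Finsupp.le_def.2 fun v => ?_
    · have := le_ord_of_mem_L hs hs0 v
      simp only [Finsupp.add_apply, Finsupp.zero_apply, hDs v] at this ⊢
      omega
    · have := le_ord_of_mem_L ht ht0 v
      have := hord v
      have e : top v = E v + (c.mP d v + c.mP d v) := by
        simp [top, Nat.cast_add, mP_add]
      simp only [Finsupp.add_apply, Finsupp.neg_apply, hDs v] at *
      omega
  · refine Eq.trans ((QuotientAddGroup.eq).2 ?_) Φ.cls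
    rw [AddSubgroup.mem_addSubgroupOf]
    show -((Φ.D : Divisor K F) + Ds) + (Φ.D : Divisor K F) ∈ _
    rw [show -((Φ.D : Divisor K F) + Ds) + (Φ.D : Divisor K F) = -Ds by abel]
    exact neg_mem ⟨s, hs0, hDs⟩

section Semilinear

/-- A semilinear automorphism which acts coefficientwise on the expansion. -/
def Compat (σ : SemilinearAut K F) : Prop :=
  ∀ f : F, ∀ m : ℤ, (c.ι (σ • f)).coeff m = SemilinearAut.baseAut σ ((c.ι f).coeff m)

variable {c} {σ : SemilinearAut K F}

theorem Compat.ord_P0 (hσ : c.Compat σ) (f : F) : c.P0.ord (σ • f) = c.P0.ord f := by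
  rcases eq_or_ne f 0 with rfl | hf
  · rw [smul_zero]
  have hf' : σ • f ≠ 0 := by simpa using hf
  have h1 : (c.ι (σ • f)).coeff (c.P0.ord f) ≠ 0 := by
    rw [hσ]; simpa using c.coeff_ord_ne_zero hf
  have h2 : (c.ι f).coeff (c.P0.ord (σ • f)) ≠ 0 := by
    have h3 := c.coeff_ord_ne_zero hf'
    rw [hσ] at h3
    exact fun h => h3 (by rw [h, map_zero])
  refine le_antisymm ?_ ?_
  · by_contra h
    exact h1 (c.coeff_eq_zero_of_lt (not_le.1 h))
  · by_contra h
    exact h2 (c.coeff_eq_zero_of_lt (not_le.1 h))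

theorem Compat.smul_P0 (hσ : c.Compat σ) : σ • c.P0 = c.P0 := by
  refine Place.ext (SetLike.ext fun f => ?_)
  rw [Fermat.Agent.Curve.mem_iff_ord_nonneg, Fermat.Agent.Curve.mem_iff_ord_nonneg]
  have h1 := SemilinearAut.ord_smul σ c.P0 (σ⁻¹ • f)
  have h2 := hσ.ord_P0 (σ⁻¹ • f)
  rw [smul_inv_smul] at h1 h2
  rw [h1, h2]

theorem Compat.smul_mP (hσ : c.Compat σ) (m : ℤ) : σ • c.mP m = c.mP m := by
  rw [mP, SemilinearAut.smul_single, hσ.smul_P0]

theorem smul_mem_L {D : Divisor K F} {f : F} (hf : f ∈ riemannRochSpace D) :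
    σ • f ∈ riemannRochSpace (σ • D) := mem_L_iff.2 fun h0 v => by
  have hf0 : f ≠ 0 := fun h => h0 (by rw [h, smul_zero])
  have h1 := SemilinearAut.ord_smul σ (σ⁻¹ • v) f
  rw [smul_inv_smul] at h1
  rw [h1, SemilinearAut.divisor_smul_apply]
  exact le_ord_of_mem_L hf hf0 _

theorem linearIndependent_smul {u : ι → F} (hu : LinearIndependent K u) :
    LinearIndependent K fun l => σ • u l := by
  rw [Fintype.linearIndependent_iff]
  intro a ha l
  have h : σ • (∑ l, (SemilinearAut.baseAut σ).symm (a l) • u l) = 0 := by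
    rw [Finset.smul_sum, ← ha]
    refine Finset.sum_congr rfl fun m _ => ?_
    rw [Algebra.smul_def, smul_mul', SemilinearAut.smul_algebraMap, Algebra.smul_def,
      RingEquiv.apply_symm_apply]
  rw [smul_eq_zero_iff_eq] at h
  simpa using Fintype.linearIndependent_iff.1 hu _ h l

/-- The image of a frame under a compatible semilinear automorphism. -/
def Frame.map (Φ : c.Frame ι d x) (hσ : c.Compat σ) : c.Frame ι d (σ • x) where
  D := SemilinearAut.degZeroSMulHom σ Φ.D
  cls := (SemilinearAut.pic0_smul_mk σ Φ.D).symm.trans (congrArg (σ • ·) Φ.cls)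
  s := fun l => σ • Φ.s l
  hs := fun l => by
    have := smul_mem_L (σ := σ) (Φ.hs l)
    rwa [smul_add, hσ.smul_mP] at this
  lis := linearIndependent_smul Φ.lis
  t := fun l => σ • Φ.t l
  ht := fun l => by
    have := smul_mem_L (σ := σ) (Φ.ht l)
    rwa [smul_add, hσ.smul_mP, smul_neg] at this
  lit := linearIndependent_smul Φ.lit

theorem Frame.vec_map (Φ : c.Frame ι d x) (hσ : c.Compat σ) (I : ι → c.Idx (d + d)) :
    (Φ.map hσ).vec I = SemilinearAut.baseAut σ (Φ.vec I) := by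
  simp only [Frame.vec, prodVec, Frame.map, map_sum, map_mul, map_prod, map_intCast]
  refine Finset.sum_congr rfl fun p _ => Finset.sum_congr rfl fun r _ => ?_
  congr 1
  refine Finset.prod_congr rfl fun l _ => ?_
  rw [← smul_mul']
  exact hσ _ _

end Semilinear

end Fermat.Agent.MW.Kummer.Marked

end
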