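/-
Heights on `J0(N)`: the marked curve given by the `q`-expansion at infinity, and the compatibility
of the arithmetic Galois action with it.
-/
import Fermat.Agent.MW.HeightTheta
import Fermat.Agent.Curve.RiemannRochDuality
import Fermat.Agent.Curve.RiemannRochFunctions
import Fermat.Agent.Curve.BasicModular
import Fermat.Agent.Galois.QbarInstances
import Mathlib.FieldTheory.Galois.Infinite
import Mathlib.NumberTheory.NumberField.Basic

set_option autoImplicit false
set_option linter.style.haveILetI false
set_option linter.unusedSectionVars false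

noncomputable section

open AlgebraicCurve ModularCurve Fermat.Agent.Curve

namespace Fermat.Agent.MW.BMarked

variable {L : Type*} [Field L] (F : IntermediateField L (LaurentSeries L))

theorem nonneg_order_iff (f : F) :
    (f = 0 ∨ 0 ≤ (f : LaurentSeries L).order) ↔
      ∀ m : ℤ, m < 0 → (f : LaurentSeries L).coeff m = 0 := by
  constructor
  · rintro (rfl | h) m hm
    · simp
    · exact HahnSeries.coeff_eq_zero_of_lt_order (lt_of_lt_of_le hm h)
  · intro h
    refine or_iff_not_imp_left.2 fun hf => not_lt.1 fun hlt => ?_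
    exact (HahnSeries.coeff_order_eq_zero.not.2 (fun h0 => hf (Subtype.ext h0))) (h _ hlt)

theorem order_inv {f : F} (hf : f ≠ 0) :
    ((f⁻¹ : F) : LaurentSeries L).order = -(f : LaurentSeries L).order := by
  have hf' : (f : LaurentSeries L) ≠ 0 := fun h => hf (Subtype.ext h)
  have h := HahnSeries.order_mul hf' (inv_ne_zero hf')
  rw [mul_inv_cancel₀ hf', HahnSeries.order_one] at h
  rw [IntermediateField.coe_inv]
  omega

/-- The valuation ring of the expansion at infinity. -/
def orderSubring : ValuationSubring F where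
  carrier := {f | ∀ m : ℤ, m < 0 → (f : LaurentSeries L).coeff m = 0}
  zero_mem' m _ := by simp
  one_mem' := (nonneg_order_iff F 1).1 (Or.inr (by simp))
  add_mem' {a b} ha hb m hm := by simp [ha m hm, hb m hm]
  neg_mem' {a} ha m hm := by simp [ha m hm]
  mul_mem' {a b} ha hb := by
    refine (nonneg_order_iff F _).1 ?_
    rcases eq_or_ne (a * b) 0 with h | h
    · exact Or.inl h
    obtain ⟨ha0, hb0⟩ := mul_ne_zero_iff.1 h
    have h1 := ((nonneg_order_iff F a).2 ha).resolve_left ha0
    have h2 := ((nonneg_order_iff F b).2 hb).resolve_left hb0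
    refine Or.inr ?_
    rw [MulMemClass.coe_mul, HahnSeries.order_mul (fun h => ha0 (Subtype.ext h))
      (fun h => hb0 (Subtype.ext h))]
    omega
  mem_or_inv_mem' f := by
    show (∀ m : ℤ, m < 0 → _) ∨ (∀ m : ℤ, m < 0 → _)
    rw [← nonneg_order_iff F f, ← nonneg_order_iff F f⁻¹]
    rcases eq_or_ne f 0 with rfl | hf
    · exact Or.inl (Or.inl rfl)
    rw [order_inv F hf]
    rcases le_total 0 (f : LaurentSeries L).order with h | h
    · exact Or.inl (Or.inr h)
    · exact Or.inr (Or.inr (by omega))

theorem mem_orderSubring {f : F} :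
    f ∈ orderSubring F ↔ f = 0 ∨ 0 ≤ (f : LaurentSeries L).order :=
  (nonneg_order_iff F f).symm

theorem algebraMap_mem_orderSubring (a : L) : algebraMap L F a ∈ orderSubring F := by
  intro m hm
  show (algebraMap L (LaurentSeries L) a).coeff m = 0
  rw [algebraMap_laurentSeries_eq_single, HahnSeries.coeff_single_of_ne hm.ne]

theorem isPrincipalIdealRing_orderSubring : IsPrincipalIdealRing (orderSubring F) := by
  refine ⟨fun I => ?_⟩
  by_cases hI : I = ⊥
  · subst hI; exact bot_isPrincipal
  classical
  obtain ⟨x, hx, hx0⟩ := Submodule.exists_mem_ne_zero_of_ne_bot hI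
  have hex : ∃ n : ℕ, ∃ a ∈ I, a ≠ 0 ∧ ((a : F) : LaurentSeries L).order.toNat = n :=
    ⟨_, x, hx, hx0, rfl⟩
  obtain ⟨a, ha, ha0, hn⟩ := Nat.find_spec hex
  have haF : (a : F) ≠ 0 := fun h => ha0 (Subtype.ext h)
  refine ⟨⟨a, le_antisymm (fun b hb => ?_) ((Submodule.span_singleton_le_iff_mem _ _).2 ha)⟩⟩
  rw [Ideal.submodule_span_eq, Ideal.mem_span_singleton']
  rcases eq_or_ne b 0 with rfl | hb0
  · exact ⟨0, zero_mul _⟩
  have hbF : (b : F) ≠ 0 := fun h => hb0 (Subtype.ext h)
  have hab : ((a : F) : LaurentSeries L).order ≤ ((b : F) : LaurentSeries L).order := by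
    have h1 := Nat.find_min' hex ⟨b, hb, hb0, rfl⟩
    have h2 := ((mem_orderSubring F).1 a.2).resolve_left haF
    have h3 := ((mem_orderSubring F).1 b.2).resolve_left hbF
    omega
  have hmem : (b : F) * (a : F)⁻¹ ∈ orderSubring F := (mem_orderSubring F).2 <| Or.inr <| by
    rw [MulMemClass.coe_mul, HahnSeries.order_mul (fun h => hbF (Subtype.ext h))
      (fun h => inv_ne_zero haF (Subtype.ext h)), order_inv F haF]
    omega
  exact ⟨⟨_, hmem⟩, Subtype.ext (inv_mul_cancel_right₀ haF _)⟩

theorem orderSubring_ne_top {t : F} (ht : (t : LaurentSeries L).order = -1) :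
    orderSubring F ≠ ⊤ := fun h => by
  rcases (mem_orderSubring F (f := t)).1 (h ▸ ValuationSubring.mem_top t) with rfl | h1
  · simp at ht
  · omega

variable {F} in
/-- The place at infinity. -/
def placeInf {t : F} (ht : (t : LaurentSeries L).order = -1) : Place L F where
  toValuationSubring := orderSubring F
  algebraMap_mem' := algebraMap_mem_orderSubring F
  ne_top' := orderSubring_ne_top F ht
  isPrincipalIdealRing' := isPrincipalIdealRing_orderSubring F

variable {F} in
theorem order_eq_ord {t : F} (ht : (t : LaurentSeries L).order = -1) (f : F) :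
    (f : LaurentSeries L).order = (placeInf ht).ord f := by
  have ne0 : ∀ {g : F}, g ≠ 0 → (g : LaurentSeries L) ≠ 0 := fun hg h => hg (Subtype.ext h)
  rcases eq_or_ne f 0 with rfl | hf
  · simp
  obtain ⟨π, hπ⟩ := IsDiscreteValuationRing.exists_irreducible (placeInf ht).toValuationSubring
  have hπ0 : (π : F) ≠ 0 := fun h => hπ.ne_zero (Subtype.ext h)
  have hπpos : 0 ≤ ((π : F) : LaurentSeries L).order :=
    ((mem_orderSubring F).1 π.2).resolve_left hπ0
  have hunit : ∀ u : (placeInf ht).toValuationSubringˣ,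
      (((u : (placeInf ht).toValuationSubring) : F) : LaurentSeries L).order = 0 := fun u => by
    have hu : ((u : (placeInf ht).toValuationSubring) : F) ≠ 0 :=
      fun h => u.ne_zero (Subtype.ext h)
    have hu' : ((↑u⁻¹ : (placeInf ht).toValuationSubring) : F) ≠ 0 :=
      fun h => (u⁻¹).ne_zero (Subtype.ext h)
    have h1 := ((mem_orderSubring F).1 (u : (placeInf ht).toValuationSubring).2).resolve_left hu
    have h2 := ((mem_orderSubring F).1
      ((↑u⁻¹ : (placeInf ht).toValuationSubring)).2).resolve_left hu'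
    have h3 := HahnSeries.order_mul (ne0 hu) (ne0 hu')
    rw [← MulMemClass.coe_mul, ← MulMemClass.coe_mul, Units.mul_inv] at h3
    simp at h3
    omega
  have hzpow : ∀ n : ℤ, (((π : F) ^ n : F) : LaurentSeries L).order =
      n * ((π : F) : LaurentSeries L).order := fun n => by
    induction n with
    | zero => simp
    | succ n ih =>
      rw [zpow_add_one₀ hπ0, MulMemClass.coe_mul,
        HahnSeries.order_mul (ne0 (zpow_ne_zero _ hπ0)) (ne0 hπ0), ih]
      ring
    | pred n ih =>
      rw [zpow_sub_one₀ hπ0, MulMemClass.coe_mul,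
        HahnSeries.order_mul (ne0 (zpow_ne_zero _ hπ0)) (ne0 (inv_ne_zero hπ0)), ih,
        order_inv F hπ0]
      ring
  have key : ∀ g : F, g ≠ 0 → (g : LaurentSeries L).order =
      (placeInf ht).ord g * ((π : F) : LaurentSeries L).order := fun g hg => by
    obtain ⟨u, hu⟩ := (placeInf ht).exists_unit_mul_zpow hg hπ
    conv_lhs => rw [hu]
    rw [MulMemClass.coe_mul, HahnSeries.order_mul
      (ne0 fun h => u.ne_zero (Subtype.ext h)) (ne0 (zpow_ne_zero _ hπ0)), hunit, hzpow, zero_add]
  have ht0 : t ≠ 0 := fun h => by simp [h] at ht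
  have h1 : ((π : F) : LaurentSeries L).order = 1 := by
    have h := key t ht0
    rw [ht] at h
    exact (Int.eq_one_or_neg_one_of_mul_eq_neg_one' h.symm).elim (fun h' => by omega)
      fun h' => h'.2
  rw [key f hf, h1, mul_one]

variable {F} in
/-- The marked curve of an expansion. -/
def ofExpansion [IsAlgClosed L] [IsFunctionFieldOne L F] {t : F}
    (ht : (t : LaurentSeries L).order = -1) : Kummer.Marked L F where
  P0 := placeInf ht
  ι := F.val
  order_ι := order_eq_ord ht
  g := genusFF L F
  finite_L D := by infer_instance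
  finrank_L D h := ellDim_eq_of_degree_ge h

end BMarked

open BMarked

local notation "Qb" => AlgebraicClosure ℚ
local notation "GQ" => (AlgebraicClosure ℚ ≃ₐ[ℚ] AlgebraicClosure ℚ)

theorem order_coeffEmb_jq : (coeffEmb (AlgebraicClosure ℚ) jq).order = -1 := by
  have h1 : (coeffEmb Qb jq).coeff (-1) ≠ 0 := by simp
  refine le_antisymm (HahnSeries.order_le_of_coeff_ne_zero h1) ?_
  by_contra h
  have hne : coeffEmb Qb jq ≠ 0 := fun h0 => h1 (by rw [h0]; rfl)
  have h2 : (coeffEmb Qb jq).coeff (coeffEmb Qb jq).order ≠ 0 :=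
    mt HahnSeries.coeff_order_eq_zero.1 hne
  rw [coeffEmb_coeff, coeff_jq_of_lt (not_le.1 h), map_zero] at h2
  exact h2 rfl

/-- The element `j` has a simple pole at infinity. -/
theorem order_jElt (N : ℕ) [NeZero N] :
    ((⟨coeffEmb Qb jq, coeffEmb_mem_laurentBaseChange _ (modularFunctionField_le_full N (jq_mem N))⟩ :
      modularFunctionFieldBar N) : LaurentSeries Qb).order = -1 :=
  order_coeffEmb_jq

/-- `X0(N)` over `ℚ̄` marked by the `q`-expansion at infinity. -/
def jMarked (N : ℕ) [NeZero N] : Kummer.Marked Qb (modularFunctionFieldBar N) :=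
  ofExpansion (order_jElt N)

/-- The Galois action is compatible with the marking. -/
theorem compat_arithmeticGalois (N : ℕ) [NeZero N] (σ : GQ) :
    (jMarked N).Compat (arithmeticGalois (modularFunctionFieldFull N) σ) := fun _ _ => rfl

/-- A projectively Galois-stable vector has a rational scaling with an entry equal to one. -/
theorem exists_smul_mem_bot {α : Type*} {v : α → Qb} (hv : v ≠ 0)
    (h : ∀ σ : GQ, ∃ m : Qb, (fun l => σ (v l)) = m • v) :
    ∃ c : Qb, c ≠ 0 ∧ (∃ j, (c • v) j = 1) ∧
      ∀ l, (c • v) l ∈ (⊥ : IntermediateField ℚ Qb) := by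
  obtain ⟨j, hj⟩ := Function.ne_iff.1 hv
  refine ⟨(v j)⁻¹, inv_ne_zero hj, ⟨j, inv_mul_cancel₀ hj⟩, fun l => ?_⟩
  rw [InfiniteGalois.mem_bot_iff_fixed]
  intro σ
  obtain ⟨m, hm⟩ := h σ
  have hl : σ (v l) = m * v l := congrFun hm l
  have hj' : σ (v j) = m * v j := congrFun hm j
  have hm0 : m ≠ 0 := fun h0 => hj (σ.injective (by rw [hj', h0, zero_mul]; exact (map_zero σ).symm))
  show σ ((v j)⁻¹ * v l) = (v j)⁻¹ * v l
  rw [map_mul, map_inv₀, hl, hj', mul_inv]
  field_simp

theorem numberField_bot : NumberField (⊥ : IntermediateField ℚ Qb) :=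
  @NumberField.mk _ _ inferInstance inferInstance

end Fermat.Agent.MW

end
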