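/-
General members of linear systems on a curve over an algebraically closed field of
characteristic zero: for a divisor `G` of large degree there is a section whose divisor of zeros
consists of distinct places avoiding a given finite set.
-/
import Fermat.Agent.Curve.BasicFunctionField
import Fermat.Prelude.Def_AlgebraicCurve_IsCurveOver
import Fermat.Prelude.Def_AlgebraicCurve_Repartitions
import Mathlib.FieldTheory.PrimitiveElement
import Mathlib.Algebra.Module.Submodule.Union
import Mathlib.Algebra.Polynomial.Identities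

set_option autoImplicit false

noncomputable section

namespace Fermat.Agent.MW

open AlgebraicCurve Fermat.Agent.Curve IntermediateField

variable {K F : Type*} [Field K] [Field F] [Algebra K F]

/-- A regular function is congruent to a constant at a place with trivial residue field. -/
theorem exists_const_ordGE [IsAlgClosed K] [IsFunctionFieldOne K F] (v : Place K F) {f : F}
    (hf : OrdGE v 0 f) : ∃ c : K, OrdGE v 1 (f - algebraMap K F c) := by
  have := finite_residueField (K := K) v
  have hbij : Function.Bijective (algebraMap K v.ResidueField) :=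
    haveI : Algebra.IsIntegral K v.ResidueField := Algebra.IsIntegral.of_finite K v.ResidueField
    IsAlgClosed.algebraMap_bijective_of_isIntegral
  obtain ⟨c, hc⟩ := hbij.2 (IsLocalRing.residue _ ⟨f, ordGE_iff_mem.mp hf⟩)
  refine ⟨c, ?_⟩
  have h0 : IsLocalRing.residue v.toValuationSubring
      (⟨f, ordGE_iff_mem.mp hf⟩ - algebraMap K v.toValuationSubring c) = 0 := by
    rw [map_sub, sub_eq_zero, ← hc]
    rfl
  simpa using ordGE_mk_of_residue_eq_zero h0

theorem ordGE_algebraMap (v : Place K F) (a : K) : OrdGE v 0 (algebraMap K F a) :=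
  OrdGE.of_le (ord_algebraMap v a).ge

theorem ordGE_pow {v : Place K F} {m : ℤ} {f : F} (h : OrdGE v m f) (n : ℕ) :
    OrdGE v (n * m) (f ^ n) := by
  induction n with
  | zero => simpa using OrdGE.of_le (v := v) (f := (1 : F)) v.ord_one.ge
  | succ n ih =>
    rw [pow_succ]
    exact (ih.mul h).mono (le_of_eq (by push_cast; ring))

/-- If the derivative of the minimal polynomial of `y` is a unit at `v` and everything is regular,
elements of the bottom field approximate `y` to any order. -/
theorem exists_approx_root [IsAlgClosed K] [IsFunctionFieldOne K F] {E : IntermediateField K F}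
    (v : Place K F) {y : F} {Q : Polynomial E} (hy : Polynomial.aeval y Q = 0) (hyE : y ∉ E)
    (hyv : OrdGE v 0 y) (hQv : ∀ i, OrdGE v 0 (Q.coeff i : F))
    (hQ' : v.ord (Polynomial.aeval y (Polynomial.derivative Q)) = 0)
    (hQ'0 : Polynomial.aeval y (Polynomial.derivative Q) ≠ 0) (M : ℕ) :
    ∃ P : E, OrdGE v 0 (P : F) ∧ OrdGE v M (y - P) := by
  induction M with
  | zero => exact ⟨0, by simp [OrdGE], by simpa using hyv⟩
  | succ M ih =>
    rcases Nat.eq_zero_or_pos M with rfl | hM
    · obtain ⟨c, hc⟩ := exists_const_ordGE v hyv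
      exact ⟨algebraMap K E c, ordGE_algebraMap v c, by simpa using hc⟩
    obtain ⟨P, hP0, hP⟩ := ih
    set δ := y - (P : F) with hδ
    have hδ0 : δ ≠ 0 := fun h => hyE (by rw [sub_eq_zero.mp h]; exact P.2)
    have hδM := hP.le_ord hδ0
    set d := Polynomial.aeval y (Polynomial.derivative Q) with hd
    set q : E := Polynomial.aeval P Q with hq
    let φ : v.toValuationSubring →+* F := v.toValuationSubring.subtype
    obtain ⟨Qv, hQv'⟩ : ∃ Qv : Polynomial v.toValuationSubring,
        Qv.map φ = Q.map (algebraMap E F) :=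
      (Polynomial.lifts_iff_coeff_lifts (Q.map (algebraMap E F))).mpr fun i =>
        ⟨⟨(Q.coeff i : F), ordGE_iff_mem.mp (hQv i)⟩, by simp [φ]⟩
    have hev : ∀ x : v.toValuationSubring, φ (Qv.eval x) = Polynomial.aeval (φ x) Q := fun x => by
      rw [← Polynomial.eval_map_apply, hQv', Polynomial.eval_map, ← Polynomial.aeval_def]
    let yv : v.toValuationSubring := ⟨y, ordGE_iff_mem.mp hyv⟩
    let δv : v.toValuationSubring := ⟨δ, ordGE_iff_mem.mp (hyv.sub hP0)⟩
    obtain ⟨s, hs⟩ := Polynomial.binomExpansion Qv yv (-δv)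
    have h1 : φ (yv + -δv) = algebraMap E F P := by simp [φ, yv, δv, hδ]
    have h2 : φ (Qv.derivative.eval yv) = d := by
      rw [← Polynomial.eval_map_apply, ← Polynomial.derivative_map, hQv', Polynomial.derivative_map,
        Polynomial.eval_map, ← Polynomial.aeval_def]
      rfl
    have hkey : (q : F) = -(d * δ) + φ s * δ ^ 2 := by
      have h := congrArg φ hs
      rw [map_add, map_add, map_mul, map_mul, map_pow, hev, hev, h1, h2,
        Polynomial.aeval_algebraMap_apply, show φ yv = y from rfl, hy, zero_add, map_neg, neg_sq,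
        show φ δv = δ from rfl] at h
      rw [show (q : F) = algebraMap E F q from rfl, h]
      ring
    have hs1 : OrdGE v (v.ord δ + 1) (φ s * δ ^ 2) :=
      ((ordGE_iff_mem.mpr s.2).mul (OrdGE.of_le (n := v.ord δ + 1) (by
        rw [ord_pow]; push_cast; omega))).mono (by simp)
    have hq0 : OrdGE v (v.ord δ) (q : F) := by
      rw [hkey]
      exact (OrdGE.of_le (by rw [ord_neg, v.ord_mul hQ'0 hδ0, hQ', zero_add])).add
        (hs1.mono (by omega))
    obtain ⟨c, hc⟩ := exists_const_ordGE v (f := d⁻¹) (OrdGE.of_le (by rw [v.ord_inv, hQ']; simp))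
    refine ⟨P - algebraMap K E c * q, ?_, ?_⟩
    · have hcq := (ordGE_algebraMap v c).mul (hq0.mono (m := 0) (by omega))
      rw [zero_add] at hcq
      push_cast
      exact hP0.sub hcq
    · have e : y - ((P - algebraMap K E c * q : E) : F) =
          δ * (1 - d⁻¹ * d) + -(δ * d * (algebraMap K F c - d⁻¹)) +
            algebraMap K F c * (φ s * δ ^ 2) := by
        have : ((P - algebraMap K E c * q : E) : F) = (P : F) - algebraMap K F c * q := by
          push_cast; rfl
        rw [this, hkey, hδ]
        ring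
      rw [e, inv_mul_cancel₀ hQ'0, sub_self, mul_zero, zero_add]
      have hδd : OrdGE v M (δ * d) := OrdGE.of_le (by
        rw [v.ord_mul hδ0 hQ'0, hQ', add_zero]; exact hδM)
      have hA := (hδd.mul ((hc.neg).mono (m := 1) le_rfl)).neg
      rw [neg_sub] at hA
      exact (hA.mono (by push_cast; omega)).add
        (((ordGE_algebraMap v c).mul hs1).mono (by push_cast; omega))

variable (K F) in
/-- All but finitely many places are unramified over a given rational subfield. -/
theorem finite_ramified [IsAlgClosed K] [CharZero K] [IsFunctionFieldOne K F] {t : F}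
    (ht : Transcendental K t) :
    ∃ S : Finset (Place K F), ∀ v ∉ S, ∀ c : K, 0 < v.ord (t - algebraMap K F c) →
      v.ord (t - algebraMap K F c) = 1 := by
  classical
  set E := K⟮t⟯ with hE
  have := finite_adjoin_of_transcendental ht
  obtain ⟨y, hy⟩ := Field.exists_primitive_element E F
  have hint : IsIntegral E y := Algebra.IsIntegral.isIntegral y
  set Q := minpoly E y with hQ
  set d := Polynomial.aeval y (Polynomial.derivative Q) with hd
  have hd0 : d ≠ 0 :=
    (Algebra.IsSeparable.isSeparable E y).aeval_derivative_ne_zero (minpoly.aeval E y)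
  let bad : Set (Place K F) := {v | v.ord t ≠ 0} ∪ {v | v.ord y ≠ 0} ∪ {v | v.ord d ≠ 0} ∪
    ⋃ i ∈ Q.support, {v | v.ord (Q.coeff i : F) ≠ 0}
  have hbad : bad.Finite :=
    (((finite_setOf_ord_ne_zero t).union (finite_setOf_ord_ne_zero y)).union
      (finite_setOf_ord_ne_zero d)).union
      (Set.Finite.biUnion Q.support.finite_toSet fun i _ => finite_setOf_ord_ne_zero _)
  refine ⟨hbad.toFinset, fun v hv c hpos => ?_⟩
  simp only [Set.Finite.mem_toFinset, bad, Set.mem_union, Set.mem_ofPred_eq, Set.mem_iUnion,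
    not_or, not_exists, not_not] at hv
  obtain ⟨⟨⟨-, hyv⟩, hdv⟩, hQv⟩ := hv
  set u := t - algebraMap K F c with hu
  have hEu : K⟮u⟯ = E := by
    refine le_antisymm (adjoin_simple_le_iff.mpr
      (sub_mem (mem_adjoin_simple_self K t) (E.algebraMap_mem c))) (adjoin_simple_le_iff.mpr ?_)
    have := add_mem (mem_adjoin_simple_self K u) (K⟮u⟯.algebraMap_mem c)
    rwa [hu, sub_add_cancel] at this
  have hu' : Transcendental K u := transcendental_of_ord_ne_zero v (by omega)
  -- every element of `E` has order divisible by `e = ord u`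
  have hdvd : ∀ z : E, (z : F) ≠ 0 → v.ord u ∣ v.ord (z : F) := by
    rintro ⟨z, hz⟩ hz0
    rw [← hEu] at hz
    obtain ⟨k, p, q, hp, hq, hzz⟩ :=
      exists_decomposition hu' (φ := ⟨z, hz⟩) (fun h => hz0 (congrArg Subtype.val h))
    have hco : ∀ f : Polynomial K, ((Polynomial.aeval (AdjoinSimple.gen K u) f : K⟮u⟯) : F)
        = Polynomial.aeval u f := fun f =>
      (Polynomial.aeval_algHom_apply (K⟮u⟯).val (AdjoinSimple.gen K u) f).symm
    have hzF : z = u ^ k * (Polynomial.aeval u p / Polynomial.aeval u q) := by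
      have := congrArg Subtype.val hzz
      push_cast [AdjoinSimple.coe_gen] at this
      rwa [hco, hco] at this
    obtain ⟨h1, h1'⟩ := ord_aeval_eq_zero v hpos hp
    obtain ⟨h2, h2'⟩ := ord_aeval_eq_zero v hpos hq
    refine ⟨k, ?_⟩
    show v.ord z = _
    rw [hzF, v.ord_mul (zpow_ne_zero _ fun h => by simp [h] at hpos) (div_ne_zero h1' h2'),
      v.ord_zpow, ord_div v h1' h2', h1, h2]
    ring
  obtain ⟨π, hπ0, hπ⟩ := exists_uniformizer v
  by_cases hyE : y ∈ E
  · have hπE : π ∈ E := by
      have htop : (E⟮y⟯ : IntermediateField E F) ≤ ⊥ :=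
        adjoin_simple_le_iff.mpr (IntermediateField.mem_bot.mpr ⟨⟨y, hyE⟩, rfl⟩)
      rw [hy] at htop
      obtain ⟨a, ha⟩ := IntermediateField.mem_bot.mp (htop (trivial : π ∈ ⊤))
      exact ha ▸ a.2
    have := hdvd ⟨π, hπE⟩ hπ0
    rw [show ((⟨π, hπE⟩ : E) : F) = π from rfl, hπ] at this
    exact Int.eq_one_of_dvd_one hpos.le this
  obtain ⟨g, hg⟩ : ∃ g : Polynomial E, Polynomial.aeval y g = π := by
    have hmem : π ∈ (E⟮y⟯).toSubalgebra := by rw [hy]; trivial
    rw [adjoin_simple_toSubalgebra_of_isAlgebraic hint.isAlgebraic,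
      Algebra.adjoin_singleton_eq_range_aeval] at hmem
    exact hmem
  obtain ⟨B, hB⟩ : ∃ B : ℕ, ∀ i, OrdGE v (-(B : ℤ)) (g.coeff i : F) := by
    refine ⟨g.support.sup fun i => (v.ord (g.coeff i : F)).natAbs, fun i => ?_⟩
    by_cases hi : i ∈ g.support
    · have := Finset.le_sup (f := fun i => (v.ord (g.coeff i : F)).natAbs) hi
      exact OrdGE.of_le (by omega)
    · exact Or.inl (by simp [Polynomial.notMem_support_iff.mp hi])
  have hQv' : ∀ i, OrdGE v 0 (Q.coeff i : F) := fun i => by
    by_cases hi : i ∈ Q.support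
    · exact OrdGE.of_le (hQv i hi).ge
    · exact Or.inl (by simp [Polynomial.notMem_support_iff.mp hi])
  obtain ⟨P, hP0, hP⟩ := exists_approx_root v (minpoly.aeval E y) hyE
    (OrdGE.of_le hyv.ge) hQv' hdv hd0 (B + 2)
  set a : E := Polynomial.aeval P g with ha
  have hdiff : OrdGE v 2 (π - (a : F)) := by
    rw [← hg, ha, show ((Polynomial.aeval P g : E) : F) = algebraMap E F (Polynomial.aeval P g)
      from rfl, ← Polynomial.aeval_algebraMap_apply,
      Polynomial.aeval_eq_sum_range, Polynomial.aeval_eq_sum_range, ← Finset.sum_sub_distrib]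
    refine OrdGE.sum fun i hi => ?_
    clear hi
    rw [← smul_sub, Algebra.smul_def]
    obtain ⟨z, hz⟩ : ∃ z : F, OrdGE v 0 z ∧ y ^ i - (P : F) ^ i = z * (y - P) := by
      induction i with
      | zero => exact ⟨0, by simp [OrdGE], by simp⟩
      | succ i ih =>
        obtain ⟨z, hz, hz'⟩ := ih
        refine ⟨y ^ i + P * z, ?_, ?_⟩
        · have h1 : OrdGE v 0 (y ^ i) := by simpa using ordGE_pow (OrdGE.of_le hyv.ge) i
          exact h1.add (by simpa using hP0.mul hz)
        · rw [pow_succ, pow_succ]
          linear_combination (P : F) * hz'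
    rw [show algebraMap E F P = (P : F) from rfl, hz.2]
    exact ((hB i).mul (hz.1.mul hP)).mono (by push_cast; omega)
  have hordA : v.ord (a : F) = 1 := by
    have : (a : F) = π + -(π - a) := by ring
    rw [this, ord_add_eq_left v hπ0 fun h => ?_, hπ]
    have := hdiff.neg.le_ord h
    omega
  have := hdvd a (fun h => by simp [h] at hordA)
  rw [hordA] at this
  exact Int.eq_one_of_dvd_one hpos.le this

/-- Zeros of a section: `div s + G`. -/
def IsSectionZeros (G : Divisor K F) (s : F) {k : ℕ} (P : Fin k → Place K F) : Prop :=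
  s ≠ 0 ∧ Function.Injective P ∧ (∀ i, (P i).ord s + G (P i) = 1) ∧
    ∀ v, (∀ i, P i ≠ v) → v.ord s + G v = 0

/-- A general section of a divisor of large degree has simple zeros away from a finite set. -/
theorem exists_reduced_section [IsAlgClosed K] [CharZero K] [IsFunctionFieldOne K F]
    [IsCurveOver K F] (g : ℕ)
    (hRR : ∀ D : Divisor K F, 2 * (g : ℤ) - 1 ≤ Divisor.degree D →
      (Module.finrank K ↥(riemannRochSpace D) : ℤ) = Divisor.degree D + 1 - g)
    (G : Divisor K F) {k : ℕ} (hk : 2 * g + 1 ≤ k) (hG : Divisor.degree G = k)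
    (avoid : Finset (Place K F)) :
    ∃ (s : F) (P : Fin k → Place K F),
      IsSectionZeros G s P ∧ s ∈ riemannRochSpace G ∧ ∀ i, P i ∉ avoid := by
  classical
  have hfin : ∀ D : Divisor K F, Module.Finite K ↥(riemannRochSpace D) := finite_riemannRochSpace
  have hdeg : ∀ v : Place K F, v.deg = 1 := IsCurveOver.deg_eq_one_of_isAlgClosed
  have hdim := hRR G (by omega)
  obtain ⟨s₁, hs₁, hs₁0⟩ : ∃ s ∈ riemannRochSpace G, s ≠ 0 := by
    by_contra! h
    have hbot : riemannRochSpace G = ⊥ := (Submodule.eq_bot_iff _).mpr h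
    rw [hbot, finrank_bot] at hdim
    omega
  let A := G + divisorOf K s₁
  -- sections avoiding the zeros of `s₁` and the given finite set
  let T := A.support ∪ avoid
  let sub : Place K F → Divisor K F := fun v => G - Finsupp.single v 1
  obtain ⟨s₂, hs₂⟩ := Submodule.exists_forall_notMem_of_forall_ne_top
    (fun v : Option T => v.elim (⊥ : Submodule K ↥(riemannRochSpace G))
      fun v => (riemannRochSpace (sub v)).comap (riemannRochSpace G).subtype) (by
      rintro (_ | v) h <;> simp only [Option.elim] at h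
      · have : (⊥ : Submodule K ↥(riemannRochSpace G)) ≠ ⊤ := by
          have : Nontrivial ↥(riemannRochSpace G) :=
            ⟨⟨⟨s₁, hs₁⟩, 0, fun h => hs₁0 (congrArg Subtype.val h)⟩⟩
          exact bot_ne_top
        exact this h
      · rw [Submodule.comap_subtype_eq_top] at h
        have hd : Divisor.degree (sub v) = k - 1 := by
          simp [sub, hG, hdeg]
        have h2 := hRR (sub v) (by rw [hd]; omega)
        have := Submodule.finrank_mono (R := K) h
        rw [hd] at h2
        rw [hG] at hdim
        omega)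
  have hs₂0 : (s₂ : F) ≠ 0 := fun h => hs₂ none (by
    rw [Option.elim_none, Submodule.mem_bot]; exact Subtype.ext h)
  have hnn : ∀ (s : F), s ∈ riemannRochSpace G → s ≠ 0 → ∀ v, 0 ≤ v.ord s + G v := by
    intro s hs hs0 v
    have := (mem_riemannRochSpace_iff.mp hs v).resolve_left hs0
    omega
  have hB : ∀ v ∈ T, v.ord (s₂ : F) + G v = 0 := by
    intro v hv
    by_contra hne
    have h := hnn _ s₂.2 hs₂0 v
    refine hs₂ (some ⟨v, hv⟩) ?_
    rw [Option.elim_some, Submodule.mem_comap, Submodule.subtype_apply, mem_riemannRochSpace_iff]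
    intro w
    refine Or.inr ?_
    simp only [sub, Finsupp.sub_apply, Finsupp.single_apply]
    have := hnn _ s₂.2 hs₂0 w
    split_ifs with hw
    · subst hw; omega
    · omega
  set t := s₁ / (s₂ : F) with ht
  have hdisj : ∀ v, 0 < v.ord s₁ + G v → v.ord (s₂ : F) + G v = 0 := fun v hv =>
    hB v (Finset.mem_union_left _ (by
      rw [Finsupp.mem_support_iff, Finsupp.add_apply, divisorOf_apply]; omega))
  have hordt : ∀ v : Place K F, v.ord t = (v.ord s₁ + G v) - (v.ord (s₂ : F) + G v) := fun v => by
    rw [ht, ord_div v hs₁0 hs₂0]; ring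
  obtain ⟨v₀, hv₀⟩ : ∃ v, 0 < v.ord s₁ + G v := by
    by_contra! h
    have hA0 : A = 0 := Finsupp.ext fun v => by
      have h1 := h v
      have h2 := hnn _ hs₁ hs₁0 v
      rw [Finsupp.add_apply, divisorOf_apply, Finsupp.zero_apply]
      omega
    have := congrArg Divisor.degree hA0
    simp only [A, map_add, degree_divisorOf, map_zero, hG] at this
    omega
  have htr : Transcendental K t := transcendental_of_ord_ne_zero v₀ (by
    rw [hordt, hdisj v₀ hv₀]; omega)
  obtain ⟨S, hS⟩ := finite_ramified K F htr
  -- choose a value of the pencil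
  have hbadc : ∀ v : Place K F,
      {c : K | c ≠ 0 ∧ 0 < v.ord (t - algebraMap K F c)}.Subsingleton := by
    rintro v c ⟨-, hc⟩ c' ⟨-, hc'⟩
    by_contra hne
    have h1 := ((OrdGE.of_le (n := 1) (v := v) hc').sub (OrdGE.of_le (n := 1) hc))
    rw [show t - algebraMap K F c' - (t - algebraMap K F c) = algebraMap K F (c - c') by
      simp [map_sub]] at h1
    rcases h1 with h1 | h1
    · exact hne (sub_eq_zero.mp ((map_eq_zero _).mp h1))
    · rw [ord_algebraMap] at h1; omega
  obtain ⟨c, hc⟩ := Set.Finite.exists_notMem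
    (((S ∪ avoid).finite_toSet.biUnion fun v _ => (hbadc v).finite).union
      (Set.finite_singleton 0))
  simp only [Set.mem_union, Set.mem_iUnion, Set.mem_ofPred_eq, Set.mem_singleton_iff, not_or,
    not_exists, not_and, not_lt] at hc
  obtain ⟨hc, hc0⟩ := hc
  set s := s₁ - algebraMap K F c * s₂ with hs
  have htc : t - algebraMap K F c ≠ 0 := fun h =>
    htr ((sub_eq_zero.mp h) ▸ isAlgebraic_algebraMap c)
  have hfac : s = s₂ * (t - algebraMap K F c) := by
    rw [hs, ht, mul_sub, mul_div_cancel₀ _ hs₂0]; ring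
  have hs0 : s ≠ 0 := hfac ▸ mul_ne_zero hs₂0 htc
  have hsG : s ∈ riemannRochSpace G := by
    rw [hs, ← Algebra.smul_def]
    exact sub_mem hs₁ (Submodule.smul_mem _ c s₂.2)
  -- local description of the zeros of `s`
  have hloc : ∀ v, v.ord s + G v = max (v.ord (t - algebraMap K F c)) 0 := by
    intro v
    rw [hfac, v.ord_mul hs₂0 htc]
    have h2 := hnn _ s₂.2 hs₂0 v
    rcases lt_trichotomy (v.ord t) 0 with h | h | h
    · have hlt : v.ord (t - algebraMap K F c) = v.ord t := by
        rw [sub_eq_add_neg, ord_add_eq_left v (fun h0 => by simp [h0] at h) fun _ => by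
          rw [ord_neg, ord_algebraMap]; exact h]
      have h1 := hnn _ hs₁ hs₁0 v
      have hz : v.ord s₁ + G v = 0 := by
        by_contra hne
        have := hdisj v (by omega)
        rw [hordt] at h
        omega
      rw [hlt]
      rw [hordt] at h ⊢
      omega
    · have hnn' : 0 ≤ v.ord (t - algebraMap K F c) :=
        ((OrdGE.of_le (n := 0) h.ge).sub (ordGE_algebraMap v c)).le_ord htc
      have hz : v.ord (s₂ : F) + G v = 0 := by
        by_contra hne
        rw [hordt] at h
        have := hdisj v (by omega)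
        omega
      omega
    · have hlt : v.ord (t - algebraMap K F c) = 0 := by
        rw [sub_eq_neg_add, ord_add_eq_left v (by simpa using hc0) fun _ => by
          rw [ord_neg, ord_algebraMap]; exact h, ord_neg, ord_algebraMap]
      rw [hlt]
      rw [hordt] at h
      have := hdisj v (by omega)
      omega
  have hsimple : ∀ v, 0 < v.ord s + G v → v.ord s + G v = 1 ∧ v ∉ avoid := by
    intro v hv
    rw [hloc] at hv ⊢
    have hpos : 0 < v.ord (t - algebraMap K F c) := by omega
    have hnot : v ∉ S ∪ avoid := fun hmem => absurd hpos (not_lt.mpr (hc v hmem hc0))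
    rw [Finset.mem_union, not_or] at hnot
    exact ⟨by rw [hS v hnot.1 c hpos]; rfl, hnot.2⟩
  let Z := G + divisorOf K s
  have hZ : ∀ v, Z v = v.ord s + G v := fun v => by
    simp [Z, add_comm]
  have hZ1 : ∀ v ∈ Z.support, Z v = 1 := fun v hv => by
    rw [Finsupp.mem_support_iff, hZ] at hv
    have := hnn s hsG hs0 v
    rw [hZ]
    exact (hsimple v (by omega)).1
  have hcard : Z.support.card = k := by
    have h1 : Divisor.degree Z = k := by simp [Z, hG, degree_divisorOf]
    rw [Divisor.degree, Finsupp.liftAddHom_apply, Finsupp.sum,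
      Finset.sum_congr rfl (g := fun _ => (1 : ℤ)) (fun v hv => by simp [hZ1 v hv, hdeg v])] at h1
    simpa using h1
  let e : Fin k ≃ Z.support := (Finset.equivFinOfCardEq hcard).symm
  refine ⟨s, fun i => (e i : Place K F), ⟨hs0, Subtype.val_injective.comp e.injective,
    fun i => ?_, fun v hv => ?_⟩, hsG, fun i => ?_⟩
  · rw [← hZ]; exact hZ1 _ (e i).2
  · rw [← hZ]
    by_contra hne
    obtain ⟨i, hi⟩ := e.surjective ⟨v, Finsupp.mem_support_iff.mpr hne⟩
    exact hv i (congrArg Subtype.val hi)
  · have := hZ1 _ (e i).2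
    rw [hZ] at this
    exact (hsimple (e i : Place K F) (by omega)).2

end Fermat.Agent.MW

end
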