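import Fermat.Agent.MW.Weak
import Fermat.Agent.MW.WeakStabilizer
import Fermat.Agent.MW.WeakReduction
import Fermat.Agent.Curve.Divisible

/-!
# Weak Mordell-Weil for `J0(N)`
-/

set_option autoImplicit false

noncomputable section

namespace Fermat.Agent.MW

open AlgebraicCurve ModularCurve Fermat.Agent.Galois Fermat.Agent.Curve

local notation "Qb" => AlgebraicClosure ℚ
local notation "GQ" => (AlgebraicClosure ℚ ≃ₐ[ℚ] AlgebraicClosure ℚ)

/-- A point of `J0(N)` with rational `n`-th multiple is unramified outside `n N`. -/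
theorem smul_eq_self_of_nsmul_fixed {N : ℕ} [NeZero N] {n ℓ : ℕ} [Fact ℓ.Prime]
    (hℓN : ¬ ℓ ∣ N) (hℓn : ¬ ℓ ∣ n) {A : ValuationSubring Qb} (hA : A.LiesOverPrime ℓ)
    {σ : GQ} (hσ : σ ∈ A.inertiaSubgroupIn ℚ) (y : JZero N)
    (hy : n • y ∈ FixedPoints.addSubgroup GQ (JZero N)) : σ • y = y :=
  smul_eq_self_of_reduction (x0Reduction hℓN hA)
    (fun _ hz hr => eq_zero_of_x0Reduction_eq_zero hℓN hA hℓn hz hr)
    (x0Reduction_smul_inertia hℓN hA hσ y) (hy σ)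

/-- `n`-divisibility of `J0(N)`. -/
theorem exists_nsmul_eq_jZero (N : ℕ) [NeZero N] {n : ℕ} (hn : n ≠ 0) (x : JZero N) :
    ∃ y : JZero N, n • y = x := by
  have hfin : Finite (Pic0.torsion Qb (modularFunctionFieldBar N) n) :=
    ((finite_nsmul_eq_zero N hn).subset fun z hz => by
      rw [SetLike.mem_coe, Pic0.mem_torsion, natCast_zsmul] at hz
      exact hz).to_subtype
  exact pic0_exists_nsmul_eq (Nat.cast_ne_zero.2 hn) hfin x

/-- Weak Mordell-Weil for `J0(N)`: `J0(N)(ℚ) / n J0(N)(ℚ)` is finite. -/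
theorem finiteIndex_range_nsmul_jZero (N : ℕ) [NeZero N] {n : ℕ} (hn : n ≠ 0) :
    (nsmulAddMonoidHom n : ↥(FixedPoints.addSubgroup GQ (JZero N)) →+ _).range.FiniteIndex := by
  refine finiteIndex_range_nsmul n (n * N).primeFactors isOpen_stabilizer_jZero
    (fun x _ => exists_nsmul_eq_jZero N hn x) (finite_nsmul_eq_zero N hn) ?_
  intro ℓ hℓ hℓS A hA σ hσ y hy
  have : Fact ℓ.Prime := ⟨hℓ⟩
  rw [Nat.mem_primeFactors] at hℓS
  have h : ¬ ℓ ∣ n * N := fun h => hℓS ⟨hℓ, h, mul_ne_zero hn (NeZero.ne N)⟩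
  exact smul_eq_self_of_nsmul_fixed (fun h' => h (dvd_mul_of_dvd_right h' n))
    (fun h' => h (dvd_mul_of_dvd_left h' N)) hA hσ y hy

/-- `J0(N)(ℚ) / 2 J0(N)(ℚ)` is finite. -/
theorem JZero_finiteIndex_two (N : ℕ) [NeZero N] :
    (nsmulAddMonoidHom 2 : ↥(FixedPoints.addSubgroup GQ (JZero N)) →+ _).range.FiniteIndex :=
  finiteIndex_range_nsmul_jZero N two_ne_zero

end Fermat.Agent.MW

end
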