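/-
Absolute heights of tuples of algebraic numbers: compatibility of `Height.logHeight` with
extensions of number fields, linear and multilinear bounds, and the Northcott property.
-/
import Mathlib.NumberTheory.Height.NumberField
import Mathlib.NumberTheory.Height.MvPolynomial
import Mathlib.RingTheory.Ideal.Norm.RelNorm
import Mathlib.FieldTheory.IntermediateField.Adjoin.Basic

set_option autoImplicit false

namespace Fermat.Agent.MW

open Height NumberField Module Finset

section Extension

variable {k k' : Type*} [Field k] [NumberField k] [Field k'] [NumberField k'] [Algebra k k']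

theorem prod_pow_mult_eq_prod_embeddings (f : InfinitePlace k → ℝ) :
    ∏ w : InfinitePlace k, f w ^ w.mult = ∏ φ : k →+* ℂ, f (InfinitePlace.mk φ) := by
  classical
  rw [← Finset.univ.prod_fiberwise (fun φ : k →+* ℂ => InfinitePlace.mk φ)
    (fun φ => f (InfinitePlace.mk φ))]
  refine Finset.prod_congr rfl fun w _ => ?_
  rw [Finset.prod_congr rfl (g := fun _ => f w) (fun φ hφ => by
    rw [(Finset.mem_filter.mp hφ).2]), Finset.prod_const, InfinitePlace.card_filter_mk_eq]

theorem prod_infinitePlace_algebraMap {ι : Type*} (x : ι → k) :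
    ∏ w : InfinitePlace k', (⨆ i, w (algebraMap k k' (x i))) ^ w.mult =
      (∏ w : InfinitePlace k, (⨆ i, w (x i)) ^ w.mult) ^ finrank k k' := by
  classical
  rw [prod_pow_mult_eq_prod_embeddings, prod_pow_mult_eq_prod_embeddings, ← Finset.prod_pow,
    ← Finset.univ.prod_fiberwise (fun φ : k' →+* ℂ => φ.comp (algebraMap k k'))]
  refine Finset.prod_congr rfl fun ψ _ => ?_
  have hcard : (Finset.univ.filter fun φ : k' →+* ℂ => φ.comp (algebraMap k k') = ψ).card
      = finrank k k' := by
    letI := ψ.toAlgebra
    rw [← AlgHom.card k k' ℂ, ← Fintype.card_subtype]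
    exact Fintype.card_congr
      { toFun := fun φ => { φ.1 with commutes' := fun a => RingHom.congr_fun φ.2 a }
        invFun := fun φ => ⟨φ.toRingHom, RingHom.ext φ.commutes⟩
        left_inv := fun φ => rfl
        right_inv := fun φ => rfl }
  rw [Finset.prod_congr rfl (g := fun _ => ⨆ i, InfinitePlace.mk ψ (x i)) (fun φ hφ => ?_),
    Finset.prod_const, hcard]
  rw [← (Finset.mem_filter.mp hφ).2]
  rfl

variable {ι : Type*} [Finite ι]

/-- Scaling a tuple to a tuple of integers. -/
theorem exists_integral_smul (x : ι → k) :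
    ∃ c : k, c ≠ 0 ∧ ∃ y : ι → 𝓞 k, ∀ i, c * x i = (y i : k) := by
  cases nonempty_fintype ι
  obtain ⟨b, hb⟩ := IsLocalization.exist_integer_multiples_of_finite (nonZeroDivisors (𝓞 k)) x
  refine ⟨((b : 𝓞 k) : k), ?_, fun i => (hb i).choose, fun i => ?_⟩
  · exact_mod_cast nonZeroDivisors.ne_zero b.2
  · exact ((hb i).choose_spec.trans (Algebra.smul_def _ _)).symm

theorem mulHeight_algebraMap_integral (y : ι → 𝓞 k) (hy : y ≠ 0) :
    mulHeight (fun i => algebraMap k k' (y i : k)) =
      mulHeight (fun i => (y i : k)) ^ finrank k k' := by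
  have hy0 : (fun i => (y i : k)) ≠ 0 := by
    intro h
    exact hy (funext fun i => RingOfIntegers.coe_injective (by simpa using congrFun h i))
  let y' : ι → 𝓞 k' := fun i => algebraMap (𝓞 k) (𝓞 k') (y i)
  have hcoe : ∀ i, (y' i : k') = algebraMap k k' (y i : k) := fun i => rfl
  have hy' : y' ≠ 0 := by
    obtain ⟨i, hi⟩ := Function.ne_iff.mp hy0
    refine fun h => hi ?_
    have : (y' i : k') = 0 := by simp [h]
    rwa [hcoe, map_eq_zero] at this
  have hy0' : (fun i => algebraMap k k' (y i : k)) ≠ 0 := by
    obtain ⟨i, hi⟩ := Function.ne_iff.mp hy'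
    exact fun h => hi (RingOfIntegers.coe_injective (by simpa [hcoe] using congrFun h i))
  have h1 := absNorm_mul_finprod_finitePlace_eq_one (K := k) hy
  have h2 := absNorm_mul_finprod_finitePlace_eq_one (K := k') hy'
  have hspan : Ideal.span (Set.range y') =
      (Ideal.span (Set.range y)).map (algebraMap (𝓞 k) (𝓞 k')) := by
    rw [Ideal.map_span, ← Set.range_comp]
    rfl
  have hrank : finrank (𝓞 k) (𝓞 k') = finrank k k' :=
    (IsFractionRing.finrank_eq (𝓞 k) k (𝓞 k') k').symm
  rw [hspan, Ideal.absNorm_algebraMap, hrank] at h2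
  rw [NumberField.mulHeight_eq hy0, NumberField.mulHeight_eq hy0', prod_infinitePlace_algebraMap,
    mul_pow, eq_inv_of_mul_eq_one_right h1]
  have h2' := eq_inv_of_mul_eq_one_right h2
  push_cast at h2'
  simp only [hcoe] at h2'
  rw [inv_pow, h2']

theorem mulHeight_algebraMap (x : ι → k) :
    mulHeight (fun i => algebraMap k k' (x i)) = mulHeight x ^ finrank k k' := by
  rcases eq_or_ne x 0 with rfl | hx
  · simp
  obtain ⟨c, hc, y, hy⟩ := exists_integral_smul x
  have hy0 : y ≠ 0 := by
    obtain ⟨i, hi⟩ := Function.ne_iff.mp hx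
    refine fun h => ?_
    have := hy i
    simp [h, hc] at this
    exact hi this
  have h1 : (fun i => (y i : k)) = c • x := funext fun i => (hy i).symm
  have h2 : (fun i => algebraMap k k' (y i : k)) =
      algebraMap k k' c • (fun i => algebraMap k k' (x i)) :=
    funext fun i => by simp [← hy i]
  have h := mulHeight_algebraMap_integral (k' := k') y hy0
  rwa [h1, h2, mulHeight_smul_eq_mulHeight _ hc,
    mulHeight_smul_eq_mulHeight _ (by simpa using hc)] at h

theorem logHeight_algebraMap (x : ι → k) :
    logHeight (fun i => algebraMap k k' (x i)) = finrank k k' * logHeight x := by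
  rw [logHeight_eq_log_mulHeight, logHeight_eq_log_mulHeight, mulHeight_algebraMap, Real.log_pow]

end Extension

section Absolute

variable {L : Type*} [Field L] [CharZero L]

/-- The field generated by the entries of a tuple. -/
noncomputable abbrev entryField {ι : Type*} (x : ι → L) : IntermediateField ℚ L :=
  IntermediateField.adjoin ℚ (Set.range x)

variable [Algebra.IsAlgebraic ℚ L]

theorem finiteDimensional_adjoin_of_finite {S : Set L} (hS : S.Finite) :
    FiniteDimensional ℚ (IntermediateField.adjoin ℚ S) := by
  have := hS.to_subtype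
  exact IntermediateField.finiteDimensional_adjoin
    fun x _ => (Algebra.IsAlgebraic.isAlgebraic x).isIntegral

omit [Algebra.IsAlgebraic ℚ L] in
/-- A finite-dimensional intermediate field is a number field. -/
theorem numberField_of_finiteDimensional (k : IntermediateField ℚ L) [FiniteDimensional ℚ k] :
    NumberField k :=
  { to_charZero := inferInstance
    to_finiteDimensional := inferInstance }

open Classical in
/-- The absolute logarithmic height of a tuple of algebraic numbers. -/
noncomputable def absHeight {ι : Type*} (x : ι → L) : ℝ :=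
  if h : FiniteDimensional ℚ (entryField x) then
    haveI := h
    haveI : NumberField (entryField x) := numberField_of_finiteDimensional (entryField x)
    logHeight (fun i => (⟨x i, IntermediateField.subset_adjoin ℚ _ ⟨i, rfl⟩⟩ : entryField x)) /
      finrank ℚ (entryField x)
  else 0

variable {ι ι' : Type*}

theorem absHeight_nonneg (x : ι → L) [Finite ι] : 0 ≤ absHeight x := by
  unfold absHeight
  split_ifs with h
  · have := h
    have := numberField_of_finiteDimensional (entryField x)
    exact div_nonneg (Height.logHeight_nonneg _) (Nat.cast_nonneg _)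
  · exact le_rfl

/-- The absolute height can be computed in any number field containing the entries. -/
theorem absHeight_eq [Finite ι] (k : IntermediateField ℚ L) [NumberField k] (x : ι → k) :
    absHeight (fun i => (x i : L)) = logHeight x / finrank ℚ k := by
  set y : ι → L := fun i => (x i : L)
  have hle : entryField y ≤ k := by
    rw [IntermediateField.adjoin_le_iff]
    rintro _ ⟨i, rfl⟩
    exact (x i).2
  have hfd : FiniteDimensional ℚ (entryField y) :=
    finiteDimensional_adjoin_of_finite (Set.finite_range y)
  rw [absHeight, dif_pos hfd]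
  haveI := numberField_of_finiteDimensional (entryField y)
  letI : Algebra (entryField y) k := (IntermediateField.inclusion hle).toRingHom.toAlgebra
  haveI : IsScalarTower ℚ (entryField y) k := IsScalarTower.of_algebraMap_eq fun _ => rfl
  have h := logHeight_algebraMap (k' := k)
    (fun i => (⟨y i, IntermediateField.subset_adjoin ℚ _ ⟨i, rfl⟩⟩ : entryField y))
  have hx : (fun i => algebraMap (entryField y) k
      ⟨y i, IntermediateField.subset_adjoin ℚ _ ⟨i, rfl⟩⟩) = x := funext fun i => rfl
  rw [hx] at h
  rw [h, ← finrank_mul_finrank ℚ (entryField y) k, Nat.cast_mul]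
  have : (0 : ℝ) < finrank (entryField y) k := by
    haveI : Module.Finite (entryField y) k := Module.Finite.of_restrictScalars_finite ℚ _ _
    exact_mod_cast finrank_pos
  field_simp

/-- A number field containing given finite sets of algebraic numbers. -/
theorem exists_numberField (S : Set L) (hS : S.Finite) :
    ∃ k : IntermediateField ℚ L, NumberField k ∧ S ⊆ k :=
  ⟨IntermediateField.adjoin ℚ S,
    haveI := finiteDimensional_adjoin_of_finite hS
    numberField_of_finiteDimensional _, IntermediateField.subset_adjoin ℚ _⟩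

theorem absHeight_smul [Finite ι] (x : ι → L) {c : L} (hc : c ≠ 0) :
    absHeight (c • x) = absHeight x := by
  obtain ⟨k, hk, hS⟩ := exists_numberField (insert c (Set.range x)) ((Set.finite_range x).insert c)
  let x' : ι → k := fun i => ⟨x i, hS (Or.inr ⟨i, rfl⟩)⟩
  let c' : k := ⟨c, hS (Or.inl rfl)⟩
  have hc' : c' ≠ 0 := fun h => hc (congrArg Subtype.val h)
  rw [show c • x = fun i => ((c' • x') i : L) from rfl,
    show x = fun i => (x' i : L) from rfl, absHeight_eq, absHeight_eq,
    logHeight_smul_eq_logHeight _ hc']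

theorem absHeight_comp_equiv [Finite ι] (e : ι ≃ ι') (x : ι' → L) :
    absHeight (fun i => x (e i)) = absHeight x := by
  have : Finite ι' := Finite.of_equiv ι e
  obtain ⟨k, hk, hS⟩ := exists_numberField (Set.range x) (Set.finite_range x)
  let x' : ι' → k := fun i => ⟨x i, hS ⟨i, rfl⟩⟩
  rw [show (fun i => x (e i)) = fun i => ((x' ∘ e) i : L) from rfl,
    show x = fun i => (x' i : L) from rfl, absHeight_eq, absHeight_eq, logHeight_comp_equiv]

theorem absHeight_comp_le [Finite ι] [Finite ι'] (f : ι → ι') (x : ι' → L) :
    absHeight (fun i => x (f i)) ≤ absHeight x := by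
  obtain ⟨k, hk, hS⟩ := exists_numberField (Set.range x) (Set.finite_range x)
  let x' : ι' → k := fun i => ⟨x i, hS ⟨i, rfl⟩⟩
  rw [show (fun i => x (f i)) = fun i => ((x' ∘ f) i : L) from rfl,
    show x = fun i => (x' i : L) from rfl, absHeight_eq, absHeight_eq]
  exact div_le_div_of_nonneg_right (logHeight_comp_le f x') (Nat.cast_nonneg _)

/-- The height of a tensor product of nonzero vectors is the sum of the heights. -/
theorem absHeight_fun_prod {α : Type*} [Fintype α] {ι : α → Type*} [∀ a, Finite (ι a)]
    {x : (a : α) → ι a → L} (hx : ∀ a, x a ≠ 0) :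
    absHeight (fun I : (a : α) → ι a => ∏ a, x a (I a)) = ∑ a, absHeight (x a) := by
  obtain ⟨k, hk, hS⟩ := exists_numberField (⋃ a, Set.range (x a))
    (Set.finite_iUnion fun a => Set.finite_range (x a))
  let x' : (a : α) → ι a → k := fun a i => ⟨x a i, hS (Set.mem_iUnion.2 ⟨a, i, rfl⟩)⟩
  have hx' : ∀ a, x' a ≠ 0 := fun a h =>
    hx a (funext fun i => congrArg Subtype.val (congrFun h i))
  rw [show (fun I : (a : α) → ι a => ∏ a, x a (I a)) =
      fun I => (((fun I : (a : α) → ι a => ∏ a, x' a (I a)) I : k) : L) from
      funext fun I => by simp [x'], absHeight_eq, logHeight_fun_prod_eq hx', Finset.sum_div]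
  exact Finset.sum_congr rfl fun a _ => (absHeight_eq k (x' a)).symm

/-- The height of the tensor product of two nonzero vectors. -/
theorem absHeight_fun_mul [Finite ι] [Finite ι'] {x : ι → L} {y : ι' → L} (hx : x ≠ 0)
    (hy : y ≠ 0) : absHeight (fun p : ι × ι' => x p.1 * y p.2) = absHeight x + absHeight y := by
  obtain ⟨k, hk, hS⟩ := exists_numberField (Set.range x ∪ Set.range y)
    ((Set.finite_range x).union (Set.finite_range y))
  let x' : ι → k := fun i => ⟨x i, hS (Or.inl ⟨i, rfl⟩)⟩
  let y' : ι' → k := fun i => ⟨y i, hS (Or.inr ⟨i, rfl⟩)⟩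
  have hx' : x' ≠ 0 := fun h => hx (funext fun i => congrArg Subtype.val (congrFun h i))
  have hy' : y' ≠ 0 := fun h => hy (funext fun i => congrArg Subtype.val (congrFun h i))
  rw [show (fun p : ι × ι' => x p.1 * y p.2) =
      fun p => (((fun p : ι × ι' => x' p.1 * y' p.2) p : k) : L) from rfl,
    show x = fun i => (x' i : L) from rfl, show y = fun i => (y' i : L) from rfl,
    absHeight_eq, absHeight_eq, absHeight_eq, logHeight_fun_mul_eq hx' hy', add_div]

theorem absHeight_pow [Finite ι] (x : ι → L) (n : ℕ) :
    absHeight (fun i => x i ^ n) = n * absHeight x := by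
  obtain ⟨k, hk, hS⟩ := exists_numberField (Set.range x) (Set.finite_range x)
  let x' : ι → k := fun i => ⟨x i, hS ⟨i, rfl⟩⟩
  rw [show (fun i => x i ^ n) = fun i => ((x' ^ n) i : L) from rfl,
    show x = fun i => (x' i : L) from rfl, absHeight_eq, absHeight_eq, logHeight_pow, mul_div_assoc]

/-- A linear map increases the height by at most a constant. -/
theorem absHeight_linear_le [Fintype ι] [Finite ι'] (A : ι' → ι → L) :
    ∃ C : ℝ, ∀ x : ι → L, absHeight (fun j => ∑ i, A j i * x i) ≤ absHeight x + C := by
  refine ⟨Real.log (Nat.card ι) + absHeight (fun p : ι' × ι => A p.1 p.2), fun x => ?_⟩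
  obtain ⟨k, hk, hS⟩ := exists_numberField
    (Set.range (fun p : ι' × ι => A p.1 p.2) ∪ Set.range x)
    ((Set.finite_range _).union (Set.finite_range x))
  let A' : ι' × ι → k := fun p => ⟨A p.1 p.2, hS (Or.inl ⟨p, rfl⟩)⟩
  let x' : ι → k := fun i => ⟨x i, hS (Or.inr ⟨i, rfl⟩)⟩
  rw [show (fun j => ∑ i, A j i * x i) =
      fun j => (((fun j => ∑ i, A' (j, i) * x' i) j : k) : L) from funext fun j => by simp [A', x'],
    show (fun p : ι' × ι => A p.1 p.2) = fun p => (A' p : L) from rfl,
    show x = fun i => (x' i : L) from rfl, absHeight_eq, absHeight_eq, absHeight_eq]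
  have h := logHeight_linearMap_apply_le A' x'
  rw [NumberField.totalWeight_eq_finrank] at h
  have hpos : (0 : ℝ) < finrank ℚ k := by exact_mod_cast finrank_pos
  rw [← sub_nonneg] at h ⊢
  have e : logHeight x' / finrank ℚ k + (Real.log (Nat.card ι) + logHeight A' / finrank ℚ k) -
      logHeight (fun j => ∑ i, A' (j, i) * x' i) / finrank ℚ k =
      (finrank ℚ k * Real.log (Nat.card ι) + logHeight A' + logHeight x' -
        logHeight (fun j => ∑ i, A' (j, i) * x' i)) / finrank ℚ k := by
    field_simp
    ring
  rw [e]
  exact div_nonneg h hpos.le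

/-- Northcott: tuples over a fixed number field with an entry `1` and bounded height. -/
theorem finite_absHeight_le [Finite ι] (k : IntermediateField ℚ L) [NumberField k] (B : ℝ) :
    {x : ι → L | (∀ i, x i ∈ k) ∧ (∃ j, x j = 1) ∧ absHeight x ≤ B}.Finite := by
  have hpos : (0 : ℝ) < finrank ℚ k := by exact_mod_cast finrank_pos
  have hfin : {a : k | logHeight₁ a ≤ B * finrank ℚ k}.Finite :=
    Northcott.finite_le (h := logHeight₁) _
  refine ((Set.Finite.pi' fun _ : ι => hfin).image fun y i => (y i : L)).subset ?_
  rintro x ⟨hk, ⟨j, hj⟩, hB⟩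
  refine ⟨fun i => ⟨x i, hk i⟩, fun i => ?_, rfl⟩
  let x' : ι → k := fun i => ⟨x i, hk i⟩
  show logHeight₁ (x' i) ≤ _
  rw [show x = fun i => (x' i : L) from rfl, absHeight_eq, div_le_iff₀ hpos] at hB
  refine le_trans ?_ hB
  rw [logHeight₁_eq_logHeight]
  have hx : ![x' i, 1] = x' ∘ ![i, j] := by
    have h1 : (1 : k) = x' j := Subtype.ext hj.symm
    funext t
    fin_cases t
    · rfl
    · exact h1
  rw [hx]
  exact logHeight_comp_le _ x'

end Absolute

end Fermat.Agent.MW
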