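/-
Bounds for the height of the image of a tuple under forms: the upper bound, the lower bound from
the Nullstellensatz for forms without common zero on the closure of a set, and descent by halving.
-/
import Fermat.Agent.MW.Height2Forms
import Mathlib.RingTheory.Nullstellensatz
import Mathlib.Algebra.MvPolynomial.Funext
import Mathlib.Algebra.MvPolynomial.CommRing
import Mathlib.GroupTheory.Descent
import Mathlib.GroupTheory.Index

set_option autoImplicit false

noncomputable section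

namespace Fermat.Agent.MW

open MvPolynomial Finset

variable {L : Type*} [Field L] [CharZero L] [Algebra.IsAlgebraic ℚ L]
variable {ι ι' o : Type*} [Fintype ι] [Fintype ι'] [Fintype o]

/-- The form of degree `N` with coefficient tensor `B`. -/
def evalForm {N : ℕ} (B : o → (Fin N → ι) → L) (z : ι → L) : o → L :=
  fun x => ∑ I, B x I * ∏ t, z (I t)

/-- The biform of bidegree `(N₁, N₂)` with coefficient tensor `G`. -/
def evalBiForm {N₁ N₂ : ℕ} (G : o → (Fin N₁ → ι) → (Fin N₂ → ι') → L) (z : ι → L)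
    (p : ι' → L) : o → L :=
  fun x => ∑ I, ∑ J, G x I J * ((∏ t, z (I t)) * ∏ t, p (J t))

/-- The point `(z, p)` lies in the closure of the cone over a set of pairs. -/
def InClosure (S : Set ((ι → L) × (ι' → L))) (z : ι → L) (p : ι' → L) : Prop :=
  ∀ P : MvPolynomial (ι ⊕ ι') L,
    (∀ w ∈ S, ∀ c c₁ : L, eval (Sum.elim (c • w.1) (c₁ • w.2)) P = 0) →
      eval (Sum.elim z p) P = 0

omit [Fintype o] in
theorem absHeight_tensor_pow {z : ι → L} (hz : z ≠ 0) (N : ℕ) :
    absHeight (fun I : Fin N → ι => ∏ t, z (I t)) = N * absHeight z := by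
  rw [absHeight_fun_prod (x := fun _ : Fin N => z) fun _ => hz]
  simp

theorem absHeight_of_subsingleton [Subsingleton ι] (x : ι → L) : absHeight x = 0 := by
  obtain ⟨k, hk, hS⟩ := exists_numberField (Set.range x) (Set.finite_range x)
  let x' : ι → k := fun i => ⟨x i, hS ⟨i, rfl⟩⟩
  rw [show x = fun i => (x' i : L) from rfl, absHeight_eq,
    Height.logHeight_eq_zero_of_subsingleton, zero_div]

theorem absHeight_zero : absHeight (0 : ι → L) = 0 := by
  obtain ⟨k, hk, -⟩ := exists_numberField (∅ : Set L) Set.finite_empty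
  rw [show (0 : ι → L) = fun i => ((0 : ι → k) i : L) from funext fun i => by simp, absHeight_eq,
    Height.logHeight_zero, zero_div]

/-- A form of degree `N` multiplies heights by at most `N`, up to a constant. -/
theorem evalForm_le {N : ℕ} (B : o → (Fin N → ι) → L) :
    ∃ C : ℝ, ∀ z, absHeight (evalForm B z) ≤ N * absHeight z + C := by
  classical
  obtain ⟨C, hC⟩ := absHeight_linear_le B
  refine ⟨C, fun z => (hC _).trans ?_⟩
  gcongr
  rcases Nat.eq_zero_or_pos N with rfl | hN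
  · rw [absHeight_of_subsingleton]; simp
  rcases eq_or_ne z 0 with rfl | hz
  · rw [show (fun I : Fin N → ι => ∏ t, (0 : ι → L) (I t)) = 0 from
      funext fun I => prod_eq_zero (mem_univ ⟨0, hN⟩) rfl, absHeight_zero, absHeight_zero]
    simp
  · rw [absHeight_tensor_pow hz]

omit [CharZero L] [Algebra.IsAlgebraic ℚ L] in
theorem eval_sum_elim_monomial (d : (ι ⊕ ι') →₀ ℕ) (z : ι → L) (p : ι' → L) :
    (∏ s, Sum.elim z p s ^ d s) = (∏ i, z i ^ d (Sum.inl i)) * ∏ j, p j ^ d (Sum.inr j) :=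
  Fintype.prod_sum_type _

omit [CharZero L] [Algebra.IsAlgebraic ℚ L] in
/-- A monomial is a product over a tuple of indices. -/
theorem exists_index_tuple {κ : Type*} [Fintype κ] (d : κ → ℕ) {m : ℕ} (hm : ∑ i, d i = m) :
    ∃ I : Fin m → κ, ∀ z : κ → L, ∏ t, z (I t) = ∏ i, z i ^ d i := by
  classical
  have hcard : Fintype.card (Σ i, Fin (d i)) = m := by simp [hm]
  let e : Fin m ≃ Σ i, Fin (d i) := (Fintype.equivFinOfCardEq hcard).symm
  refine ⟨fun t => (e t).1, fun z => ?_⟩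
  rw [e.prod_comp (fun s => z s.1), Fintype.prod_sigma]
  simp

variable [IsAlgClosed L]

/-- Forms with no common zero on the closure of `S` (away from the degenerate pairs) bound the
height from below. -/
theorem biForm_lower {N₁ N₂ : ℕ} (G : o → (Fin N₁ → ι) → (Fin N₂ → ι') → L)
    (S : Set ((ι → L) × (ι' → L)))
    (hG : ∀ (z : ι → L) (p : ι' → L), z ≠ 0 → p ≠ 0 → InClosure S z p → evalBiForm G z p ≠ 0) :
    ∃ C : ℝ, ∀ w ∈ S, w.1 ≠ 0 → w.2 ≠ 0 →
      (N₁ : ℝ) * absHeight w.1 + N₂ * absHeight w.2 ≤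
        absHeight (evalBiForm G w.1 w.2) + C := by
  classical
  let cone : Set (ι ⊕ ι' → L) :=
    {v | ∃ w ∈ S, ∃ c c₁ : L, v = Sum.elim (c • w.1) (c₁ • w.2)}
  let Gp : o → MvPolynomial (ι ⊕ ι') L := fun x => ∑ I, ∑ J,
    C (G x I J) * ((∏ t, X (Sum.inl (I t))) * ∏ t, X (Sum.inr (J t)))
  have hGp : ∀ x z p, eval (Sum.elim z p) (Gp x) = evalBiForm G z p x := by
    intro x z p
    simp [Gp, evalBiForm]
  set I₀ : Ideal (MvPolynomial (ι ⊕ ι') L) := vanishingIdeal L cone with hI₀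
  have hrad : ∀ a b, (X (Sum.inl a) * X (Sum.inr b) : MvPolynomial (ι ⊕ ι') L) ∈
      (I₀ ⊔ Ideal.span (Set.range Gp)).radical := by
    intro a b
    rw [← vanishingIdeal_zeroLocus_eq_radical (K := L), mem_vanishingIdeal_iff]
    intro v hv
    rw [mem_zeroLocus_iff] at hv
    simp only [aeval_eq_eval, eval_mul, eval_X]
    by_contra hne
    obtain ⟨hza, hpb⟩ := mul_ne_zero_iff.mp hne
    refine hG (v ∘ Sum.inl) (v ∘ Sum.inr) (fun h => hza (congrFun h a))
      (fun h => hpb (congrFun h b)) (fun P hP => ?_) ?_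
    · rw [Sum.elim_comp_inl_inr]
      have := hv P (Ideal.mem_sup_left (by
        rw [hI₀, mem_vanishingIdeal_iff]
        rintro _ ⟨w, hw, c, c₁, rfl⟩
        exact hP w hw c c₁))
      simpa [aeval_eq_eval] using this
    · funext x
      rw [← hGp, Sum.elim_comp_inl_inr]
      have := hv (Gp x) (Ideal.mem_sup_right (Ideal.subset_span ⟨x, rfl⟩))
      simpa [aeval_eq_eval] using this
  choose n hn using fun a b => Ideal.mem_radical_iff.mp (hrad a b)
  obtain ⟨M, hMn, hM1, hM2, hMpos⟩ :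
      ∃ M, (∀ a b, n a b ≤ M) ∧ N₁ ≤ M ∧ N₂ ≤ M ∧ 0 < M := by
    refine ⟨(univ.sup fun ab : ι × ι' => n ab.1 ab.2) + N₁ + N₂ + 1, fun a b => ?_, by omega,
      by omega, by omega⟩
    have := Finset.le_sup (f := fun ab : ι × ι' => n ab.1 ab.2) (mem_univ (a, b))
    simp only at this
    omega
  have hmem : ∀ ab : ι × ι', (X (Sum.inl ab.1) * X (Sum.inr ab.2) : MvPolynomial (ι ⊕ ι') L) ^ M ∈
      I₀ ⊔ Ideal.span (Set.range Gp) :=
    fun ab => Ideal.pow_mem_of_pow_mem _ (hn ab.1 ab.2) (hMn _ _)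
  choose i₀ hi₀ q' hq' hsum using fun ab => Submodule.mem_sup.mp (hmem ab)
  choose q hq using fun ab => Ideal.mem_span_range_iff_exists_fun.mp (hq' ab)
  let d₁ : ((ι ⊕ ι') →₀ ℕ) → ℕ := fun d => ∑ i, d (Sum.inl i)
  let d₂ : ((ι ⊕ ι') →₀ ℕ) → ℕ := fun d => ∑ j, d (Sum.inr j)
  -- the relevant bihomogeneous component of a multiplier, as a tensor
  have hcomp : ∀ P : MvPolynomial (ι ⊕ ι') L,
      ∃ T : (Fin (M - N₁) → ι) → (Fin (M - N₂) → ι') → L, ∀ (z : ι → L) (p : ι' → L),
        ∑ d ∈ P.support.filter (fun d => d₁ d + N₁ = M ∧ d₂ d + N₂ = M),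
          coeff d P * ((∏ i, z i ^ d (Sum.inl i)) * ∏ j, p j ^ d (Sum.inr j)) =
        ∑ I, ∑ J, T I J * ((∏ t, z (I t)) * ∏ t, p (J t)) := by
    intro P
    set D := P.support.filter (fun d => d₁ d + N₁ = M ∧ d₂ d + N₂ = M) with hD
    have hIx : ∀ d : D, ∃ IJ : (Fin (M - N₁) → ι) × (Fin (M - N₂) → ι'), ∀ (z : ι → L) (p : ι' → L),
        (∏ t, z (IJ.1 t)) * ∏ t, p (IJ.2 t) =
          (∏ i, z i ^ (d : (ι ⊕ ι') →₀ ℕ) (Sum.inl i)) *
            ∏ j, (p : ι' → L) j ^ (d : (ι ⊕ ι') →₀ ℕ) (Sum.inr j) := by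
      rintro ⟨d, hd⟩
      obtain ⟨hd1, hd2⟩ := (Finset.mem_filter.mp hd).2
      obtain ⟨I, hI⟩ := exists_index_tuple (L := L) (fun i => d (Sum.inl i)) (m := M - N₁)
        (by simp only [d₁] at hd1; omega)
      obtain ⟨J, hJ⟩ := exists_index_tuple (L := L) (fun j => d (Sum.inr j)) (m := M - N₂)
        (by simp only [d₂] at hd2; omega)
      exact ⟨(I, J), fun z p => by rw [hI, hJ]⟩
    choose IJ hIJ using hIx
    refine ⟨fun I J => ∑ d : D, if IJ d = (I, J) then coeff (d : (ι ⊕ ι') →₀ ℕ) P else 0,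
      fun z p => ?_⟩
    rw [← Finset.sum_coe_sort]
    calc ∑ d : D, coeff (d : (ι ⊕ ι') →₀ ℕ) P * ((∏ i, z i ^ (d : (ι ⊕ ι') →₀ ℕ) (Sum.inl i)) *
          ∏ j, p j ^ (d : (ι ⊕ ι') →₀ ℕ) (Sum.inr j))
        = ∑ d : D, ∑ IJ' : (Fin (M - N₁) → ι) × (Fin (M - N₂) → ι'),
            (if IJ d = IJ' then coeff (d : (ι ⊕ ι') →₀ ℕ) P else 0) *
              ((∏ t, z (IJ'.1 t)) * ∏ t, p (IJ'.2 t)) := by
          refine Finset.sum_congr rfl fun d _ => ?_
          simp only [ite_mul, zero_mul, Finset.sum_ite_eq, Finset.mem_univ, if_true, hIJ]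
      _ = _ := by
          rw [Finset.sum_comm, Fintype.sum_prod_type]
          simp only [Finset.sum_mul]
  choose T hT using fun (ab : ι × ι') (x : o) => hcomp (q ab x)
  obtain ⟨C₀, hC₀⟩ := absHeight_linear_le (L := L)
    (fun (ab : ι × ι') (k : o × (Fin (M - N₁) → ι) × (Fin (M - N₂) → ι')) => T ab k.1 k.2.1 k.2.2)
  refine ⟨C₀, ?_⟩
  rintro ⟨z, p⟩ hw hz hp
  simp only at hz hp ⊢
  have hval : ∀ ab : ι × ι', (z ab.1 * p ab.2) ^ M =
      ∑ k : o × (Fin (M - N₁) → ι) × (Fin (M - N₂) → ι'), T ab k.1 k.2.1 k.2.2 *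
        (evalBiForm G z p k.1 * ((∏ t, z (k.2.1 t)) * ∏ t, p (k.2.2 t))) := by
    intro ab
    let e : ((ι ⊕ ι') →₀ ℕ) → (Fin 2 →₀ ℕ) := fun d =>
      Finsupp.single 0 (d₁ d + N₁) + Finsupp.single 1 (d₂ d + N₂)
    let mon : ((ι ⊕ ι') →₀ ℕ) → L := fun d =>
      (∏ i, z i ^ d (Sum.inl i)) * ∏ j, p j ^ d (Sum.inr j)
    let H : MvPolynomial (Fin 2) L := ∑ x, ∑ d ∈ (q ab x).support,
      monomial (e d) (coeff d (q ab x) * mon d * evalBiForm G z p x)
    have hH : H = monomial (Finsupp.single 0 M + Finsupp.single 1 M)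
        ((z ab.1 * p ab.2) ^ M) := by
      refine MvPolynomial.funext fun v => ?_
      have hid := congrArg (eval (Sum.elim (v 0 • z) (v 1 • p)))
        ((congrArg (i₀ ab + ·) (hq ab)).trans (hsum ab))
      have h0 : eval (Sum.elim (v 0 • z) (v 1 • p)) (i₀ ab) = 0 := by
        have := mem_vanishingIdeal_iff.mp (hi₀ ab) _ ⟨(z, p), hw, v 0, v 1, rfl⟩
        simpa [aeval_eq_eval] using this
      have hscale : ∀ x, evalBiForm G (v 0 • z) (v 1 • p) x =
          v 0 ^ N₁ * v 1 ^ N₂ * evalBiForm G z p x := by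
        intro x
        simp only [evalBiForm, Pi.smul_apply, smul_eq_mul, Finset.prod_mul_distrib,
          Finset.prod_const, Finset.card_univ, Fintype.card_fin, Finset.mul_sum]
        exact Finset.sum_congr rfl fun I _ => Finset.sum_congr rfl fun J _ => by ring
      rw [map_add, h0, zero_add, map_sum] at hid
      simp only [map_mul, map_pow, eval_X, Sum.elim_inl, Sum.elim_inr, Pi.smul_apply,
        smul_eq_mul] at hid
      rw [eval_monomial]
      have hmon : Finsupp.prod (Finsupp.single 0 M + Finsupp.single 1 M : Fin 2 →₀ ℕ)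
          (fun i k => v i ^ k) = v 0 ^ M * v 1 ^ M := by
        rw [Finsupp.prod_add_index' (fun _ => pow_zero _) (fun _ _ _ => pow_add _ _ _)]
        simp
      rw [hmon]
      have hlhs : eval v H = ∑ x, eval (Sum.elim (v 0 • z) (v 1 • p)) (q ab x) *
          eval (Sum.elim (v 0 • z) (v 1 • p)) (Gp x) := by
        simp only [H, map_sum]
        refine Finset.sum_congr rfl fun x _ => ?_
        rw [hGp, hscale, eval_eq', Finset.sum_mul]
        refine Finset.sum_congr rfl fun d _ => ?_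
        have he : Finsupp.prod (e d) (fun i k => v i ^ k) =
            v 0 ^ (d₁ d + N₁) * v 1 ^ (d₂ d + N₂) := by
          rw [Finsupp.prod_add_index' (fun _ => pow_zero _) (fun _ _ _ => pow_add _ _ _)]
          simp
        rw [eval_monomial, he, eval_sum_elim_monomial]
        simp only [mon, d₁, d₂, Pi.smul_apply, smul_eq_mul, mul_pow, Finset.prod_mul_distrib,
          Finset.prod_pow_eq_pow_sum, pow_add]
        ring
      rw [hlhs, hid]
      ring
    have hco := congrArg (coeff (Finsupp.single 0 M + Finsupp.single 1 M)) hH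
    rw [coeff_monomial, if_pos rfl] at hco
    rw [← hco, coeff_sum, Fintype.sum_prod_type]
    refine Finset.sum_congr rfl fun x _ => ?_
    have he : ∀ d, e d = Finsupp.single 0 M + Finsupp.single 1 M ↔
        d₁ d + N₁ = M ∧ d₂ d + N₂ = M := by
      intro d
      refine ⟨fun h => ⟨?_, ?_⟩, fun h => by simp only [e, h.1, h.2]⟩
      · simpa [e] using DFunLike.congr_fun h 0
      · simpa [e] using DFunLike.congr_fun h 1
    rw [coeff_sum]
    simp only [coeff_monomial, he]
    rw [← Finset.sum_filter]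
    have h' := congrArg (· * evalBiForm G z p x) (hT ab x z p)
    simp only [Finset.sum_mul] at h'
    rw [h', Fintype.sum_prod_type]
    exact Finset.sum_congr rfl fun I _ => Finset.sum_congr rfl fun J _ => by ring
  -- take heights
  obtain ⟨a, ha⟩ := Function.ne_iff.mp hz
  obtain ⟨b, hb⟩ := Function.ne_iff.mp hp
  simp only [Pi.zero_apply, ne_eq] at ha hb
  have hne : evalBiForm G z p ≠ 0 := fun h => by
    have := hval (a, b)
    simp [h, hMpos.ne', ha, hb] at this
  have hz' : (fun I : Fin (M - N₁) → ι => ∏ t, z (I t)) ≠ 0 := fun h =>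
    pow_ne_zero (M - N₁) ha (by simpa using congrFun h fun _ => a)
  have hp' : (fun J : Fin (M - N₂) → ι' => ∏ t, p (J t)) ≠ 0 := fun h =>
    pow_ne_zero (M - N₂) hb (by simpa using congrFun h fun _ => b)
  have hzp : (fun IJ : (Fin (M - N₁) → ι) × (Fin (M - N₂) → ι') =>
      (∏ t, z (IJ.1 t)) * ∏ t, p (IJ.2 t)) ≠ 0 := fun h =>
    mul_ne_zero (pow_ne_zero (M - N₁) ha) (pow_ne_zero (M - N₂) hb)
      (by simpa using congrFun h (fun _ => a, fun _ => b))
  have h1 := hC₀ fun k : o × (Fin (M - N₁) → ι) × (Fin (M - N₂) → ι') =>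
    evalBiForm G z p k.1 * ((∏ t, z (k.2.1 t)) * ∏ t, p (k.2.2 t))
  rw [← funext hval, absHeight_pow (fun ab : ι × ι' => z ab.1 * p ab.2),
    absHeight_fun_mul hz hp,
    absHeight_fun_mul (x := evalBiForm G z p)
      (y := fun IJ : (Fin (M - N₁) → ι) × (Fin (M - N₂) → ι') =>
        (∏ t, z (IJ.1 t)) * ∏ t, p (IJ.2 t)) hne hzp,
    absHeight_fun_mul hz' hp', absHeight_tensor_pow hz, absHeight_tensor_pow hp,
    Nat.cast_sub hM1, Nat.cast_sub hM2] at h1
  linarith

/-- A form without zero on the closure of the first projection of `S` bounds the height from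
below by its degree. -/
theorem evalForm_lower {N : ℕ} (B : o → (Fin N → ι) → L) (S : Set ((ι → L) × (ι' → L)))
    (hB : ∀ (z : ι → L) (p : ι' → L), z ≠ 0 → p ≠ 0 → InClosure S z p → evalForm B z ≠ 0) :
    ∃ C : ℝ, ∀ w ∈ S, w.1 ≠ 0 → w.2 ≠ 0 →
      (N : ℝ) * absHeight w.1 ≤ absHeight (evalForm B w.1) + C := by
  classical
  let G : o → (Fin N → ι) → (Fin 0 → ι') → L := fun x I _ => B x I
  have hG : ∀ z p, evalBiForm G z p = evalForm B z := by
    intro z p
    funext x
    simp [evalBiForm, evalForm, G]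
  obtain ⟨C, hC⟩ := biForm_lower G S fun z p hz hp h => by rw [hG]; exact hB z p hz hp h
  exact ⟨C, fun w hw h1 h2 => by
    have := hC w hw h1 h2
    rwa [hG, Nat.cast_zero, zero_mul, add_zero] at this⟩

/-- A bilinear map without zero divisors has the height of the product bounded below. -/
theorem mul_lower (B : o → ι → ι' → L)
    (hB : ∀ (v : ι → L) (w : ι' → L), v ≠ 0 → w ≠ 0 → (fun x => ∑ a, ∑ b, B x a b * (v a * w b)) ≠ 0) :
    ∃ C : ℝ, ∀ (v : ι → L) (w : ι' → L), v ≠ 0 → w ≠ 0 →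
      absHeight v + absHeight w ≤
        absHeight (fun x => ∑ a, ∑ b, B x a b * (v a * w b)) + C := by
  classical
  let G : o → (Fin 1 → ι) → (Fin 1 → ι') → L := fun x I J => B x (I 0) (J 0)
  have hG : ∀ z p, evalBiForm G z p = fun x => ∑ a, ∑ b, B x a b * (z a * p b) := by
    intro z p
    funext x
    simp only [evalBiForm, G, Fin.prod_univ_one]
    rw [← (Equiv.funUnique (Fin 1) ι).sum_comp (fun a => ∑ b, B x a b * (z a * p b))]
    refine Finset.sum_congr rfl fun I _ => ?_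
    rw [← (Equiv.funUnique (Fin 1) ι').sum_comp]
    rfl
  obtain ⟨C, hC⟩ := biForm_lower G Set.univ fun z p hz hp _ => by rw [hG]; exact hB z p hz hp
  exact ⟨C, fun v w hv hw => by
    have := hC (v, w) trivial hv hw
    rwa [hG, Nat.cast_one, one_mul, one_mul] at this⟩

omit [Field L] [CharZero L] [Algebra.IsAlgebraic ℚ L] [IsAlgClosed L] in
/-- Descent by halving. -/
theorem fg_of_halving {A : Type*} [AddCommGroup A]
    (hfin : (nsmulAddMonoidHom (α := A) 2).range.FiniteIndex) (H : A → ℝ) [Northcott H]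
    (hH : ∀ g, ∃ C : ℝ, ∀ y, H y ≤ H (g + 2 • y) / 2 + C) : AddGroup.FG A := by
  classical
  choose C hC using hH
  let R := (nsmulAddMonoidHom (α := A) 2).range
  let rep : A ⧸ R → A := Quotient.out
  obtain ⟨C₁, hC₁⟩ := (Set.finite_range fun r : A ⧸ R => C (rep r)).bddAbove
  let S : Set A := Set.range rep ∪ {x | H x ≤ 2 * C₁}
  let U := AddSubgroup.closure S
  suffices U = ⊤ from AddGroup.fg_iff.mpr
    ⟨S, this, (Set.finite_range rep).union (Northcott.finite_le _)⟩
  by_contra hne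
  have hex : ((U : Set A)ᶜ).Nonempty := by
    rw [Set.nonempty_compl]
    exact fun h => hne (SetLike.coe_injective (h.trans AddSubgroup.coe_top.symm))
  obtain ⟨x, hx, hmin⟩ := Northcott.exists_min_image H _ hex
  set r := rep (QuotientAddGroup.mk x) with hr
  obtain ⟨y, hy⟩ : x - r ∈ R := by
    rw [← QuotientAddGroup.eq_iff_sub_mem]
    exact (QuotientAddGroup.out_eq' _).symm
  have hy' : r + 2 • y = x := by
    rw [show 2 • y = x - r from hy]
    abel
  by_cases hyU : y ∈ U
  · exact hx (hy' ▸ add_mem (AddSubgroup.subset_closure (Or.inl ⟨_, rfl⟩)) (nsmul_mem hyU 2))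
  · have h1 := hC r y
    rw [hy'] at h1
    have h2 : C r ≤ C₁ := hC₁ ⟨_, rfl⟩
    have h3 : ¬ H x ≤ 2 * C₁ := fun h => hx (AddSubgroup.subset_closure (Or.inr h))
    have h4 := hmin y hyU
    linarith

end Fermat.Agent.MW

end
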