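/-
Symmetry of the resultant of two monic representations.

Functions with poles only at `P0` have a division algorithm by a monic function `f` with pole
order `a`: the remainders are combinations of `a` fixed functions, one for each pole order `i`
such that `i - a` is not a pole order. Evaluating the two remainder systems of `f * g` at all
zeros gives `∏ f(zeros of g) = ∏ g(zeros of f)` when `a` is even.
-/
import Fermat.Agent.MW.HeightBase
import Mathlib.LinearAlgebra.Matrix.SchurComplement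
import Mathlib.LinearAlgebra.Matrix.Block
import Mathlib.LinearAlgebra.Matrix.ToLinearEquiv

set_option autoImplicit false
set_option linter.unusedSectionVars false

noncomputable section

namespace Fermat.Agent.MW.Kummer

open AlgebraicCurve Fermat.Agent.Curve

variable {K F : Type*} [Field K] [Field F] [Algebra K F]

namespace Marked

variable (c : Marked K F)

/-- The natural number `i` is a pole order at `P0`. -/
def IsPoleOrder (i : ℕ) : Prop := ∃ f : F, c.Reg f ∧ f ≠ 0 ∧ c.P0.ord f = -(i : ℤ)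

theorem mem_W_of_reg {j : ℕ} {f : F} (hf : c.Reg f) (h : f ≠ 0 → -(j : ℤ) ≤ c.P0.ord f) :
    f ∈ c.W j :=
  c.mem_W_iff.2 fun h0 => ⟨fun v => ord_nonneg_of_mem _ (hf v), h h0⟩

theorem mem_poleOrders_iff {i j : ℕ} : i ∈ c.poleOrders j ↔ i ≤ j ∧ c.IsPoleOrder i := by
  classical
  simp only [poleOrders, Finset.mem_filter, Finset.mem_range, Nat.lt_succ_iff]
  refine and_congr_right fun hij => ⟨?_, ?_⟩
  · rintro ⟨f, hf, h0, hord⟩
    exact ⟨f, c.reg_of_mem_W hf, h0, hord⟩
  · rintro ⟨f, hf, h0, hord⟩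
    exact ⟨f, c.mem_W_of_reg hf fun _ => by omega, h0, hord⟩

open Classical in
/-- A monic function of given pole order (zero if there is none). -/
def mono (i : ℕ) : F :=
  if h : c.IsPoleOrder i then
    algebraMap K F ((c.ι h.choose).coeff (-(i : ℤ)))⁻¹ * h.choose
  else 0

theorem reg_mono (i : ℕ) : c.Reg (c.mono i) := by
  unfold mono
  split_ifs with h
  · exact fun v => mul_mem (v.1.algebraMap_mem' _) (h.choose_spec.1 v)
  · exact fun v => zero_mem _

theorem mono_spec {i : ℕ} (h : c.IsPoleOrder i) :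
    c.mono i ≠ 0 ∧ c.P0.ord (c.mono i) = -(i : ℤ) ∧ (c.ι (c.mono i)).coeff (-(i : ℤ)) = 1 := by
  obtain ⟨-, h0, hord⟩ := h.choose_spec
  have ha : (c.ι h.choose).coeff (-(i : ℤ)) ≠ 0 := by
    have := c.coeff_ord_ne_zero h0
    rwa [hord] at this
  rw [mono, dif_pos h]
  refine ⟨mul_ne_zero (by simpa using ha) h0, ?_, ?_⟩
  · rw [c.P0.ord_mul (by simpa using ha) h0, ord_algebraMap, zero_add, hord]
  · rw [map_mul, c.ι.commutes, HahnSeries.algebraMap_apply']
    simp [ha]

theorem mono_mem_W {i j : ℕ} (hij : i ≤ j) : c.mono i ∈ c.W j := by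
  refine c.mem_W_of_reg (c.reg_mono i) fun h0 => ?_
  have h : c.IsPoleOrder i := by
    by_contra h
    exact h0 (by rw [mono, dif_neg h])
  rw [(c.mono_spec h).2.1]
  omega

/-- The coefficient of `P0`-order `-n` of a product with a monic function of exact order `-a`. -/
theorem coeff_mul_monic {a n : ℕ} {f u : F} (hford : c.P0.ord f = -(a : ℤ))
    (hf : (c.ι f).coeff (-(a : ℤ)) = 1) (hu : c.P0.ord u = -(n : ℤ))
    (hu1 : (c.ι u).coeff (-(n : ℤ)) = 1) :
    (c.ι (f * u)).coeff (-((a + n : ℕ) : ℤ)) = 1 := by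
  rw [map_mul, show (-((a + n : ℕ) : ℤ)) = -(a : ℤ) + -(n : ℤ) by push_cast; ring]
  have h := HahnSeries.coeff_mul_order_add_order (c.ι f) (c.ι u)
  rw [HahnSeries.leadingCoeff_eq, HahnSeries.leadingCoeff_eq, c.order_ι, c.order_ι, hford, hu,
    hf, hu1, one_mul] at h
  exact h

open Classical in
/-- The pole orders of the remainders of division by a monic function of pole order `a`. -/
def remOrders (a : ℕ) : Finset ℕ :=
  (c.poleOrders (a + 2 * c.g)).filter fun i => ¬(a ≤ i ∧ c.IsPoleOrder (i - a))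

variable [IsAlgClosed K] [IsCurveOver K F]

theorem isPoleOrder_zero : c.IsPoleOrder 0 :=
  ⟨1, fun v => one_mem _, one_ne_zero, by simp⟩

theorem isPoleOrder_of_le {i : ℕ} (hi : 2 * c.g ≤ i) : c.IsPoleOrder i := by
  rcases Nat.eq_zero_or_pos i with rfl | hpos
  · exact c.isPoleOrder_zero
  by_contra h
  have he : c.poleOrders i = c.poleOrders (i - 1) := by
    ext l
    simp only [mem_poleOrders_iff]
    refine ⟨fun ⟨h1, h2⟩ => ⟨?_, h2⟩, fun ⟨h1, h2⟩ => ⟨by omega, h2⟩⟩
    have : l ≠ i := fun e => h (e ▸ h2)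
    omega
  have h1 := c.card_idx (j := i) (by omega)
  have h2 := c.card_idx (j := i - 1) (by omega)
  rw [Fintype.card_coe] at h1 h2
  rw [he] at h1
  omega

theorem mem_remOrders_iff {a i : ℕ} :
    i ∈ c.remOrders a ↔ c.IsPoleOrder i ∧ ¬(a ≤ i ∧ c.IsPoleOrder (i - a)) := by
  simp only [remOrders, Finset.mem_filter, mem_poleOrders_iff]
  refine ⟨fun h => ⟨h.1.2, h.2⟩, fun h => ⟨⟨?_, h.1⟩, h.2⟩⟩
  by_contra hlt
  exact h.2 ⟨by omega, c.isPoleOrder_of_le (by omega)⟩

theorem card_remOrders {a : ℕ} {f : F} (hf : c.Reg f) (hf0 : f ≠ 0)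
    (hford : c.P0.ord f = -(a : ℤ)) : (c.remOrders a).card = a := by
  classical
  set J := a + 2 * c.g
  have hshift : ∀ i, c.IsPoleOrder i → c.IsPoleOrder (a + i) := by
    rintro i ⟨u, hu, hu0, huord⟩
    exact ⟨f * u, hf.mul hu, mul_ne_zero hf0 hu0,
      by rw [c.P0.ord_mul hf0 hu0, hford, huord]; push_cast; ring⟩
  have hsplit : c.poleOrders J = c.remOrders a ∪ (c.poleOrders (2 * c.g)).image (a + ·) := by
    ext i
    simp only [Finset.mem_union, remOrders, Finset.mem_filter, Finset.mem_image,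
      mem_poleOrders_iff]
    constructor
    · intro h
      by_cases h' : a ≤ i ∧ c.IsPoleOrder (i - a)
      · exact Or.inr ⟨i - a, ⟨by omega, h'.2⟩, by omega⟩
      · exact Or.inl ⟨h, h'⟩
    · rintro (⟨h, -⟩ | ⟨l, ⟨hl, hl'⟩, rfl⟩)
      · exact h
      · exact ⟨by omega, hshift l hl'⟩
  have hdisj : Disjoint (c.remOrders a) ((c.poleOrders (2 * c.g)).image (a + ·)) := by
    rw [Finset.disjoint_left]
    intro i hi hi'
    obtain ⟨l, hl, rfl⟩ := Finset.mem_image.1 hi'
    refine (c.mem_remOrders_iff.1 hi).2 ⟨by omega, ?_⟩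
    rw [Nat.add_sub_cancel_left]
    exact (c.mem_poleOrders_iff.1 hl).2
  have h := congrArg Finset.card hsplit
  rw [Finset.card_union_of_disjoint hdisj,
    Finset.card_image_of_injective _ (add_right_injective a)] at h
  have h1 := c.card_idx (j := J) (by omega)
  have h2 := c.card_idx (j := 2 * c.g) (by omega)
  rw [Fintype.card_coe] at h1 h2
  omega

theorem exists_division {a : ℕ} {f : F} (hf : c.Reg f) (hf0 : f ≠ 0)
    (hford : c.P0.ord f = -(a : ℤ)) (hf1 : (c.ι f).coeff (-(a : ℤ)) = 1) (n : ℕ) :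
    ∀ u : F, c.Reg u → (u ≠ 0 → -(n : ℤ) ≤ c.P0.ord u) →
      ∃ (q : F) (v : ↥(c.remOrders a) → K), c.Reg q ∧ (q ≠ 0 → -(n : ℤ) ≤ c.P0.ord q - a) ∧
        (∀ i : ↥(c.remOrders a), n < (i : ℕ) → v i = 0) ∧
        u = f * q + ∑ i, algebraMap K F (v i) * c.mono (i : ℕ) := by
  induction n using Nat.strong_induction_on with
  | _ n ih =>
  intro u hu hun
  classical
  by_cases hu0 : u = 0
  · exact ⟨0, 0, fun v => zero_mem _, fun h => absurd rfl h, fun _ _ => rfl, by simp [hu0]⟩
  have hneg := c.ord_P0_nonpos hu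
  set m := (-c.P0.ord u).toNat with hm
  have hmn : m ≤ n := by have := hun hu0; omega
  have hordu : c.P0.ord u = -(m : ℤ) := by omega
  have hlc : (c.ι u).coeff (-(m : ℤ)) ≠ 0 := hordu ▸ c.coeff_ord_ne_zero hu0
  set l := (c.ι u).coeff (-(m : ℤ))
  have hpm : c.IsPoleOrder m := ⟨u, hu, hu0, hordu⟩
  -- subtract a leading term `w`
  have hdec : ∀ w : F, c.Reg w → w ≠ 0 → c.P0.ord w = -(m : ℤ) →
      (c.ι w).coeff (-(m : ℤ)) = 1 →
      ∃ (q : F) (v : ↥(c.remOrders a) → K), c.Reg q ∧ (q ≠ 0 → -(n : ℤ) ≤ c.P0.ord q - a) ∧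
        (∀ i : ↥(c.remOrders a), n < (i : ℕ) → v i = 0) ∧
        u - algebraMap K F l * w = f * q + ∑ i, algebraMap K F (v i) * c.mono (i : ℕ) := by
    intro w hw hw0 hword hw1
    set u' := u - algebraMap K F l * w with hu'
    have hreg : c.Reg u' := fun v => sub_mem (hu v) (mul_mem (v.1.algebraMap_mem' _) (hw v))
    have hcoef : (c.ι u').coeff (-(m : ℤ)) = 0 := by
      rw [hu', map_sub, map_mul, c.ι.commutes, HahnSeries.algebraMap_apply']
      simp [hw1, l]
    have hlt : u' ≠ 0 → -(m : ℤ) < c.P0.ord u' := by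
      intro h
      have hl0 : algebraMap K F l ≠ 0 := by simpa using hlc
      have hle : -(m : ℤ) ≤ c.P0.ord u' := by
        rw [hu', sub_eq_add_neg] at h ⊢
        refine le_ord_add _ _ h (fun _ => by rw [hordu]) fun _ => ?_
        rw [ord_neg, c.P0.ord_mul hl0 hw0, ord_algebraMap, hword, zero_add]
      refine lt_of_le_of_ne hle fun he => c.coeff_ord_ne_zero h ?_
      rw [← he, hcoef]
    by_cases h' : u' = 0
    · exact ⟨0, 0, fun v => zero_mem _, fun h => absurd rfl h, fun _ _ => rfl, by simp [h']⟩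
    have hm' := hlt h'
    have hneg' := c.ord_P0_nonpos hreg
    obtain ⟨q, v, hq, hqn, hv, he⟩ := ih (-c.P0.ord u').toNat (by omega) u' hreg (fun _ => by omega)
    exact ⟨q, v, hq, fun h => by have := hqn h; omega, fun i hi => hv i (by omega), he⟩
  by_cases hC : m ∈ c.remOrders a
  · obtain ⟨h1, h2, h3⟩ := c.mono_spec hpm
    obtain ⟨q, v, hq, hqn, hv, he⟩ := hdec (c.mono m) (c.reg_mono m) h1 h2 h3
    refine ⟨q, v + Pi.single ⟨m, hC⟩ l, hq, hqn, fun i hi => ?_, ?_⟩
    · rw [Pi.add_apply, hv i hi, zero_add,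
        Pi.single_eq_of_ne (fun e => by rw [e] at hi; simp only at hi; omega)]
    · simp only [Pi.add_apply, map_add, add_mul, Finset.sum_add_distrib]
      rw [Fintype.sum_eq_single ⟨m, hC⟩ (f := fun i => algebraMap K F ((Pi.single ⟨m, hC⟩ l :
        ↥(c.remOrders a) → K) i) * c.mono (i : ℕ)) (fun i hi => by rw [Pi.single_eq_of_ne hi]; simp)]
      rw [Pi.single_eq_same]
      linear_combination he
  · rw [c.mem_remOrders_iff] at hC
    obtain ⟨ham, hma⟩ : a ≤ m ∧ c.IsPoleOrder (m - a) := by tauto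
    obtain ⟨h1, h2, h3⟩ := c.mono_spec hma
    have hmm : a + (m - a) = m := by omega
    obtain ⟨q, v, hq, hqn, hv, he⟩ := hdec (f * c.mono (m - a)) (hf.mul (c.reg_mono _))
      (mul_ne_zero hf0 h1) (by rw [c.P0.ord_mul hf0 h1, hford, h2]; omega)
      (by have := c.coeff_mul_monic hford hf1 h2 h3; rwa [hmm] at this)
    refine ⟨q + algebraMap K F l * c.mono (m - a), v,
      fun w => add_mem (hq w) (mul_mem (w.1.algebraMap_mem' _) (c.reg_mono _ w)), fun h => ?_,
      hv, by linear_combination he⟩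
    have hl0 : algebraMap K F l ≠ 0 := by simpa using hlc
    have := le_ord_add c.P0 ((a : ℤ) - n) h (fun h' => by have := hqn h'; omega) (fun _ => by
      rw [c.P0.ord_mul hl0 h1, ord_algebraMap, h2]; omega)
    omega

/-- A combination of remainder functions has pole order among `remOrders`. -/
theorem exists_ord_remainder {a : ℕ} (v : ↥(c.remOrders a) → K) (hv : v ≠ 0) :
    ∃ i : ↥(c.remOrders a), (∑ l, algebraMap K F (v l) * c.mono (l : ℕ)) ≠ 0 ∧
      c.P0.ord (∑ l, algebraMap K F (v l) * c.mono (l : ℕ)) = -((i : ℕ) : ℤ) := by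
  classical
  obtain ⟨i₀, hi₀⟩ := Function.ne_iff.1 hv
  obtain ⟨i, hi, hmax⟩ := Finset.exists_max_image
    (Finset.univ.filter fun i => v i ≠ 0) (fun i : ↥(c.remOrders a) => (i : ℕ))
    ⟨i₀, by simpa using hi₀⟩
  simp only [Finset.mem_filter, Finset.mem_univ, true_and] at hi hmax
  set S := ∑ l, algebraMap K F (v l) * c.mono (l : ℕ)
  have hspec : ∀ l : ↥(c.remOrders a), c.mono (l : ℕ) ≠ 0 ∧
      c.P0.ord (c.mono (l : ℕ)) = -((l : ℕ) : ℤ) ∧
      (c.ι (c.mono (l : ℕ))).coeff (-((l : ℕ) : ℤ)) = 1 :=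
    fun l => c.mono_spec (c.mem_remOrders_iff.1 l.2).1
  have hcoef : (c.ι S).coeff (-((i : ℕ) : ℤ)) = v i := by
    simp only [S, map_sum, map_mul, c.ι.commutes, HahnSeries.algebraMap_apply',
      HahnSeries.coeff_sum]
    rw [Finset.sum_eq_single i]
    · simp [(hspec i).2.2]
    · intro l _ hl
      rcases eq_or_ne (v l) 0 with h | h
      · simp [h]
      · have hzero : (c.ι (c.mono (l : ℕ))).coeff (-((i : ℕ) : ℤ)) = 0 := by
          refine c.coeff_eq_zero_of_lt ?_
          rw [(hspec l).2.1]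
          have h1 := hmax l h
          have h2 : (l : ℕ) ≠ (i : ℕ) := fun e => hl (Subtype.ext e)
          omega
        simp [hzero]
    · simp
  have hS : S ≠ 0 := fun h => hi (by rw [← hcoef, h]; simp)
  refine ⟨i, hS, le_antisymm (not_lt.1 fun hlt => hi ?_) ?_⟩
  · rw [← hcoef]; exact c.coeff_eq_zero_of_lt hlt
  · refine le_ord_sum _ _ _ _ (fun l _ hl => ?_) hS
    obtain ⟨h1, h2⟩ := mul_ne_zero_iff.1 hl
    rw [c.P0.ord_mul h1 h2, ord_algebraMap, (hspec l).2.1]
    have hl' : v l ≠ 0 := fun h => h1 (by rw [h, map_zero])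
    have := hmax l hl'
    omega

namespace Rep

variable {c} {k : ℕ}

theorem f_ne_zero (R : c.Rep k) : R.f ≠ 0 := fun h => by simpa [h] using R.monic

theorem ord_f (R : c.Rep k) : c.P0.ord R.f = -((2 * k : ℕ) : ℤ) := by
  push_cast
  refine le_antisymm (not_lt.1 fun hlt => ?_) ?_
  · exact one_ne_zero (R.monic.symm.trans (c.coeff_eq_zero_of_lt hlt))
  · exact_mod_cast (c.mem_W_iff.1 R.mem R.f_ne_zero).2

/-- The resultant of monic representations is symmetric. -/
theorem res_symm (P R : c.Rep k) : R.res P = P.res R := by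
  classical
  set C := c.remOrders (2 * k)
  have hcard : Fintype.card (Fin k ⊕ Fin k) = Fintype.card C := by
    rw [Fintype.card_coe, c.card_remOrders (c.reg_of_mem_W R.mem) R.f_ne_zero R.ord_f,
      Fintype.card_sum, Fintype.card_fin]
    ring
  let e : C ≃ Fin k ⊕ Fin k := (Fintype.equivOfCardEq hcard).symm
  let M : c.Rep k → Matrix C C K := fun S =>
    Matrix.of fun z i => c.ev (S.P (e z)) (c.mono (i : ℕ))
  let D : c.Rep k → c.Rep k → Matrix C C K := fun S T =>
    Matrix.diagonal fun z => c.ev (S.P (e z)) T.f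
  have hD : ∀ S T : c.Rep k, (D S T).det = T.res S := fun S T => by
    rw [Matrix.det_diagonal, Rep.res]
    exact e.prod_comp fun i => c.ev (S.P i) T.f
  have hzero : ∀ (S : c.Rep k) i, c.ev (S.P i) S.f = 0 := fun S i =>
    (c.ev_eq_zero_iff _ (c.reg_of_mem_W S.mem _) S.f_ne_zero).2 (by rw [S.ord_P]; exact one_pos)
  -- the remainder systems are nondegenerate
  have hM : ∀ S : c.Rep k, (M S).det ≠ 0 := by
    intro S hdet
    obtain ⟨v, hv0, hv⟩ := Matrix.exists_mulVec_eq_zero_iff.2 hdet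
    obtain ⟨i, hs0, hsord⟩ := c.exists_ord_remainder v hv0
    set s := ∑ l, algebraMap K F (v l) * c.mono (l : ℕ) with hs
    have hsreg : c.Reg s := fun w =>
      sum_mem fun l _ => mul_mem (w.1.algebraMap_mem' _) (c.reg_mono _ w)
    have hsz : ∀ z, c.ev (S.P z) s = 0 := by
      intro z
      rw [hs, c.ev_sum _ _ fun l _ => mul_mem (Place.algebraMap_mem' _ _) (c.reg_mono _ _)]
      have := congrFun hv (e.symm z)
      simp only [Matrix.mulVec, dotProduct, M, Matrix.of_apply, Equiv.apply_symm_apply,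
        Pi.zero_apply] at this
      rw [← this]
      refine Finset.sum_congr rfl fun l _ => ?_
      rw [c.ev_mul _ (Place.algebraMap_mem' _ _) (c.reg_mono _ _), ev_algebraMap, mul_comm]
    have hq : c.Reg (s / S.f) := by
      intro w
      refine mem_of_ord_nonneg _ ?_
      rw [ord_div _ hs0 S.f_ne_zero]
      have h1 := ord_nonneg_of_mem _ (hsreg w)
      by_cases hw : ∀ z, S.P z ≠ w
      · rw [S.ord_other w hw]; omega
      · push Not at hw
        obtain ⟨z, rfl⟩ := hw
        rw [S.ord_P]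
        have := (c.ev_eq_zero_iff _ (hsreg _) hs0).1 (hsz z)
        omega
    have hqord : c.P0.ord (s / S.f) = -((i : ℕ) : ℤ) + ((2 * k : ℕ) : ℤ) := by
      rw [ord_div _ hs0 S.f_ne_zero, hsord, S.ord_f]; ring
    have hle := c.ord_P0_nonpos hq
    exact (c.mem_remOrders_iff.1 i.2).2 ⟨by omega,
      ⟨_, hq, div_ne_zero hs0 S.f_ne_zero, by rw [hqord]; omega⟩⟩
  -- `g b = f (b + q) + r` with `q` of smaller order, and `q = g q' + r'`
  have hdiv : ∀ j : C, ∃ (α β : C → K) (w : F), c.Reg w ∧ β j = 1 ∧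
      (∀ i : C, (j : ℕ) < (i : ℕ) → β i = 0) ∧
      P.f * c.mono (j : ℕ) = (∑ i, algebraMap K F (α i) * c.mono (i : ℕ)) +
        R.f * (∑ i, algebraMap K F (β i) * c.mono (i : ℕ)) + R.f * P.f * w := by
    intro j
    obtain ⟨hb0, hbord, hb1⟩ := c.mono_spec (c.mem_remOrders_iff.1 j.2).1
    set u := (P.f - R.f) * c.mono (j : ℕ) with hu
    have hureg : c.Reg u := fun v =>
      mul_mem (sub_mem (c.reg_of_mem_W P.mem v) (c.reg_of_mem_W R.mem v)) (c.reg_mono _ v)
    have hlt : ∀ h : u ≠ 0, -((2 * k + (j : ℕ) : ℕ) : ℤ) < c.P0.ord u := by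
      intro h
      obtain ⟨hd, -⟩ := mul_ne_zero_iff.1 h
      rw [hu, c.P0.ord_mul hd hb0, hbord]
      have hle : -((2 * k : ℕ) : ℤ) ≤ c.P0.ord (P.f - R.f) := by
        rw [sub_eq_add_neg] at hd ⊢
        exact le_ord_add _ _ hd (fun _ => by rw [P.ord_f])
          (fun _ => by rw [ord_neg, R.ord_f])
      have hne : c.P0.ord (P.f - R.f) ≠ -((2 * k : ℕ) : ℤ) := fun he => c.coeff_ord_ne_zero hd (by
        rw [he]
        push_cast
        rw [map_sub, HahnSeries.coeff_sub, P.monic, R.monic, sub_self])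
      omega
    obtain ⟨q, α, hq, hqn, -, he⟩ := c.exists_division (c.reg_of_mem_W R.mem) R.f_ne_zero R.ord_f
      (by push_cast; exact R.monic) (2 * k + (j : ℕ)) u hureg (fun h => (hlt h).le)
    have hqlt : q ≠ 0 → -((j : ℕ) : ℤ) < c.P0.ord q := by
      intro h
      have hle : -((j : ℕ) : ℤ) ≤ c.P0.ord q := by have := hqn h; push_cast at this; omega
      refine lt_of_le_of_ne hle fun hjq => ?_
      -- then `f q` is the leading term of `u`
      have hfq : c.P0.ord (R.f * q) = -((2 * k + (j : ℕ) : ℕ) : ℤ) := by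
        rw [c.P0.ord_mul R.f_ne_zero h, R.ord_f, ← hjq]; push_cast; ring
      rcases eq_or_ne α 0 with hα | hα
      · simp only [hα, Pi.zero_apply, map_zero, zero_mul, Finset.sum_const_zero, add_zero] at he
        have := hlt (by rw [he]; exact mul_ne_zero R.f_ne_zero h)
        rw [he, hfq] at this
        omega
      · obtain ⟨i, hs0, hsord⟩ := c.exists_ord_remainder α hα
        set s := ∑ l, algebraMap K F (α l) * c.mono (l : ℕ)
        have hne : (i : ℕ) ≠ 2 * k + (j : ℕ) := fun hij => (c.mem_remOrders_iff.1 i.2).2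
          ⟨by omega, by rw [hij, Nat.add_sub_cancel_left]; exact (c.mem_remOrders_iff.1 j.2).1⟩
        have hsum : u ≠ 0 ∧ c.P0.ord u ≤ -((2 * k + (j : ℕ) : ℕ) : ℤ) := by
          rcases lt_or_gt_of_ne hne with hij | hij
          · have h1 : c.P0.ord u = c.P0.ord (R.f * q) := by
              rw [he]
              exact ord_add_eq_left _ (mul_ne_zero R.f_ne_zero h) fun _ => by
                rw [hfq, hsord]; omega
            exact ⟨fun h0 => by rw [h0, Place.ord_zero, hfq] at h1; omega, by rw [h1, hfq]⟩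
          · have h1 : c.P0.ord u = c.P0.ord s := by
              rw [he, add_comm]
              exact ord_add_eq_left _ hs0 fun _ => by rw [hfq, hsord]; omega
            exact ⟨fun h0 => by rw [h0, Place.ord_zero, hsord] at h1; omega,
              by rw [h1, hsord]; omega⟩
        have := hlt hsum.1
        omega
    obtain ⟨w, β, hw, -, hβ, he'⟩ : ∃ (w : F) (β : C → K), c.Reg w ∧ True ∧
        (∀ i : C, (j : ℕ) ≤ (i : ℕ) → β i = 0) ∧
        q = P.f * w + ∑ i, algebraMap K F (β i) * c.mono (i : ℕ) := by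
      rcases eq_or_ne q 0 with rfl | hq0
      · exact ⟨0, 0, fun v => zero_mem _, trivial, fun _ _ => rfl, by simp⟩
      have h1 := hqlt hq0
      have h2 := c.ord_P0_nonpos hq
      obtain ⟨w, β, hw, -, hβ, he'⟩ := c.exists_division (c.reg_of_mem_W P.mem) P.f_ne_zero P.ord_f
        (by push_cast; exact P.monic) ((j : ℕ) - 1) q hq (fun _ => by omega)
      exact ⟨w, β, hw, trivial, fun i hi => hβ i (by omega), he'⟩
    refine ⟨α, β + Pi.single j 1, w, hw, ?_, fun i hi => ?_, ?_⟩
    · simp [hβ j le_rfl]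
    · rw [Pi.add_apply, hβ i hi.le, zero_add,
        Pi.single_eq_of_ne (fun e => by rw [e] at hi; omega)]
    · have hs : ∑ i, algebraMap K F ((β + Pi.single j 1 : C → K) i) * c.mono (i : ℕ) =
          (∑ i, algebraMap K F (β i) * c.mono (i : ℕ)) + c.mono (j : ℕ) := by
        simp only [Pi.add_apply, map_add, add_mul, Finset.sum_add_distrib]
        congr 1
        rw [Fintype.sum_eq_single j (fun i hi => by rw [Pi.single_eq_of_ne hi]; simp),
          Pi.single_eq_same, map_one, one_mul]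
      rw [hs]
      rw [hu, he'] at he
      linear_combination he
  choose α β w hw hβ1 hβ hid using hdiv
  let α' : Matrix C C K := Matrix.of fun i j => α j i
  let β' : Matrix C C K := Matrix.of fun i j => β j i
  have hβdet : β'.det = 1 := by
    rw [Matrix.det_of_isUpperTriangular]
    · exact Finset.prod_eq_one fun i _ => hβ1 i
    · intro i j hij
      exact hβ j i hij
  have hrow : ∀ (S : c.Rep k), (∀ z, c.ev (S.P z) (R.f * P.f) = 0) →
      D S P * M S = M S * α' + D S R * M S * β' := by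
    intro S hS
    ext z j
    have h := congrArg (c.ev (S.P (e z))) (hid j)
    have hRm := c.reg_of_mem_W R.mem (S.P (e z))
    have hPm := c.reg_of_mem_W P.mem (S.P (e z))
    have hmem : ∀ v : C → K, (∑ i, algebraMap K F (v i) * c.mono (i : ℕ)) ∈
        (S.P (e z)).1.toValuationSubring :=
      fun v => sum_mem fun i _ => mul_mem (Place.algebraMap_mem' _ _) (c.reg_mono _ _)
    have hev : ∀ v : C → K, c.ev (S.P (e z)) (∑ i, algebraMap K F (v i) * c.mono (i : ℕ)) =
        ∑ i, v i * c.ev (S.P (e z)) (c.mono (i : ℕ)) := by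
      intro v
      rw [c.ev_sum _ _ fun i _ => mul_mem (Place.algebraMap_mem' _ _) (c.reg_mono _ _)]
      exact Finset.sum_congr rfl fun i _ => by
        rw [c.ev_mul _ (Place.algebraMap_mem' _ _) (c.reg_mono _ _), ev_algebraMap]
    rw [c.ev_mul _ hPm (c.reg_mono _ _), c.ev_add _ (add_mem (hmem _) (mul_mem hRm (hmem _)))
      (mul_mem (mul_mem hRm hPm) (hw j _)), c.ev_add _ (hmem _) (mul_mem hRm (hmem _)),
      c.ev_mul _ hRm (hmem _), c.ev_mul _ (mul_mem hRm hPm) (hw j _), hS, zero_mul, add_zero,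
      hev, hev] at h
    simp only [D, M, Matrix.add_apply, Matrix.mul_assoc, Matrix.diagonal_mul]
    simp only [α', β', Matrix.mul_apply, Matrix.of_apply]
    rw [h]
    congr 1
    · exact Finset.sum_congr rfl fun i _ => mul_comm _ _
    · rw [Finset.mul_sum, Finset.mul_sum]
      exact Finset.sum_congr rfl fun i _ => by ring
  have hR := hrow R fun z => by
    rw [c.ev_mul _ (c.reg_of_mem_W R.mem _) (c.reg_of_mem_W P.mem _), hzero, zero_mul]
  have hP := hrow P fun z => by
    rw [c.ev_mul _ (c.reg_of_mem_W R.mem _) (c.reg_of_mem_W P.mem _), hzero P, mul_zero]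
  have hRR : D R R = 0 := Matrix.ext fun i j => by
    show Matrix.diagonal _ i j = (0 : K)
    rw [Matrix.diagonal_apply]; split_ifs <;> simp [hzero]
  have hPP : D P P = 0 := Matrix.ext fun i j => by
    show Matrix.diagonal _ i j = (0 : K)
    rw [Matrix.diagonal_apply]; split_ifs <;> simp [hzero]
  rw [hRR, Matrix.zero_mul, Matrix.zero_mul, add_zero] at hR
  rw [hPP, Matrix.zero_mul] at hP
  -- `[[D R P * M R, M R], [0, M P]] = [[M R, 0], [M P, D P R * M P]] * [[α', 1], [β', 0]]`
  have hblock : Matrix.fromBlocks (D R P * M R) (M R) 0 (M P) =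
      Matrix.fromBlocks (M R) 0 (M P) (D P R * M P) * Matrix.fromBlocks α' 1 β' 0 := by
    simp [Matrix.fromBlocks_multiply, ← hR, ← hP]
  have heven : Even C.card := by
    rw [← Fintype.card_coe C, ← hcard]
    simp
  have hswap : (Matrix.fromBlocks α' (1 : Matrix C C K) β' 0).det = 1 := by
    have h : Matrix.fromBlocks α' (1 : Matrix C C K) β' 0 =
        Matrix.fromBlocks 1 1 0 1 * Matrix.fromBlocks 1 0 (-1) 1 * Matrix.fromBlocks 1 1 0 1 *
          Matrix.fromBlocks (-1) 0 0 1 * Matrix.fromBlocks β' 0 α' 1 := by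
      simp [Matrix.fromBlocks_multiply]
    rw [h]
    simp [Matrix.det_mul, hβdet, Matrix.det_neg, heven.neg_one_pow]
  have hdet := congrArg Matrix.det hblock
  rw [Matrix.det_mul, hswap, mul_one, Matrix.det_fromBlocks_zero₂₁, Matrix.det_fromBlocks_zero₁₂,
    Matrix.det_mul, Matrix.det_mul, hD, hD] at hdet
  refine mul_right_cancel₀ (mul_ne_zero (hM R) (hM P)) ?_
  linear_combination -hdet

end Rep

theorem exists_res_symm (k : ℕ) :
    ∃ ε : K, ε ≠ 0 ∧ ∀ P R : c.Rep k, R.Disjoint P → R.res P = ε * P.res R :=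
  ⟨1, one_ne_zero, fun P R _ => by rw [one_mul, Rep.res_symm]⟩

end Marked

end Fermat.Agent.MW.Kummer

end
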