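/-
Existence of representations of classes by functions with simple zeros in general position.
-/
import Fermat.Agent.MW.HeightBase
import Fermat.Agent.MW.Height2Generic

set_option autoImplicit false

noncomputable section

namespace Fermat.Agent.MW.Kummer

open AlgebraicCurve Fermat.Agent.Curve

variable {K F : Type*} [Field K] [Field F] [Algebra K F]

namespace Marked

variable (c : Marked K F) [IsAlgClosed K] [CharZero K] [IsCurveOver K F] [IsFunctionFieldOne K F]

/-- Every class has a representation avoiding a given finite set of places. -/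
theorem exists_rep {k : ℕ} (hk : 2 * c.g + 2 ≤ k) (x : Pic0 K F) (avoid : Finset (Place K F)) :
    ∃ R : c.Rep k, R.cls = x ∧ ∀ i, (R.P i).1 ∉ avoid := by
  classical
  obtain ⟨⟨D, hD⟩, rfl⟩ := Pic0.mk_surjective x
  rw [Divisor.mem_degZero] at hD
  obtain ⟨s, P, ⟨hs0, hPinj, hP1, hP0⟩, -, hPav⟩ := exists_reduced_section c.g c.finrank_L
    (c.mP k - D) (k := k) (by omega) (by rw [map_sub, hD, c.degree_mP, sub_zero])
    (insert c.P0 avoid)
  obtain ⟨t, Q, ⟨ht0, hQinj, hQ1, hQ0⟩, -, hQav⟩ := exists_reduced_section c.g c.finrank_L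
    (c.mP k + D) (k := k) (by omega) (by rw [map_add, hD, c.degree_mP, add_zero])
    (insert c.P0 avoid ∪ Finset.univ.image P)
  simp only [Finset.mem_insert, not_or] at hPav
  simp only [Finset.mem_union, Finset.mem_insert, Finset.mem_image, Finset.mem_univ, true_and,
    not_or, not_exists] at hQav
  have hf0 : s * t ≠ 0 := mul_ne_zero hs0 ht0
  have hord : ∀ v : Place K F, v.ord (s * t) =
      (v.ord s + (c.mP k - D) v) + (v.ord t + (c.mP k + D) v) - 2 * c.mP k v := fun v => by
    rw [v.ord_mul hs0 ht0, Finsupp.sub_apply, Finsupp.add_apply]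
    ring
  let R : Fin k ⊕ Fin k → c.Pt :=
    Sum.elim (fun i => ⟨P i, (hPav i).1⟩) fun i => ⟨Q i, (hQav i).1.1⟩
  have hR1 : ∀ i, (R i).1.ord (s * t) = 1 := by
    rintro (i | i)
    · show (P i).ord (s * t) = 1
      rw [hord, hP1, hQ0 (P i) (fun j h => (hQav j).2 i h.symm), c.mP_pt _ ⟨P i, (hPav i).1⟩]
      ring
    · show (Q i).ord (s * t) = 1
      rw [hord, hQ1, hP0 (Q i) (fun j h => (hQav i).2 j h), c.mP_pt _ ⟨Q i, (hQav i).1.1⟩]
      ring
  have hRo : ∀ v : c.Pt, (∀ i, R i ≠ v) → v.1.ord (s * t) = 0 := by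
    intro v hv
    rw [hord, hP0 v.1 (fun j h => hv (Sum.inl j) (Subtype.ext h)),
      hQ0 v.1 (fun j h => hv (Sum.inr j) (Subtype.ext h)), c.mP_pt]
    ring
  have hP0' : c.P0.ord (s * t) = -(2 * k : ℤ) := by
    rw [hord, hP0 c.P0 (fun j h => (hPav j).1 h), hQ0 c.P0 (fun j h => (hQav j).1.1 h), c.mP_self]
    ring
  set a := (c.ι (s * t)).coeff (c.P0.ord (s * t)) with ha
  have ha0 : a ≠ 0 := c.coeff_ord_ne_zero hf0
  set f := algebraMap K F a⁻¹ * (s * t) with hf
  have hff : f ≠ 0 := mul_ne_zero (by simpa using ha0) hf0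
  have hordf : ∀ v : Place K F, v.ord f = v.ord (s * t) := fun v => by
    rw [hf, v.ord_mul (by simpa using ha0) hf0, ord_algebraMap, zero_add]
  refine ⟨{ f := f, mem := ?_, monic := ?_, P := R, inj := ?_,
            ord_P := fun i => (hordf _).trans (hR1 i),
            ord_other := fun v hv => (hordf _).trans (hRo v hv) }, ?_, ?_⟩
  · refine c.mem_W_iff.2 fun _ => ⟨fun v => ?_, by rw [hordf, hP0']; push_cast; exact le_rfl⟩
    rw [hordf]
    by_cases hv : ∀ i, R i ≠ v
    · rw [hRo v hv]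
    · push Not at hv
      obtain ⟨i, rfl⟩ := hv
      rw [hR1]; exact zero_le_one
  · have hC : (c.ι f).coeff (c.P0.ord (s * t)) = a⁻¹ * a := by
      rw [hf, map_mul, c.ι.commutes, HahnSeries.algebraMap_apply', ha]
      simp
    rw [← hP0', hC, inv_mul_cancel₀ ha0]
  · rintro (i | i) (j | j) h <;>
      simp only [R, Sum.elim_inl, Sum.elim_inr, Subtype.mk.injEq] at h
    · rw [hPinj h]
    · exact absurd h.symm (fun h' => (hQav j).2 i h'.symm)
    · exact absurd h (fun h' => (hQav i).2 j h'.symm)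
    · rw [hQinj h]
  · refine (QuotientAddGroup.eq_iff_sub_mem.2 ?_)
    rw [AddSubgroup.mem_addSubgroupOf]
    refine ⟨s⁻¹, inv_ne_zero hs0, fun v => ?_⟩
    show (c.mP k - ∑ i : Fin k, Finsupp.single (P i) 1 - D : Divisor K F) v = _
    have hsum : (∑ i : Fin k, Finsupp.single (P i) (1 : ℤ) : Divisor K F) v =
        v.ord s + (c.mP k - D) v := by
      rw [Finsupp.finsetSum_apply]
      by_cases hv : ∀ i, P i ≠ v
      · rw [hP0 v hv]
        exact Finset.sum_eq_zero fun i _ => Finsupp.single_eq_of_ne (Ne.symm (hv i))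
      · push Not at hv
        obtain ⟨i, rfl⟩ := hv
        rw [hP1, Finset.sum_eq_single i (fun j _ hj => Finsupp.single_eq_of_ne
          (fun h => hj (hPinj h).symm)) (fun h => absurd (Finset.mem_univ i) h),
          Finsupp.single_eq_same]
    rw [Finsupp.sub_apply, Finsupp.sub_apply, hsum, v.ord_inv, Finsupp.sub_apply]
    ring
  · rintro (i | i)
    · exact (hPav i).2
    · exact (hQav i).1.2

end Marked

end Fermat.Agent.MW.Kummer

end
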