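/-
Heights on the degree zero class group, part 4: the addition identity.

For representations `P` of `x` and `R` of `y`, the product of the four determinants
`Δ(Q,P,R) Δ(Q,P',R') Δ(Q,P',R) Δ(Q,P,R')` computes, on the one hand, the product of the Kummer
coordinates of `x + y` and `x - y`, and on the other hand a quadratic expression in the
coordinates of `x` (or of `y`) at the level `d + k`. Hence the former product is bilinear in the
squares of the latter coordinates.
-/
import Fermat.Agent.MW.HeightTheta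
import Mathlib.Logic.Equiv.Sum

set_option autoImplicit false
set_option linter.style.haveILetI false
set_option linter.unusedSectionVars false

noncomputable section

open AlgebraicCurve Fermat.Agent.Curve

namespace Fermat.Agent.MW.Kummer.Marked

variable {K F : Type*} [Field K] [Field F] [Algebra K F] [IsAlgClosed K] [IsCurveOver K F]
variable (c : Marked K F)

section MulVec

variable {ι : Type*} [Fintype ι] [DecidableEq ι]

/-- The coefficient vector of a product of two functions on tuples. -/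
def mulVec (j : ℕ) (a b : (ι → c.Idx j) → K) : (ι → c.Idx (j + j)) → K := fun L =>
  ∑ I : ι → c.Idx j, ∑ J : ι → c.Idx j,
    a I * b J * ∏ i, c.cd (j + j) (c.e j (I i) * c.e j (J i)) (L i)

theorem evT_mulVec (j : ℕ) (a b : (ι → c.Idx j) → K) (Q : ι → c.Pt) :
    c.evT (j + j) (c.mulVec j a b) Q = c.evT j a Q * c.evT j b Q := by
  have he : c.mulVec j a b = ∑ I, ∑ J, (a I * b J) •
      fun L : ι → c.Idx (j + j) => ∏ i, c.cd (j + j) (c.e j (I i) * c.e j (J i)) (L i) := by
    ext L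
    simp [mulVec, Finset.sum_apply]
  rw [he, map_sum, Finset.sum_apply, evT_apply c j a, evT_apply c j b, Finset.sum_mul_sum]
  refine Finset.sum_congr rfl fun I _ => ?_
  rw [map_sum, Finset.sum_apply]
  refine Finset.sum_congr rfl fun J _ => ?_
  rw [map_smul, Pi.smul_apply,
    c.evT_prodCoord _ (fun i => c.mul_mem_W (c.e_mem j (I i)) (c.e_mem j (J i))), smul_eq_mul,
    mul_mul_mul_comm, ← Finset.prod_mul_distrib]
  congr 1
  exact Finset.prod_congr rfl fun i _ =>
    c.ev_mul _ (c.reg_of_mem_W (c.e_mem j _) _) (c.reg_of_mem_W (c.e_mem j _) _)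

theorem mulVec_ne_zero {j : ℕ} {a b : (ι → c.Idx j) → K} (ha : a ≠ 0) (hb : b ≠ 0) :
    c.mulVec j a b ≠ 0 := by
  intro h
  rcases (c.sliceReg_evT j a).eq_zero_or_eq_zero (c.sliceReg_evT j b) ∅ (fun Q _ => by
    rw [← c.evT_mulVec, h, map_zero, Pi.zero_apply]) with h0 | h0
  · exact ha (c.evT_injective j (h0.trans (map_zero _).symm))
  · exact hb (c.evT_injective j (h0.trans (map_zero _).symm))

end MulVec

namespace Rep

variable {c} {k : ℕ}

theorem func_ne_zero (R : c.Rep k) : R.f ≠ 0 := fun h => by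
  have := R.monic
  simp [h] at this

theorem ord_P0_eq (R : c.Rep k) : c.P0.ord R.f = -(2 * k : ℤ) := by
  have h1 := (c.mem_W_iff.1 R.mem R.func_ne_zero).2
  rcases (show -((2 * k : ℕ) : ℤ) ≤ c.P0.ord R.f from h1).lt_or_eq with h | h
  · have := R.monic
    rw [c.coeff_eq_zero_of_lt (by push_cast at h; omega)] at this
    exact absurd this zero_ne_one
  · push_cast at h
    omega

/-- Exchange the two halves of the zeros. -/
def swap (R : c.Rep k) : c.Rep k where
  f := R.f
  mem := R.mem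
  monic := R.monic
  P := R.P ∘ Sum.swap
  inj := R.inj.comp (Equiv.sumComm _ _).injective
  ord_P := fun i => R.ord_P _
  ord_other := fun v hv => R.ord_other v fun i => by
    simpa using hv i.swap

theorem divisorOf_f (R : c.Rep k) (v : Place K F) :
    (∑ i : Fin k, Finsupp.single (R.P (Sum.inl i)).1 (1 : ℤ) +
      ∑ i : Fin k, Finsupp.single (R.P (Sum.inr i)).1 (1 : ℤ) - c.mP (2 * k)) v = v.ord R.f := by
  classical
  have hsum : ∑ i : Fin k, Finsupp.single (R.P (Sum.inl i)).1 (1 : ℤ) +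
      ∑ i : Fin k, Finsupp.single (R.P (Sum.inr i)).1 (1 : ℤ) =
      ∑ i : Fin k ⊕ Fin k, Finsupp.single (R.P i).1 (1 : ℤ) :=
    (Fintype.sum_sum_type fun i => Finsupp.single (R.P i).1 (1 : ℤ)).symm
  rw [hsum, Finsupp.sub_apply, Finsupp.finsetSum_apply]
  by_cases hv : v = c.P0
  · subst hv
    rw [mP_self, R.ord_P0_eq, Finset.sum_eq_zero fun i _ =>
      Finsupp.single_eq_of_ne' (R.P i).2, zero_sub]
  · rw [c.mP_pt _ ⟨v, hv⟩, sub_zero]
    by_cases hex : ∃ i, (R.P i).1 = v
    · obtain ⟨i, rfl⟩ := hex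
      rw [Finset.sum_eq_single i, Finsupp.single_eq_same, R.ord_P]
      · exact fun l _ hl => Finsupp.single_eq_of_ne' fun h => hl (R.inj (Subtype.ext h))
      · simp
    · push Not at hex
      rw [Finset.sum_eq_zero fun i _ => Finsupp.single_eq_of_ne' (hex i)]
      exact (R.ord_other ⟨v, hv⟩ fun i h => hex i (congrArg Subtype.val h)).symm

theorem cls_swap (R : c.Rep k) : R.swap.cls = -R.cls := by
  refine eq_neg_of_add_eq_zero_left ?_
  show Pic0.mk _ + Pic0.mk _ = 0
  rw [← Pic0.mk_add]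
  refine (QuotientAddGroup.eq_zero_iff _).2 ?_
  rw [AddSubgroup.mem_addSubgroupOf]
  refine ⟨R.f⁻¹, inv_ne_zero R.func_ne_zero, fun v => ?_⟩
  rw [v.ord_inv, ← R.divisorOf_f v, ← Finsupp.neg_apply]
  congr 1
  show R.swap.divisor + R.divisor = _
  simp only [Rep.divisor, Rep.swap, Function.comp_apply, Sum.swap_inl]
  rw [two_mul, mP_add]
  abel

/-- The points of a representation, as a finite set of places. -/
def places (R : c.Rep k) : Finset (Place K F) :=
  open Classical in Finset.univ.image fun i => (R.P i).1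

theorem mem_places (R : c.Rep k) (i : Fin k ⊕ Fin k) : (R.P i).1 ∈ R.places := by
  classical
  exact Finset.mem_image_of_mem _ (Finset.mem_univ i)

theorem disjoint_of_places {P R : c.Rep k} (h : ∀ i, (P.P i).1 ∉ R.places) : R.Disjoint P :=
  fun i l hil => h l (hil ▸ R.mem_places i)

theorem Disjoint.symm {P R : c.Rep k} (h : R.Disjoint P) : P.Disjoint R :=
  fun i l hil => h l i hil.symm

theorem ev_ne_zero_of_disjoint {P R : c.Rep k} (h : R.Disjoint P) (i : Fin k ⊕ Fin k) :
    c.ev (P.P i) R.f ≠ 0 := by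
  intro h0
  have := (c.ev_eq_zero_iff (P.P i) (c.reg_of_mem_W R.mem _) R.func_ne_zero).1 h0
  rw [R.ord_other _ fun l => h l i] at this
  exact lt_irrefl _ this

theorem res_ne_zero {P R : c.Rep k} (h : R.Disjoint P) : R.res P ≠ 0 :=
  Finset.prod_ne_zero_iff.2 fun i _ => ev_ne_zero_of_disjoint h i

end Rep

variable (n k : ℕ)

/-- The index type of the coordinates at the level `d + k`. -/
abbrev Idx' := Fin n ⊕ Fin k

/-- The index type of the big determinant. -/
abbrev Idx'' := Fin n ⊕ (Fin k ⊕ Fin k)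

/-- The numerical hypotheses. -/
structure Dims (d : ℕ) : Prop where
  two_g_le : 2 * c.g ≤ d
  card_eq : n + c.g = d + 1

variable {c n k} {d : ℕ}

theorem Dims.level (h : c.Dims n d) : c.Level (Fin n) d :=
  ⟨h.two_g_le, by simpa using h.card_eq⟩

theorem Dims.level' (h : c.Dims n d) : c.Level (Idx' n k) (d + k) :=
  ⟨by have := h.two_g_le; omega, by
    have := h.card_eq
    simp only [Fintype.card_sum, Fintype.card_fin]
    omega⟩

theorem Dims.level'' (h : c.Dims n d) : c.Level (Idx'' n k) (d + 2 * k) :=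
  ⟨by have := h.two_g_le; omega, by
    have := h.card_eq
    simp only [Fintype.card_sum, Fintype.card_fin]
    omega⟩

theorem Dims.nonempty (h : c.Dims n d) : Nonempty (Fin n) :=
  ⟨⟨0, by have := h.two_g_le; have := h.card_eq; omega⟩⟩

theorem exists_bigBasis (h : c.Dims n d) :
    ∃ u : Idx'' n k → F, (∀ l, u l ∈ c.W (d + 2 * k)) ∧ LinearIndependent K u :=
  c.exists_basisL h.level'' (c.degree_mP _)

/-- A basis of `W (d + 2 k)`. -/
def bigBasis (h : c.Dims n d) : Idx'' n k → F := (exists_bigBasis (k := k) h).choose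

theorem bigBasis_mem (h : c.Dims n d) (l : Idx'' n k) : bigBasis h l ∈ c.W (d + 2 * k) :=
  (exists_bigBasis h).choose_spec.1 l

theorem bigBasis_li (h : c.Dims n d) : LinearIndependent K (bigBasis (k := k) h) :=
  (exists_bigBasis h).choose_spec.2

/-- The big determinant. -/
def bigDet (h : c.Dims n d) (X : Idx'' n k → c.Pt) : K := c.detFn (bigBasis h) X

theorem bigDet_perm (h : c.Dims n d) (p : Equiv.Perm (Idx'' n k)) (X : Idx'' n k → c.Pt) :
    bigDet h (X ∘ p) = ((Equiv.Perm.sign p : ℤ) : K) * bigDet h X := by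
  rw [bigDet, bigDet, detFn, detFn, ← Matrix.det_permute']
  rfl

variable (c) in
/-- Functions of pole order `m` vanishing at given points. -/
def kerDiv {κ : Type*} [Fintype κ] (m : ℤ) (Z : κ → c.Pt) : Divisor K F :=
  c.mP m - ∑ a, Finsupp.single (Z a).1 1

theorem degree_kerDiv {κ : Type*} [Fintype κ] (m : ℤ) (Z : κ → c.Pt) :
    Divisor.degree (c.kerDiv m Z) = m - Fintype.card κ := by
  rw [kerDiv, map_sub, map_sum, c.degree_mP]
  simp [IsCurveOver.deg_eq_one_of_isAlgClosed]

theorem kerDiv_apply_Z {κ : Type*} [Fintype κ] (m : ℤ) {Z : κ → c.Pt}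
    (hZ : Function.Injective Z) (a : κ) : c.kerDiv m Z (Z a).1 = -1 := by
  classical
  rw [kerDiv, Finsupp.sub_apply, mP_pt, Finsupp.finsetSum_apply, Finset.sum_eq_single a,
    Finsupp.single_eq_same, zero_sub]
  · exact fun b _ hb => Finsupp.single_eq_of_ne' fun h => hb (hZ (Subtype.ext h))
  · simp

theorem kerDiv_le {κ : Type*} [Fintype κ] (m : ℤ) (Z : κ → c.Pt) : c.kerDiv m Z ≤ c.mP m := by
  classical
  refine Finsupp.le_def.2 fun v => ?_
  rw [kerDiv, Finsupp.sub_apply, Finsupp.finsetSum_apply, sub_le_self_iff]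
  refine Finset.sum_nonneg fun a _ => ?_
  rw [Finsupp.single_apply]
  split_ifs <;> omega

theorem mem_W_of_mem_kerDiv {κ : Type*} [Fintype κ] {m : ℕ} {Z : κ → c.Pt} {f : F}
    (hf : f ∈ riemannRochSpace (c.kerDiv m Z)) : f ∈ c.W m :=
  L_mono (kerDiv_le _ _) hf

theorem ev_eq_zero_of_mem_kerDiv {κ : Type*} [Fintype κ] {m : ℕ} {Z : κ → c.Pt}
    (hZ : Function.Injective Z) {f : F} (hf : f ∈ riemannRochSpace (c.kerDiv m Z)) (a : κ) :
    c.ev (Z a) f = 0 := by
  rcases eq_or_ne f 0 with rfl | h0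
  · simp
  rw [c.ev_eq_zero_iff (Z a) (c.reg_of_mem_W (mem_W_of_mem_kerDiv hf) _) h0]
  have := le_ord_of_mem_L hf h0 (Z a).1
  rw [kerDiv_apply_Z _ hZ] at this
  omega

/-- The big determinant at a tuple containing `Z` is a determinant of the functions vanishing
at `Z`. -/
theorem exists_kernel (h : c.Dims n d) {τ κ : Type*} [Fintype τ] [DecidableEq τ] [Fintype κ]
    [DecidableEq κ] (σ : Idx'' n k ≃ τ ⊕ κ) (hκ : 2 * c.g ≤ Fintype.card τ + c.g)
    {Z : κ → c.Pt} (hZ : Function.Injective Z) {u : τ → F}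
    (hu : ∀ l, u l ∈ riemannRochSpace (c.kerDiv ((d + 2 * k : ℕ) : ℤ) Z))
    (hli : LinearIndependent K u) :
    ∃ γ : K, γ ≠ 0 ∧ ∀ Q : τ → c.Pt,
      bigDet h (Sum.elim Q Z ∘ σ) = γ * c.detFn u Q := by
  classical
  have hcard : Fintype.card τ + Fintype.card κ + c.g = d + 2 * k + 1 := by
    have h1 := Fintype.card_congr σ
    have := h.card_eq
    simp only [Fintype.card_sum, Fintype.card_fin] at h1
    omega
  haveI : Module.Finite K ↥(c.W (d + 2 * k)) := c.finite_L _
  let evZ : ↥(c.W (d + 2 * k)) →ₗ[K] (κ → K) :=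
    { toFun := fun f a => c.ev (Z a) f
      map_add' := fun f e => funext fun a =>
        c.ev_add _ (c.reg_of_mem_W f.2 _) (c.reg_of_mem_W e.2 _)
      map_smul' := fun m f => funext fun a => c.ev_smul _ m (c.reg_of_mem_W f.2 _) }
  have hker : LinearMap.ker evZ =
      (riemannRochSpace (c.kerDiv ((d + 2 * k : ℕ) : ℤ) Z)).comap (c.W (d + 2 * k)).subtype := by
    ext ⟨f, hf⟩
    simp only [LinearMap.mem_ker, Submodule.mem_comap, Submodule.subtype_apply]
    refine ⟨fun h0 => mem_L_iff.2 fun hf0 v => ?_,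
      fun hf' => funext fun a => ev_eq_zero_of_mem_kerDiv hZ hf' a⟩
    by_cases hex : ∃ a, (Z a).1 = v
    · obtain ⟨a, rfl⟩ := hex
      rw [kerDiv_apply_Z _ hZ]
      have := (c.ev_eq_zero_iff (Z a) (c.reg_of_mem_W hf _) hf0).1 (congrFun h0 a)
      omega
    · push Not at hex
      rw [kerDiv, Finsupp.sub_apply, Finsupp.finsetSum_apply,
        Finset.sum_eq_zero fun a _ => Finsupp.single_eq_of_ne' (hex a), sub_zero]
      exact le_ord_of_mem_L hf hf0 v
  have hkdim : Module.finrank K ↥(LinearMap.ker evZ) = Fintype.card τ := by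
    rw [hker, LinearEquiv.finrank_eq (Submodule.comapSubtypeEquivOfLe
      (fun f hf => mem_W_of_mem_kerDiv hf))]
    have hdeg := degree_kerDiv (c := c) ((d + 2 * k : ℕ) : ℤ) Z
    have := c.finrank_L (c.kerDiv ((d + 2 * k : ℕ) : ℤ) Z) (by omega)
    omega
  have hsurj : Function.Surjective evZ := by
    rw [← LinearMap.range_eq_top]
    apply Submodule.eq_top_of_finrank_eq
    have h1 := evZ.finrank_range_add_finrank_ker
    have h2 := c.finrank_L' (c.degree_mP ((d + 2 * k : ℕ) : ℤ)) (by have := h.two_g_le; omega)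
    rw [Module.finrank_fintype_fun_eq_card]
    have h3 : Module.finrank K ↥(c.W (d + 2 * k)) =
        Module.finrank K ↥(riemannRochSpace (c.mP ((d + 2 * k : ℕ) : ℤ))) := rfl
    omega
  choose w hw using fun a => hsurj (Pi.single a 1)
  let b : τ ⊕ κ → F := Sum.elim u fun a => (w a : F)
  have hb : ∀ l, b l ∈ c.W (d + 2 * k) := by
    rintro (l | a)
    exacts [mem_W_of_mem_kerDiv (hu l), (w a).2]
  have hwZ : ∀ a a', c.ev (Z a') (w a : F) = (Pi.single a (1 : K) : κ → K) a' := fun a a' =>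
    congrFun (hw a) a'
  have hbli : LinearIndependent K b := by
    rw [Fintype.linearIndependent_iff]
    intro m hm
    rw [Fintype.sum_sum_type] at hm
    simp only [b, Sum.elim_inl, Sum.elim_inr] at hm
    have hr : ∀ a, m (Sum.inr a) = 0 := fun a => by
      have hA : c.Reg (∑ l, m (Sum.inl l) • u l) := Reg.sum fun l _ =>
        (c.reg_of_mem_W (mem_W_of_mem_kerDiv (hu l))).smul _
      have hB : c.Reg (∑ a, m (Sum.inr a) • (w a : F)) := Reg.sum fun a' _ =>
        (c.reg_of_mem_W (w a').2).smul _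
      have h0 := congrArg (c.ev (Z a)) hm
      rw [c.ev_add _ (hA _) (hB _), ev_zero,
        c.ev_sum _ _ fun l _ => (c.reg_of_mem_W (mem_W_of_mem_kerDiv (hu l))).smul _ _,
        c.ev_sum _ _ fun a' _ => (c.reg_of_mem_W (w a').2).smul _ _,
        Finset.sum_eq_zero fun l _ => by
          rw [c.ev_smul _ _ (c.reg_of_mem_W (mem_W_of_mem_kerDiv (hu l)) _),
            ev_eq_zero_of_mem_kerDiv hZ (hu l), mul_zero],
        zero_add, Finset.sum_eq_single a (fun a' _ ha' => by
          rw [c.ev_smul _ _ (c.reg_of_mem_W (w a').2 _), hwZ, Pi.single_eq_of_ne ha'.symm,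
            mul_zero]) (by simp),
        c.ev_smul _ _ (c.reg_of_mem_W (w a).2 _), hwZ, Pi.single_eq_same, mul_one] at h0
      exact h0
    simp only [hr, zero_smul, Finset.sum_const_zero, add_zero] at hm
    rintro (l | a)
    exacts [Fintype.linearIndependent_iff.1 hli _ hm l, hr a]
  have hA : ∀ l, ∃ A : Idx'' n k → K, ∑ m, A m • bigBasis h m = b (σ l) := fun l =>
    (Submodule.mem_span_range_iff_exists_fun K).1
      ((c.span_eq_L h.level'' (c.degree_mP _) (bigBasis_mem h) (bigBasis_li h)).symm ▸ hb (σ l))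
  choose A hA using hA
  have hbig : ∀ X : Idx'' n k → c.Pt,
      c.detFn b (X ∘ σ.symm) = Matrix.det (Matrix.of A) * bigDet h X := fun X => by
    have h1 : c.detFn b (X ∘ σ.symm) = c.detFn (b ∘ σ) X := by
      rw [detFn, detFn, ← Matrix.det_submatrix_equiv_self σ]
      congr 1
      ext l m
      simp
    rw [h1, show b ∘ σ = fun l => ∑ m, Matrix.of A l m • bigBasis h m from
      funext fun l => (hA l).symm, c.detFn_change fun m => c.reg_of_mem_W (bigBasis_mem h m)]
    rfl
  have hA0 : Matrix.det (Matrix.of A) ≠ 0 := fun h0 => by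
    obtain ⟨Q, -, hQ⟩ := c.exists_detFn_ne_zero (fun l => c.reg_of_mem_W (hb l)) hbli ∅
    refine hQ ?_
    have := hbig (Q ∘ σ)
    rw [h0, zero_mul] at this
    convert this using 2
    ext l
    simp
  refine ⟨(Matrix.det (Matrix.of A))⁻¹, inv_ne_zero hA0, fun Q => ?_⟩
  have h1 := hbig (Sum.elim Q Z ∘ σ)
  have h2 : c.detFn b (Sum.elim Q Z) = c.detFn u Q := by
    rw [detFn, show (Matrix.of fun l m => c.ev (Sum.elim Q Z m) (b l)) =
        Matrix.fromBlocks (Matrix.of fun l m => c.ev (Q m) (u l)) 0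
          (Matrix.of fun a m => c.ev (Q m) (w a : F)) 1 from ?_,
      Matrix.det_fromBlocks_zero₁₂, Matrix.det_one, mul_one]
    · rfl
    · ext (l | a) (m | a') <;> simp [b, ev_eq_zero_of_mem_kerDiv hZ (hu _), hwZ,
        Matrix.one_apply, Pi.single_apply, eq_comm]
  rw [show ((Sum.elim Q Z ∘ σ) ∘ σ.symm) = Sum.elim Q Z by ext; simp, h2] at h1
  rw [h1, inv_mul_cancel_left₀ hA0]

theorem divisor_add_mP {k : ℕ} (R : c.Rep k) (d : ℕ) :
    R.divisor + c.mP d = c.kerDiv ((d + k : ℕ) : ℤ) (fun i => R.P (Sum.inl i)) := by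
  rw [Rep.divisor, kerDiv, Nat.cast_add, mP_add]
  abel

/-- The normalised coordinates at level `d + k` attached to a representation. -/
theorem exists_repVec (h : c.Dims n d) (R : c.Rep k) :
    ∃ X : (Idx' n k → c.Idx ((d + k) + (d + k))) → K,
      (∀ Q' : Idx' n k → c.Pt,
        bigDet h (Sum.elim Q' (fun i => R.P (Sum.inl i)) ∘ (Equiv.sumAssoc _ _ _).symm) *
          bigDet h (Sum.elim Q' (fun i => R.P (Sum.inr i)) ∘ (Equiv.sumAssoc _ _ _).symm) =
          c.evT _ X Q' * ∏ i, c.ev (Q' i) R.f) ∧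
      ∃ (Φ : c.Frame (Idx' n k) (d + k) R.cls) (m : K), m ≠ 0 ∧ X = m • Φ.vec := by
  classical
  have hl := h.level' (k := k)
  have hdeg : ∀ R : c.Rep k,
      Divisor.degree (R.divisor + c.mP ((d + k : ℕ) : ℤ)) = ((d + k : ℕ) : ℤ) := fun R =>
    c.degree_shift ⟨R.divisor, R.divisor_mem_degZero⟩ (d + k)
  obtain ⟨u, hu, hul⟩ := c.exists_basisL hl (hdeg R)
  obtain ⟨u', hu', hul'⟩ := c.exists_basisL hl (hdeg R.swap)
  have hκ : 2 * c.g ≤ Fintype.card (Idx' n k) + c.g := by
    have := hl.two_g_le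
    have := hl.card_eq
    omega
  have hdiv : ∀ R : c.Rep k, R.divisor + c.mP ((d + k : ℕ) : ℤ) =
      c.kerDiv ((d + 2 * k : ℕ) : ℤ) (fun i => R.P (Sum.inl i)) := fun R => by
    rw [divisor_add_mP, show d + k + k = d + 2 * k by ring]
  have hinl : ∀ R : c.Rep k, Function.Injective fun i => R.P (Sum.inl i) :=
    fun R => R.inj.comp Sum.inl_injective
  obtain ⟨γ, hγ, hγ'⟩ := exists_kernel h (Equiv.sumAssoc _ _ _).symm hκ (hinl R)
    (fun l => hdiv R ▸ hu l) hul
  obtain ⟨δ, hδ, hδ'⟩ := exists_kernel h (Equiv.sumAssoc _ _ _).symm hκ (hinl R.swap)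
    (fun l => hdiv R.swap ▸ hu' l) hul'
  have hf := R.func_ne_zero
  let Φ : c.Frame (Idx' n k) (d + k) R.cls :=
    { D := ⟨R.divisor, R.divisor_mem_degZero⟩
      cls := rfl
      s := u
      hs := hu
      lis := hul
      t := fun l => R.f⁻¹ * u' l
      ht := fun l => mem_L_iff.2 fun h0 v => by
        have hu0 := (mul_ne_zero_iff.1 h0).2
        have h1 := le_ord_of_mem_L (hu' l) hu0 v
        have h2 := R.divisorOf_f v
        rw [v.ord_mul (inv_ne_zero hf) hu0, v.ord_inv, ← h2]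
        simp only [Rep.divisor, Rep.swap, Function.comp_apply, Sum.swap_inl, Finsupp.add_apply,
          Finsupp.sub_apply, Finsupp.neg_apply] at h1 ⊢
        simp only [two_mul, mP_add, Finsupp.add_apply] at h1 ⊢
        omega
      lit := linearIndependent_mul_left hul' (inv_ne_zero hf) }
  refine ⟨(γ * δ) • Φ.vec, fun Q' => ?_, Φ, γ * δ, mul_ne_zero hγ hδ, rfl⟩
  rw [hγ' Q', show (fun i => R.P (Sum.inr i)) = fun i => R.swap.P (Sum.inl i) from rfl, hδ' Q',
    map_smul, Pi.smul_apply, smul_eq_mul]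
  have hW : ∀ {R : c.Rep k} {f : F},
      f ∈ riemannRochSpace (R.divisor + c.mP ((d + k : ℕ) : ℤ)) → c.Reg f := fun {R f} hf =>
    c.reg_of_mem_W (mem_W_of_mem_kerDiv (hdiv R ▸ hf))
  have key := c.evT_prodVec_mul (a := 1) (b := R.f) (s := Φ.s) (t := Φ.t)
    (fun l m => Φ.mul_mem_W (Φ.hs l) (Φ.ht m))
    (fun l => by rw [one_mul]; exact hW (hu l))
    (fun l => by rw [mul_inv_cancel_left₀ hf]; exact hW (hu' l))
    (by rw [one_mul]; exact c.reg_of_mem_W R.mem) Q'
  simp only [one_mul] at key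
  have e : (fun l => R.f * Φ.t l) = u' := funext fun l => mul_inv_cancel_left₀ hf _
  rw [e] at key
  rw [mul_assoc (γ * δ), Frame.vec, key]
  ring

/-- The chosen normalised coordinates of a representation. -/
def repVec (h : c.Dims n d) (R : c.Rep k) :
    (Idx' n k → c.Idx ((d + k) + (d + k))) → K :=
  (exists_repVec h R).choose

theorem repVec_spec (h : c.Dims n d) (R : c.Rep k) (Q' : Idx' n k → c.Pt) :
    bigDet h (Sum.elim Q' (fun i => R.P (Sum.inl i)) ∘ (Equiv.sumAssoc _ _ _).symm) *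
      bigDet h (Sum.elim Q' (fun i => R.P (Sum.inr i)) ∘ (Equiv.sumAssoc _ _ _).symm) =
      c.evT _ (repVec h R) Q' * ∏ i, c.ev (Q' i) R.f :=
  (exists_repVec h R).choose_spec.1 Q'

theorem repVec_frame (h : c.Dims n d) (R : c.Rep k) :
    ∃ (Φ : c.Frame (Idx' n k) (d + k) R.cls) (m : K), m ≠ 0 ∧ repVec h R = m • Φ.vec :=
  (exists_repVec h R).choose_spec.2

set_option maxHeartbeats 400000 in
/-- A pair of determinants gives the coordinates of the sum of the classes. -/
theorem exists_pair (h : c.Dims n d) (P R : c.Rep k) (hPR : R.Disjoint P) :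
    ∃ (Φ : c.Frame (Fin n) d (P.cls + R.cls)) (m : K), m ≠ 0 ∧ ∀ Q : Fin n → c.Pt,
      bigDet h (Sum.elim Q (Sum.elim (fun i => P.P (Sum.inl i)) fun i => R.P (Sum.inl i))) *
        bigDet h (Sum.elim Q (Sum.elim (fun i => P.P (Sum.inr i)) fun i => R.P (Sum.inr i))) =
        m * c.evT _ Φ.vec Q * ((∏ i, c.ev (Q i) P.f) * ∏ i, c.ev (Q i) R.f) := by
  classical
  have hl := h.level
  let D0 : c.Rep k → c.Rep k → Divisor K F := fun P R => P.divisor + R.divisor + c.mP d
  let Z : c.Rep k → c.Rep k → Fin k ⊕ Fin k → c.Pt := fun P R =>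
    Sum.elim (fun i => P.P (Sum.inl i)) fun i => R.P (Sum.inl i)
  have hdiv : ∀ P R, D0 P R = c.kerDiv ((d + 2 * k : ℕ) : ℤ) (Z P R) := fun P R => by
    simp only [D0, Z, Rep.divisor, kerDiv, Fintype.sum_sum_type, Sum.elim_inl, Sum.elim_inr]
    rw [show (((d + 2 * k : ℕ) : ℤ)) = (d : ℤ) + ((k : ℤ) + k) by push_cast; ring, mP_add, mP_add]
    abel
  have hZ : ∀ P R : c.Rep k, R.Disjoint P → Function.Injective (Z P R) := fun P R hPR =>
    Function.Injective.sumElim (P.inj.comp Sum.inl_injective) (R.inj.comp Sum.inl_injective)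
      fun a b hab => hPR _ _ hab.symm
  have hswap : R.swap.Disjoint P.swap := fun i l => hPR _ _
  have hdeg : ∀ P R : c.Rep k, Divisor.degree (D0 P R) = (d : ℤ) := fun P R =>
    c.degree_shift ⟨P.divisor + R.divisor,
      add_mem P.divisor_mem_degZero R.divisor_mem_degZero⟩ d
  obtain ⟨u, hu, hul⟩ := c.exists_basisL hl (hdeg P R)
  obtain ⟨u', hu', hul'⟩ := c.exists_basisL hl (hdeg P.swap R.swap)
  have hκ : 2 * c.g ≤ Fintype.card (Fin n) + c.g := by
    have := hl.two_g_le
    have := hl.card_eq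
    omega
  obtain ⟨γ, hγ, hγ'⟩ := exists_kernel h (Equiv.refl _) hκ (hZ P R hPR)
    (fun l => hdiv P R ▸ hu l) hul
  obtain ⟨δ, hδ, hδ'⟩ := exists_kernel h (Equiv.refl _) hκ (hZ _ _ hswap)
    (fun l => hdiv P.swap R.swap ▸ hu' l) hul'
  have hfP := P.func_ne_zero
  have hfR := R.func_ne_zero
  have hf : P.f * R.f ≠ 0 := mul_ne_zero hfP hfR
  let Φ : c.Frame (Fin n) d (P.cls + R.cls) :=
    { D := ⟨P.divisor + R.divisor, add_mem P.divisor_mem_degZero R.divisor_mem_degZero⟩
      cls := Pic0.mk_add ⟨P.divisor, P.divisor_mem_degZero⟩ ⟨R.divisor, R.divisor_mem_degZero⟩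
      s := u
      hs := hu
      lis := hul
      t := fun l => (P.f * R.f)⁻¹ * u' l
      ht := fun l => mem_L_iff.2 fun h0 v => by
        have hu0 := (mul_ne_zero_iff.1 h0).2
        have h1 := le_ord_of_mem_L (hu' l) hu0 v
        rw [v.ord_mul (inv_ne_zero hf) hu0, v.ord_inv, v.ord_mul hfP hfR, ← P.divisorOf_f v,
          ← R.divisorOf_f v]
        simp only [D0, Rep.divisor, Rep.swap, Function.comp_apply, Sum.swap_inl,
          Finsupp.add_apply, Finsupp.sub_apply, Finsupp.neg_apply] at h1 ⊢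
        simp only [two_mul, mP_add, Finsupp.add_apply] at h1 ⊢
        omega
      lit := linearIndependent_mul_left hul' (inv_ne_zero hf) }
  refine ⟨Φ, γ * δ, mul_ne_zero hγ hδ, fun Q => ?_⟩
  have e1 := hγ' Q
  have e2 := hδ' Q
  simp only [Equiv.coe_refl, Function.comp_id, Z] at e1 e2
  rw [e1]
  have e2' : bigDet h
      (Sum.elim Q (Sum.elim (fun i => P.P (Sum.inr i)) fun i => R.P (Sum.inr i))) =
      δ * c.detFn u' Q := e2
  rw [e2', ← Finset.prod_mul_distrib]
  have hW : ∀ {P R : c.Rep k} {f : F}, f ∈ riemannRochSpace (D0 P R) → c.Reg f :=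
    fun {P R f} hf => c.reg_of_mem_W (mem_W_of_mem_kerDiv (hdiv P R ▸ hf))
  have hfW : c.Reg (P.f * R.f) := (c.reg_of_mem_W P.mem).mul (c.reg_of_mem_W R.mem)
  have key := c.evT_prodVec_mul (a := 1) (b := P.f * R.f) (s := Φ.s) (t := Φ.t)
    (fun l m => Φ.mul_mem_W (Φ.hs l) (Φ.ht m))
    (fun l => by rw [one_mul]; exact hW (hu l))
    (fun l => by rw [mul_inv_cancel_left₀ hf]; exact hW (hu' l))
    (by rw [one_mul]; exact hfW) Q
  simp only [one_mul] at key
  have e : (fun l => P.f * R.f * Φ.t l) = u' := funext fun l => mul_inv_cancel_left₀ hf _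
  rw [e] at key
  rw [show (∏ i, c.ev (Q i) P.f * c.ev (Q i) R.f) = ∏ i, c.ev (Q i) (P.f * R.f) from
    Finset.prod_congr rfl fun i _ =>
      (c.ev_mul _ (c.reg_of_mem_W P.mem _) (c.reg_of_mem_W R.mem _)).symm, mul_assoc (γ * δ),
    Frame.vec,
    key]
  ring

theorem sliceReg_sumElim {j : ℕ} (a : (Idx' n k → c.Idx j) → K) (A : Fin k → c.Pt) :
    c.SliceReg fun Q : Fin n → c.Pt => c.evT j a (Sum.elim Q A) := fun Q i =>
  ⟨_, c.reg_of_mem_W (c.slice1_mem j (Sum.elim Q A) (Sum.inl i) a), fun v => by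
    rw [← c.evT_update]
    refine congrArg (c.evT j a) (funext ?_)
    rintro (l | l)
    · rcases eq_or_ne l i with rfl | hl <;> simp [*]
    · simp⟩

theorem sliceReg_quad (h : c.Dims n d) (R P : c.Rep k) :
    c.SliceReg fun Q : Fin n → c.Pt => c.evT _ (repVec h R) (Sum.elim Q fun i => P.P (Sum.inl i)) *
      c.evT _ (repVec h R) (Sum.elim Q fun i => P.P (Sum.inr i)) * R.res P := fun Q i => by
  obtain ⟨f, hf, hf'⟩ := ((sliceReg_sumElim (repVec h R) fun i => P.P (Sum.inl i)).mul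
    (sliceReg_sumElim (repVec h R) fun i => P.P (Sum.inr i))) Q i
  refine ⟨R.res P • f, hf.smul _, fun v => ?_⟩
  rw [c.ev_smul v _ (hf v), ← hf' v, Pi.mul_apply, mul_comm]

/-- The product of the four determinants. -/
def four (h : c.Dims n d) (P R : c.Rep k) (Q : Fin n → c.Pt) : K :=
  bigDet h (Sum.elim Q (Sum.elim (fun i => P.P (Sum.inl i)) fun i => R.P (Sum.inl i))) *
      bigDet h (Sum.elim Q (Sum.elim (fun i => P.P (Sum.inr i)) fun i => R.P (Sum.inr i))) *
    (bigDet h (Sum.elim Q (Sum.elim (fun i => P.P (Sum.inl i)) fun i => R.P (Sum.inr i))) *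
      bigDet h (Sum.elim Q (Sum.elim (fun i => P.P (Sum.inr i)) fun i => R.P (Sum.inl i))))

theorem four_symm (h : c.Dims n d) (P R : c.Rep k) (Q : Fin n → c.Pt) :
    four h P R Q = four h R P Q := by
  have hp : ∀ A B : Fin k → c.Pt, bigDet h (Sum.elim Q (Sum.elim A B)) =
      ((Equiv.Perm.sign (Equiv.sumCongr (Equiv.refl (Fin n))
        (Equiv.sumComm (Fin k) (Fin k))) : ℤ) : K) * bigDet h (Sum.elim Q (Sum.elim B A)) :=
    fun A B => by
      rw [← bigDet_perm h]
      congr 1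
      ext (a | a | a) <;> rfl
  set s : ℤˣ := Equiv.Perm.sign (Equiv.sumCongr (Equiv.refl (Fin n))
    (Equiv.sumComm (Fin k) (Fin k))) with hs
  have hss : ((s : ℤ) : K) * ((s : ℤ) : K) = 1 := by
    rw [← Int.cast_mul, ← Units.val_mul, Int.units_mul_self, Units.val_one, Int.cast_one]
  simp only [four, hp (fun i => P.P _)]
  linear_combination (((s : ℤ) : K) * ((s : ℤ) : K) + 1) *
    bigDet h (Sum.elim Q (Sum.elim (fun i => R.P (Sum.inl i)) fun i => P.P (Sum.inl i))) *
    bigDet h (Sum.elim Q (Sum.elim (fun i => R.P (Sum.inr i)) fun i => P.P (Sum.inr i))) *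
    bigDet h (Sum.elim Q (Sum.elim (fun i => R.P (Sum.inr i)) fun i => P.P (Sum.inl i))) *
    bigDet h (Sum.elim Q (Sum.elim (fun i => R.P (Sum.inl i)) fun i => P.P (Sum.inr i))) * hss

theorem four_eq_repVec (h : c.Dims n d) (P R : c.Rep k) (Q : Fin n → c.Pt) :
    four h P R Q =
      c.evT _ (repVec h R) (Sum.elim Q fun i => P.P (Sum.inl i)) *
        c.evT _ (repVec h R) (Sum.elim Q fun i => P.P (Sum.inr i)) *
        ((∏ i, c.ev (Q i) R.f) * ∏ i, c.ev (Q i) R.f) * R.res P := by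
  have hs : ∀ A B : Fin k → c.Pt, Sum.elim (Sum.elim Q A) B ∘ (Equiv.sumAssoc _ _ _).symm =
      Sum.elim Q (Sum.elim A B) := fun A B => by ext (a | a | a) <;> rfl
  have h1 := repVec_spec h R (Sum.elim Q fun i => P.P (Sum.inl i))
  have h2 := repVec_spec h R (Sum.elim Q fun i => P.P (Sum.inr i))
  simp only [hs, Fintype.prod_sum_type, Sum.elim_inl, Sum.elim_inr] at h1 h2
  calc four h P R Q = (bigDet h (Sum.elim Q (Sum.elim (fun i => P.P (Sum.inl i))
          fun i => R.P (Sum.inl i))) * bigDet h (Sum.elim Q (Sum.elim (fun i => P.P (Sum.inl i))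
          fun i => R.P (Sum.inr i)))) *
        (bigDet h (Sum.elim Q (Sum.elim (fun i => P.P (Sum.inr i)) fun i => R.P (Sum.inl i))) *
          bigDet h (Sum.elim Q (Sum.elim (fun i => P.P (Sum.inr i))
          fun i => R.P (Sum.inr i)))) := by rw [four]; ring
    _ = _ := by rw [h1, h2, Rep.res, Fintype.prod_sum_type]; ring

/-- The addition identity: the product of the slices of the coordinates of `y` along the two
halves of `P` is the product of the coordinates of `x + y` and `x - y`, times `f_P ^ 2`. -/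
theorem exists_addition (h : c.Dims n d) (P R : c.Rep k) (hPR : R.Disjoint P) :
    ∃ (Φ : c.Frame (Fin n) d (P.cls + R.cls)) (Ψ : c.Frame (Fin n) d (P.cls - R.cls))
      (m : K), m ≠ 0 ∧
      (∀ Q : Fin n → c.Pt, c.evT _ (repVec h R) (Sum.elim Q fun i => P.P (Sum.inl i)) *
          c.evT _ (repVec h R) (Sum.elim Q fun i => P.P (Sum.inr i)) * R.res P =
        c.evT _ (m • c.mulVec _ Φ.vec Ψ.vec) Q *
          ((∏ i, c.ev (Q i) P.f) * ∏ i, c.ev (Q i) P.f)) ∧
      (∀ Q : Fin n → c.Pt, c.evT _ (repVec h P) (Sum.elim Q fun i => R.P (Sum.inl i)) *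
          c.evT _ (repVec h P) (Sum.elim Q fun i => R.P (Sum.inr i)) * P.res R =
        c.evT _ (m • c.mulVec _ Φ.vec Ψ.vec) Q *
          ((∏ i, c.ev (Q i) R.f) * ∏ i, c.ev (Q i) R.f)) := by
  classical
  have := h.nonempty
  obtain ⟨Φ, m, hm, hΦ⟩ := exists_pair h P R hPR
  obtain ⟨Ψ₀, m', hm', hΨ⟩ := exists_pair h P R.swap fun i l => hPR _ _
  have hcls : P.cls + R.swap.cls = P.cls - R.cls := by rw [R.cls_swap, sub_eq_add_neg]
  let Ψ : c.Frame (Fin n) d (P.cls - R.cls) :=
    { Ψ₀ with cls := Ψ₀.cls.trans hcls }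
  have hfour : ∀ Q : Fin n → c.Pt, four h P R Q =
      m * m' * (c.evT _ Φ.vec Q * c.evT _ Ψ.vec Q) *
        (((∏ i, c.ev (Q i) P.f) * ∏ i, c.ev (Q i) P.f) *
          ((∏ i, c.ev (Q i) R.f) * ∏ i, c.ev (Q i) R.f)) := fun Q => by
    have h2 := hΨ Q
    simp only [Rep.swap, Function.comp_apply, Sum.swap_inl, Sum.swap_inr] at h2
    rw [four, hΦ Q, h2, show Ψ.vec = Ψ₀.vec from rfl]
    ring_nf
    rfl
  refine ⟨Φ, Ψ, m * m', mul_ne_zero hm hm', ?_, ?_⟩
  · refine fun Q => congrFun (?_ : (fun Q => c.evT _ (repVec h R)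
        (Sum.elim Q fun i => P.P (Sum.inl i)) *
        c.evT _ (repVec h R) (Sum.elim Q fun i => P.P (Sum.inr i)) * R.res P) =
      fun Q => c.evT _ ((m * m') • c.mulVec _ Φ.vec Ψ.vec) Q *
        ((∏ i, c.ev (Q i) P.f) * ∏ i, c.ev (Q i) P.f)) Q
    have hχ := (sliceReg_prod (ι := Fin n) (c.reg_of_mem_W R.mem)).mul
      (sliceReg_prod (ι := Fin n) (c.reg_of_mem_W R.mem))
    refine SliceReg.eq_of_mul_eq ?_ ?_ hχ ?_ fun Q => ?_
    · exact sliceReg_quad h R P
    · exact (c.sliceReg_evT _ _).mul ((sliceReg_prod (c.reg_of_mem_W P.mem)).mul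
        (sliceReg_prod (c.reg_of_mem_W P.mem)))
    · intro h0
      rcases (sliceReg_prod (ι := Fin n) (c.reg_of_mem_W R.mem)).eq_zero_or_eq_zero
        (sliceReg_prod (ι := Fin n) (c.reg_of_mem_W R.mem)) ∅ (fun Q _ => congrFun h0 Q)
        with h1 | h1 <;> exact c.prod_ev_ne_zero (c.reg_of_mem_W R.mem) R.func_ne_zero h1
    · have := four_eq_repVec h P R Q
      rw [hfour Q] at this
      simp only [Pi.mul_apply, map_smul, Pi.smul_apply, smul_eq_mul, c.evT_mulVec]
      linear_combination -this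
  · refine fun Q => congrFun (?_ : (fun Q => c.evT _ (repVec h P)
        (Sum.elim Q fun i => R.P (Sum.inl i)) *
        c.evT _ (repVec h P) (Sum.elim Q fun i => R.P (Sum.inr i)) * P.res R) =
      fun Q => c.evT _ ((m * m') • c.mulVec _ Φ.vec Ψ.vec) Q *
        ((∏ i, c.ev (Q i) R.f) * ∏ i, c.ev (Q i) R.f)) Q
    have hχ := (sliceReg_prod (ι := Fin n) (c.reg_of_mem_W P.mem)).mul
      (sliceReg_prod (ι := Fin n) (c.reg_of_mem_W P.mem))
    refine SliceReg.eq_of_mul_eq ?_ ?_ hχ ?_ fun Q => ?_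
    · exact sliceReg_quad h P R
    · exact (c.sliceReg_evT _ _).mul ((sliceReg_prod (c.reg_of_mem_W R.mem)).mul
        (sliceReg_prod (c.reg_of_mem_W R.mem)))
    · intro h0
      rcases (sliceReg_prod (ι := Fin n) (c.reg_of_mem_W P.mem)).eq_zero_or_eq_zero
        (sliceReg_prod (ι := Fin n) (c.reg_of_mem_W P.mem)) ∅ (fun Q _ => congrFun h0 Q)
        with h1 | h1 <;> exact c.prod_ev_ne_zero (c.reg_of_mem_W P.mem) P.func_ne_zero h1
    · have := four_eq_repVec h R P Q
      rw [← four_symm h P R Q, hfour Q] at this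
      simp only [Pi.mul_apply, map_smul, Pi.smul_apply, smul_eq_mul, c.evT_mulVec]
      linear_combination -this

end Fermat.Agent.MW.Kummer.Marked

end
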