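/-
Heights on the degree zero class group, part 5: the doubling and translation forms.

The product of the Kummer coordinates of `x + y` and `x - y` is bilinear in the squares of the
coordinates of `x` and `y` at level `d + k`. Diagonally this is a quartic form giving the
coordinates of `2 x`, and for fixed `y` a quadratic form.
-/
import Fermat.Agent.MW.HeightCube
import Fermat.Agent.MW.Height2Rep
import Fermat.Agent.MW.Height2Reciprocity
import Fermat.Agent.MW.Height2Lower

set_option autoImplicit false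
set_option linter.style.haveILetI false
set_option linter.unusedSectionVars false

noncomputable section

open AlgebraicCurve Fermat.Agent.Curve

namespace Fermat.Agent.MW.Kummer.Marked

variable {K F : Type*} [Field K] [Field F] [Algebra K F] [IsAlgClosed K] [IsCurveOver K F]
variable {c : Marked K F}

/-- Regard a frame as a frame of an equal class. -/
def Frame.copy {ι : Type*} {d : ℕ} {x y : Pic0 K F} (Φ : c.Frame ι d x) (h : x = y) :
    c.Frame ι d y :=
  { Φ with cls := Φ.cls.trans h }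

theorem Frame.vec_copy {ι : Type*} [Fintype ι] [DecidableEq ι] {d : ℕ} {x y : Pic0 K F}
    (Φ : c.Frame ι d x) (h : x = y) : (Φ.copy h).vec = Φ.vec := rfl

/-- The square of a coordinate vector. -/
def sq {α : Type*} (z : α → K) : α × α → K := fun p => z p.1 * z p.2

theorem sq_smul {α : Type*} (r : K) (z : α → K) : sq (r • z) = (r * r) • sq z := by
  ext p
  simp only [sq, Pi.smul_apply, smul_eq_mul]
  ring

variable {n k d : ℕ}

variable (c n k d) in
/-- The coefficient index of the coordinates at level `d + k`. -/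
abbrev Coord := Idx' n k → c.Idx ((d + k) + (d + k))

variable (c n d) in
/-- The coefficient index of the products of two coordinate vectors at level `d`. -/
abbrev Out := Fin n → c.Idx ((d + d) + (d + d))

variable (n d) in
/-- The product of the slices along the two halves of `P`. -/
def quad (P : c.Rep k) :
    (Coord c n k d × Coord c n k d → K) →ₗ[K] ((Fin n → c.Pt) → K) where
  toFun v Q := ∑ p, v p *
    ((∏ i, c.ev (Sum.elim Q (fun i => P.P (Sum.inl i)) i) (c.e _ (p.1 i))) *
      ∏ i, c.ev (Sum.elim Q (fun i => P.P (Sum.inr i)) i) (c.e _ (p.2 i)))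
  map_add' u v := by
    ext Q
    simp [add_mul, Finset.sum_add_distrib]
  map_smul' r v := by
    ext Q
    simp [Finset.mul_sum, mul_assoc]

theorem quad_sq (P : c.Rep k) (X : Coord c n k d → K) (Q : Fin n → c.Pt) :
    quad n d P (sq X) Q = c.evT _ X (Sum.elim Q fun i => P.P (Sum.inl i)) *
      c.evT _ X (Sum.elim Q fun i => P.P (Sum.inr i)) := by
  rw [evT_apply, evT_apply, Finset.sum_mul_sum]
  show ∑ p : Coord c n k d × Coord c n k d, _ = _
  rw [Fintype.sum_prod_type]
  refine Finset.sum_congr rfl fun I _ => Finset.sum_congr rfl fun J _ => ?_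
  simp only [sq]
  ring

variable (n d) in
/-- Multiplication by the square of the function of `P`. -/
def mulSq (P : c.Rep k) : (Out c n d → K) →ₗ[K] ((Fin n → c.Pt) → K) where
  toFun ψ Q := c.evT _ ψ Q * ((∏ i, c.ev (Q i) P.f) * ∏ i, c.ev (Q i) P.f)
  map_add' u v := by
    ext Q
    simp [add_mul]
  map_smul' r v := by
    ext Q
    simp [mul_assoc]

theorem mulSq_injective (P : c.Rep k) : Function.Injective (mulSq n d P) := by
  refine (injective_iff_map_eq_zero _).2 fun ψ hψ => c.evT_injective _ ?_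
  rw [map_zero]
  have hf := c.reg_of_mem_W P.mem
  rcases (c.sliceReg_evT _ ψ).eq_zero_or_eq_zero
    ((sliceReg_prod (ι := Fin n) hf).mul (sliceReg_prod hf)) ∅
    (fun Q _ => congrFun hψ Q) with h | h
  · exact h
  · rcases (sliceReg_prod (ι := Fin n) hf).eq_zero_or_eq_zero (sliceReg_prod hf) ∅
      (fun Q _ => congrFun h Q) with h | h <;>
      exact absurd h (c.prod_ev_ne_zero hf P.func_ne_zero)

theorem exists_psi (h : c.Dims n d) (P R : c.Rep k) (hPR : R.Disjoint P) :
    ∃ (Φ : c.Frame (Fin n) d (P.cls + R.cls)) (Ψ : c.Frame (Fin n) d (P.cls - R.cls))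
      (m : K), m ≠ 0 ∧
      quad n d P (sq (repVec h R)) = mulSq n d P (m • c.mulVec _ Φ.vec Ψ.vec) ∧
      quad n d R (sq (repVec h P)) = mulSq n d R (m • c.mulVec _ Φ.vec Ψ.vec) := by
  obtain ⟨Φ, Ψ, m, hm, h1, h2⟩ := exists_addition h P R hPR
  have hres := Rep.res_ne_zero hPR
  have hsym := Rep.res_symm P R
  refine ⟨Φ, Ψ, m / R.res P, div_ne_zero hm hres, funext fun Q => ?_, funext fun Q => ?_⟩
  · have := h1 Q
    rw [map_smul, Pi.smul_apply, smul_eq_mul] at this
    rw [quad_sq, map_smul, Pi.smul_apply, smul_eq_mul]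
    show _ = m / R.res P * (_ * _)
    field_simp
    linear_combination this
  · have := h2 Q
    rw [map_smul, Pi.smul_apply, smul_eq_mul, ← hsym] at this
    rw [quad_sq, map_smul, Pi.smul_apply, smul_eq_mul]
    show _ = m / R.res P * (_ * _)
    field_simp
    linear_combination this

/-- The addition law is bilinear in the squares of the coordinates. -/
theorem exists_bilinear (h : c.Dims n d) :
    ∃ (B : (Coord c n k d × Coord c n k d → K) →ₗ[K]
        (Coord c n k d × Coord c n k d → K) →ₗ[K] (Out c n d → K))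
      (avoid : Finset (Place K F)),
      ∀ P R : c.Rep k, (∀ i, (P.P i).1 ∉ avoid) → R.Disjoint P →
        ∃ (Φ : c.Frame (Fin n) d (P.cls + R.cls)) (Ψ : c.Frame (Fin n) d (P.cls - R.cls))
          (m : K), m ≠ 0 ∧
          B (sq (repVec h P)) (sq (repVec h R)) = m • c.mulVec _ Φ.vec Ψ.vec := by
  classical
  obtain ⟨s, hs, hspan, hli⟩ :=
    exists_linearIndependent K (Set.range fun R : c.Rep k => sq (repVec h R))
  haveI : Fintype ↥s := hli.setFinite.fintype
  choose Ra hRa using fun a : ↥s => hs a.2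
  let Lc : (↥s → K) →ₗ[K] (Coord c n k d × Coord c n k d → K) :=
    Fintype.linearCombination K (fun a : ↥s => (a : Coord c n k d × Coord c n k d → K))
  have hLc : LinearMap.ker Lc = ⊥ := by
    rw [LinearMap.ker_eq_bot']
    exact fun a ha => funext (Fintype.linearIndependent_iff.1 hli a
      (by simpa [Lc, Fintype.linearCombination_apply] using ha))
  obtain ⟨φ, hφ⟩ := Lc.exists_leftInverse_of_injective hLc
  have hinv : ∀ a : ↥s, ∃ g : ((Fin n → c.Pt) → K) →ₗ[K] (Out c n d → K),
      g.comp (mulSq n d (Ra a)) = LinearMap.id := fun a =>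
    (mulSq n d (Ra a)).exists_leftInverse_of_injective
      (LinearMap.ker_eq_bot.2 (mulSq_injective _))
  choose g hg using hinv
  let B : (Coord c n k d × Coord c n k d → K) →ₗ[K]
      (Coord c n k d × Coord c n k d → K) →ₗ[K] (Out c n d → K) :=
    LinearMap.mk₂ K (fun u v => ∑ a, φ v a • g a (quad n d (Ra a) u))
      (fun u u' v => by simp [Finset.sum_add_distrib])
      (fun r u v => by simp [Finset.smul_sum, smul_comm r])
      (fun u v v' => by simp [add_smul, Finset.sum_add_distrib])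
      (fun r u v => by simp [Finset.smul_sum, mul_smul])
  refine ⟨B, Finset.univ.biUnion fun a => (Ra a).places, fun P R hP hPR => ?_⟩
  obtain ⟨Φ, Ψ, m, hm, h1, -⟩ := exists_psi h P R hPR
  refine ⟨Φ, Ψ, m, hm, mulSq_injective P ?_⟩
  rw [← h1]
  have hmem : sq (repVec h R) ∈ LinearMap.range Lc := by
    rw [Fintype.range_linearCombination, Subtype.range_coe, hspan]
    exact Submodule.subset_span ⟨R, rfl⟩
  obtain ⟨a, ha⟩ := hmem
  have hφa : φ (sq (repVec h R)) = a := by
    rw [← ha, ← LinearMap.comp_apply, hφ, LinearMap.id_apply]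
  have hdec : sq (repVec h R) = ∑ b : ↥s, a b • sq (repVec h (Ra b)) := by
    rw [← ha, Fintype.linearCombination_apply]
    exact Finset.sum_congr rfl fun b _ => by
      rw [show (b : Coord c n k d × Coord c n k d → K) = sq (repVec h (Ra b)) from (hRa b).symm]
  show mulSq n d P (∑ b, φ (sq (repVec h R)) b • g b (quad n d (Ra b) (sq (repVec h P)))) = _
  rw [hφa, map_sum, hdec, map_sum]
  refine Finset.sum_congr rfl fun b _ => ?_
  rw [map_smul, map_smul]
  congr 1
  have hdisj : (Ra b).Disjoint P := Rep.disjoint_of_places fun i hi =>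
    hP i (Finset.mem_biUnion.2 ⟨b, Finset.mem_univ b, hi⟩)
  obtain ⟨Φb, Ψb, mb, -, hb1, hb2⟩ := exists_psi h P (Ra b) hdisj
  rw [hb2, show g b (mulSq n d (Ra b) (mb • c.mulVec _ Φb.vec Ψb.vec)) =
    mb • c.mulVec _ Φb.vec Ψb.vec from LinearMap.congr_fun (hg b) _, hb1]

theorem Frame.exists_smul_repVec (h : c.Dims n d) {x : Pic0 K F}
    (Φ : c.Frame (Idx' n k) (d + k) x) (R : c.Rep k) (hR : R.cls = x) :
    ∃ r : K, r ≠ 0 ∧ Φ.vec = r • repVec h R := by
  obtain ⟨Ψ, m, hm, hX⟩ := repVec_frame h R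
  haveI := h.nonempty
  obtain ⟨r, hr, hv⟩ := Frame.exists_smul h.level' (Ψ.copy hR) Φ
  rw [Frame.vec_copy] at hv
  exact ⟨r / m, div_ne_zero hr hm, by rw [hv, hX, smul_smul, div_mul_cancel₀ _ hm]⟩

variable [CharZero K] [IsFunctionFieldOne K F]

/-- The doubling form. -/
theorem exists_quartic (h : c.Dims n d) (hk : 2 * c.g + 2 ≤ k) :
    ∃ B : Out c n d → (Fin 4 → Coord c n k d) → K,
      ∀ (x : Pic0 K F) (Φ : c.Frame (Idx' n k) (d + k) x),
        ∃ (Φ₂ : c.Frame (Fin n) d (x + x)) (Φ₀ : c.Frame (Fin n) d (0 : Pic0 K F)) (m : K),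
          m ≠ 0 ∧ evalForm B Φ.vec = m • c.mulVec _ Φ₂.vec Φ₀.vec := by
  classical
  obtain ⟨B, avoid, hB⟩ := exists_bilinear (k := k) h
  refine ⟨fun o I => B (Pi.single (I 0, I 1) 1) (Pi.single (I 2, I 3) 1) o, fun x Φ => ?_⟩
  obtain ⟨P, hP, hPav⟩ := c.exists_rep hk x avoid
  obtain ⟨R, hR, hRav⟩ := c.exists_rep hk x P.places
  have hPR : R.Disjoint P := (Rep.disjoint_of_places hRav).symm
  obtain ⟨Φ₂, Φ₀, m, hm, hval⟩ := hB P R hPav hPR
  obtain ⟨r, hr, hvP⟩ := Φ.exists_smul_repVec h P hP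
  obtain ⟨r', hr', hvR⟩ := Φ.exists_smul_repVec h R hR
  refine ⟨Φ₂.copy (by rw [hP, hR]), Φ₀.copy (by rw [hP, hR, sub_self]),
    r * r * (r' * r') * m, mul_ne_zero (mul_ne_zero (mul_ne_zero hr hr) (mul_ne_zero hr' hr')) hm,
    ?_⟩
  rw [Frame.vec_copy, Frame.vec_copy, mul_smul, ← hval]
  have h2 : B (sq Φ.vec) (sq Φ.vec) =
      (r * r * (r' * r')) • B (sq (repVec h P)) (sq (repVec h R)) := by
    conv_lhs => arg 2; rw [hvR]
    conv_lhs => arg 1; rw [hvP]
    simp only [sq_smul, map_smul, LinearMap.smul_apply, smul_smul]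
    congr 1
    ring
  rw [← h2]
  funext o
  let α := Coord c n k d
  let e : (Fin 4 → α) ≃ (α × α) × (α × α) :=
    { toFun := fun I => ((I 0, I 1), (I 2, I 3))
      invFun := fun p => ![p.1.1, p.1.2, p.2.1, p.2.2]
      left_inv := fun I => by ext i; fin_cases i <;> rfl
      right_inv := fun p => rfl }
  conv_rhs => rw [pi_eq_sum_univ' (sq Φ.vec)]
  simp only [map_sum, map_smul, LinearMap.sum_apply, LinearMap.smul_apply, Finset.sum_apply,
    Pi.smul_apply, smul_eq_mul, Finset.mul_sum, evalForm]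
  refine (Fintype.sum_equiv e _
    (fun pq : (α × α) × (α × α) => sq Φ.vec pq.1 * sq Φ.vec pq.2 *
      B (Pi.single pq.1 1) (Pi.single pq.2 1) o) fun I => ?_).trans ?_
  · simp only [e, Equiv.coe_fn_mk, sq, Fin.prod_univ_four]
    ring
  · rw [Fintype.sum_prod_type, Finset.sum_comm]
    exact Finset.sum_congr rfl fun p _ => Finset.sum_congr rfl fun q _ => by ring

/-- The translation form by a fixed class. -/
theorem exists_translate (h : c.Dims n d) (hk : 2 * c.g + 2 ≤ k) (y : Pic0 K F) :
    ∃ B : Out c n d → (Fin 2 → Coord c n k d) → K,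
      ∀ (x : Pic0 K F) (Φ : c.Frame (Idx' n k) (d + k) x),
        ∃ (Φp : c.Frame (Fin n) d (x + y)) (Φm : c.Frame (Fin n) d (x - y)) (m : K),
          m ≠ 0 ∧ evalForm B Φ.vec = m • c.mulVec _ Φp.vec Φm.vec := by
  classical
  obtain ⟨B, avoid, hB⟩ := exists_bilinear (k := k) h
  obtain ⟨P, hP, hPav⟩ := c.exists_rep hk y avoid
  refine ⟨fun o I => B (sq (repVec h P)) (Pi.single (I 0, I 1) 1) o, fun x Φ => ?_⟩
  obtain ⟨R, hR, hRav⟩ := c.exists_rep hk x P.places
  obtain ⟨Φp, Φn, m, hm, hval⟩ := hB P R hPav (Rep.disjoint_of_places hRav).symm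
  obtain ⟨r, hr, hvR⟩ := Φ.exists_smul_repVec h R hR
  refine ⟨Φp.copy (by rw [hP, hR, add_comm]), Φn.neg.copy (by rw [hP, hR, neg_sub]),
    r * r * m, mul_ne_zero (mul_ne_zero hr hr) hm, ?_⟩
  rw [Frame.vec_copy, Frame.vec_copy, Frame.vec_neg, mul_smul, ← hval, ← map_smul,
    ← sq_smul, ← hvR]
  funext o
  let α := Coord c n k d
  let e : (Fin 2 → α) ≃ α × α :=
    { toFun := fun I => (I 0, I 1)
      invFun := fun p => ![p.1, p.2]
      left_inv := fun I => by ext i; fin_cases i <;> rfl
      right_inv := fun p => rfl }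
  conv_rhs => rw [pi_eq_sum_univ' (sq Φ.vec)]
  simp only [map_sum, map_smul, Finset.sum_apply, Pi.smul_apply, smul_eq_mul, evalForm]
  refine Fintype.sum_equiv e _ _ fun I => ?_
  simp only [e, Equiv.coe_fn_mk, sq, Fin.prod_univ_two]
  ring

end Fermat.Agent.MW.Kummer.Marked

end
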