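/-
Heights on the degree zero class group: points in the closure of the set of Kummer coordinates
come from classes.

A frame with auxiliary sections `a, b` gives, besides its Kummer vector, the three vectors
`det (b s)`, `det (a t)` and `b a`. A point in the closure of this set still satisfies the
polynomial conditions tying them together, and these force it to be the vector of a frame.
-/
import Fermat.Agent.MW.HeightTheta
import Fermat.Agent.MW.Height2Lower

set_option autoImplicit false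
set_option linter.style.haveILetI false
set_option linter.unusedSectionVars false

noncomputable section

open AlgebraicCurve Fermat.Agent.Curve

namespace Fermat.Agent.MW.Kummer

section PolyFun

variable {K : Type*} [Field K] {α β : Type*}

/-- A polynomial function of a pair of tuples. -/
def IsPolyFun (φ : (α → K) → (β → K) → K) : Prop :=
  ∃ P : MvPolynomial (α ⊕ β) K, ∀ z p, MvPolynomial.eval (Sum.elim z p) P = φ z p

namespace IsPolyFun

theorem coord_fst (a : α) : IsPolyFun (fun (z : α → K) (_ : β → K) => z a) :=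
  ⟨MvPolynomial.X (Sum.inl a), fun _ _ => by simp⟩

theorem coord_snd (b : β) : IsPolyFun (fun (_ : α → K) (p : β → K) => p b) :=
  ⟨MvPolynomial.X (Sum.inr b), fun _ _ => by simp⟩

theorem const (r : K) : IsPolyFun (fun (_ : α → K) (_ : β → K) => r) :=
  ⟨MvPolynomial.C r, fun _ _ => by simp⟩

theorem mul {φ ψ : (α → K) → (β → K) → K} (hφ : IsPolyFun φ) (hψ : IsPolyFun ψ) :
    IsPolyFun fun z p => φ z p * ψ z p := by
  obtain ⟨P, hP⟩ := hφ
  obtain ⟨Q, hQ⟩ := hψ
  exact ⟨P * Q, fun z p => by rw [map_mul, hP, hQ]⟩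

theorem sub {φ ψ : (α → K) → (β → K) → K} (hφ : IsPolyFun φ) (hψ : IsPolyFun ψ) :
    IsPolyFun fun z p => φ z p - ψ z p := by
  obtain ⟨P, hP⟩ := hφ
  obtain ⟨Q, hQ⟩ := hψ
  exact ⟨P - Q, fun z p => by rw [map_sub, hP, hQ]⟩

theorem sum {γ : Type*} (s : Finset γ) {φ : γ → (α → K) → (β → K) → K}
    (hφ : ∀ i ∈ s, IsPolyFun (φ i)) : IsPolyFun fun z p => ∑ i ∈ s, φ i z p := by
  choose! P hP using hφ
  exact ⟨∑ i ∈ s, P i, fun z p => by
    rw [map_sum]; exact Finset.sum_congr rfl fun i hi => hP i hi z p⟩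

theorem prod {γ : Type*} (s : Finset γ) {φ : γ → (α → K) → (β → K) → K}
    (hφ : ∀ i ∈ s, IsPolyFun (φ i)) : IsPolyFun fun z p => ∏ i ∈ s, φ i z p := by
  choose! P hP using hφ
  exact ⟨∏ i ∈ s, P i, fun z p => by
    rw [map_prod]; exact Finset.prod_congr rfl fun i hi => hP i hi z p⟩

theorem det {γ : Type*} [Fintype γ] [DecidableEq γ]
    {φ : γ → γ → (α → K) → (β → K) → K} (hφ : ∀ i j, IsPolyFun (φ i j)) :
    IsPolyFun fun z p => Matrix.det (Matrix.of fun i j => φ i j z p) := by
  choose P hP using hφ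
  refine ⟨Matrix.det (Matrix.of fun i j => P i j), fun z p => ?_⟩
  rw [RingHom.map_det]
  congr 1
  ext i j
  simp [hP]

/-- A polynomial identity on the cone over `S` holds on its closure. -/
theorem eq_of_inClosure {φ ψ : (α → K) → (β → K) → K} (hφ : IsPolyFun φ) (hψ : IsPolyFun ψ)
    {S : Set ((α → K) × (β → K))} {z : α → K} {p : β → K} (h : InClosure S z p)
    (hS : ∀ w ∈ S, ∀ m m₁ : K, φ (m • w.1) (m₁ • w.2) = ψ (m • w.1) (m₁ • w.2)) :
    φ z p = ψ z p := by
  obtain ⟨P, hP⟩ := hφ.sub hψ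
  have := h P fun w hw m m₁ => by
    rw [hP]
    exact sub_eq_zero.2 (hS w hw m m₁)
  rw [hP] at this
  exact sub_eq_zero.1 this

end IsPolyFun

end PolyFun

namespace Marked

variable {K F : Type*} [Field K] [Field F] [Algebra K F] [IsAlgClosed K] [IsCurveOver K F]
variable (c : Marked K F) {ι : Type*} [Fintype ι] [DecidableEq ι] {d : ℕ}

variable (ι d) in
/-- The index type of the auxiliary vector of a frame. -/
abbrev AuxIdx : Type _ := (ι → c.Idx (d + d)) × (ι → c.Idx (d + d)) × c.Idx (d + d)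

variable (ι d) in
/-- Kummer vectors of frames, together with auxiliary data. -/
def frameSet : Set (((ι → c.Idx (d + d)) → K) × (c.AuxIdx ι d → K)) :=
  {w | ∃ (x : Pic0 K F) (Φ : c.Frame ι d x) (a b : F),
    a ∈ riemannRochSpace ((Φ.D : Divisor K F) + c.mP d) ∧
    b ∈ riemannRochSpace (-(Φ.D : Divisor K F) + c.mP d) ∧ a ≠ 0 ∧ b ≠ 0 ∧
    w.1 = Φ.vec ∧
    w.2 = fun q => c.detVec (d + d) (fun l => b * Φ.s l) q.1 *
      c.detVec (d + d) (fun l => a * Φ.t l) q.2.1 * c.cd (d + d) (b * a) q.2.2}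

/-- Every Kummer vector occurs in `frameSet`. -/
theorem exists_mem_frameSet [Nonempty ι] {x : Pic0 K F} (Φ : c.Frame ι d x) :
    ∃ p, p ≠ 0 ∧ (Φ.vec, p) ∈ c.frameSet ι d := by
  obtain ⟨l0⟩ := ‹Nonempty ι›
  set a := Φ.s l0
  set b := Φ.t l0
  have ha0 : a ≠ 0 := Φ.lis.ne_zero l0
  have hb0 : b ≠ 0 := Φ.lit.ne_zero l0
  refine ⟨_, ?_, x, Φ, a, b, Φ.hs l0, Φ.ht l0, ha0, hb0, rfl, rfl⟩
  have hW1 : ∀ l, b * Φ.s l ∈ c.W (d + d) := fun l => by
    rw [mul_comm]; exact Φ.mul_mem_W (Φ.hs l) (Φ.ht l0)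
  have hW2 : ∀ l, a * Φ.t l ∈ c.W (d + d) := fun l => Φ.mul_mem_W (Φ.hs l0) (Φ.ht l)
  have h1 : c.detVec (d + d) (fun l => b * Φ.s l) ≠ 0 := fun h => by
    refine c.detFn_ne_zero (fun l => c.reg_of_mem_W (hW1 l)) (linearIndependent_mul_left Φ.lis hb0)
      (funext fun Q => ?_)
    rw [← c.evT_detVec hW1, h, map_zero]
  have h2 : c.detVec (d + d) (fun l => a * Φ.t l) ≠ 0 := fun h => by
    refine c.detFn_ne_zero (fun l => c.reg_of_mem_W (hW2 l)) (linearIndependent_mul_left Φ.lit ha0)
      (funext fun Q => ?_)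
    rw [← c.evT_detVec hW2, h, map_zero]
  have h3 : c.cd (d + d) (b * a) ≠ 0 := fun h =>
    mul_ne_zero hb0 ha0 (c.eq_zero_of_cd_eq_zero (hW1 l0) h)
  obtain ⟨I, hI⟩ := Function.ne_iff.1 h1
  obtain ⟨J, hJ⟩ := Function.ne_iff.1 h2
  obtain ⟨i, hi⟩ := Function.ne_iff.1 h3
  exact Function.ne_iff.2 ⟨(I, J, i), mul_ne_zero (mul_ne_zero hI hJ) hi⟩

/-- An antisymmetric function vanishes at tuples with two equal entries. -/
theorem eq_zero_of_swap_of_eq [CharZero K] {φ : (ι → c.Pt) → K}
    (hswap : ∀ (Q : ι → c.Pt) (i l : ι), i ≠ l → φ (Q ∘ Equiv.swap i l) = -φ Q)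
    {Q : ι → c.Pt} {i l : ι} (hil : i ≠ l) (h : Q i = Q l) : φ Q = 0 := by
  have h1 : Q ∘ Equiv.swap i l = Q := by
    funext x
    rw [Function.comp_apply, Equiv.swap_apply_def]
    split_ifs with h1 h2
    · rw [h1, h]
    · rw [h2, h]
    · rfl
  have h2 := hswap Q i l hil
  rw [h1] at h2
  linear_combination h2 / 2

/-- The slices at a point where an antisymmetric function does not vanish are independent. -/
theorem linearIndependent_slice [CharZero K] {A : (ι → c.Idx (d + d)) → K} {Q : ι → c.Pt}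
    (hswap : ∀ (R : ι → c.Pt) (i l : ι), i ≠ l →
      c.evT (d + d) A (R ∘ Equiv.swap i l) = -c.evT (d + d) A R)
    (hQ : c.evT (d + d) A Q ≠ 0) :
    LinearIndependent K fun i => c.slice1 (d + d) Q i A := by
  rw [Fintype.linearIndependent_iff]
  intro a ha l
  have h := congrArg (c.ev (Q l)) ha
  rw [c.ev_zero, c.ev_sum _ _ fun i _ => (c.reg_of_mem_W (c.slice1_mem _ _ _ _)).smul _ _,
    Finset.sum_eq_single l] at h
  · rw [c.ev_smul _ _ (c.reg_of_mem_W (c.slice1_mem _ _ _ _) _), ← c.evT_update,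
      Function.update_eq_self] at h
    exact (mul_eq_zero.1 h).resolve_right hQ
  · intro i _ hi
    rw [c.ev_smul _ _ (c.reg_of_mem_W (c.slice1_mem _ _ _ _) _), ← c.evT_update,
      c.eq_zero_of_swap_of_eq hswap hi (by simp [Function.update_of_ne hi.symm]), mul_zero]
  · simp

variable {c}

/-- Enough independent sections force a large degree. -/
theorem Level.le_degree (h : c.Level ι d) {E : Divisor K F} {u : ι → F}
    (hu : ∀ l, u l ∈ riemannRochSpace E) (hli : LinearIndependent K u) [Nonempty ι] :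
    (d : ℤ) ≤ Divisor.degree E := by
  by_contra hlt
  let E' : Divisor K F := E + c.mP ((d : ℤ) - 1 - Divisor.degree E)
  have hle : E ≤ E' := Finsupp.le_def.2 fun v => by
    by_cases hv : v = c.P0
    · subst hv; simp [E']; omega
    · simp [E', c.mP_pt _ ⟨v, hv⟩]
  have hdeg : Divisor.degree E' = (d : ℤ) - 1 := by
    simp only [E', map_add, c.degree_mP]; ring
  have h1 := h.two_g_le
  have h2 := c.finrank_L E' (by rw [hdeg]; omega)
  haveI : Module.Finite K ↥(riemannRochSpace E') := c.finite_L E'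
  have h3 := (LinearIndependent.of_comp (riemannRochSpace E').subtype
    (v := fun l => (⟨u l, L_mono hle (hu l)⟩ : riemannRochSpace E')) hli).fintype_card_le_finrank
  have h4 := h.card_eq
  rw [hdeg] at h2
  omega

variable (c)

theorem detFn_swap (u : ι → F) (Q : ι → c.Pt) {i l : ι} (hil : i ≠ l) :
    c.detFn u (Q ∘ Equiv.swap i l) = -c.detFn u Q := by
  have h := Matrix.det_permute' (Equiv.swap i l) (Matrix.of fun m x => c.ev (Q x) (u m))
  rw [Equiv.Perm.sign_swap hil] at h
  simp only [detFn]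
  simpa [Matrix.submatrix] using h

/-- A point of the closure of `frameSet` is the Kummer vector of a frame. -/
theorem exists_frame_of_inClosure [CharZero K] [Nonempty ι] (h : c.Level ι d)
    {z : (ι → c.Idx (d + d)) → K} {p : c.AuxIdx ι d → K} (hz : z ≠ 0) (hp : p ≠ 0)
    (hcl : InClosure (c.frameSet ι d) z p) :
    ∃ (x : Pic0 K F) (Φ : c.Frame ι d x) (m : K), m ≠ 0 ∧ z = m • Φ.vec := by
  classical
  -- the three slices at a base index
  obtain ⟨⟨I₀, J₀, i₀⟩, hq₀⟩ := Function.ne_iff.1 hp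
  simp only [Pi.zero_apply, ne_eq] at hq₀
  let pA : (c.AuxIdx ι d → K) → (ι → c.Idx (d + d)) → K := fun r I => r (I, J₀, i₀)
  let pB : (c.AuxIdx ι d → K) → (ι → c.Idx (d + d)) → K := fun r I => r (I₀, I, i₀)
  let pf : (c.AuxIdx ι d → K) → c.Idx (d + d) → K := fun r i => r (I₀, J₀, i)
  have hA0 : pA p ≠ 0 := Function.ne_iff.2 ⟨I₀, hq₀⟩
  have hB0 : pB p ≠ 0 := Function.ne_iff.2 ⟨J₀, hq₀⟩
  -- the shape of the slices on members of the cone
  have hmem : ∀ w ∈ c.frameSet ι d, ∀ m m₁ : K, ∃ (x : Pic0 K F) (Φ : c.Frame ι d x) (a b : F)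
      (κA κB κf : K), a ∈ riemannRochSpace ((Φ.D : Divisor K F) + c.mP d) ∧
      b ∈ riemannRochSpace (-(Φ.D : Divisor K F) + c.mP d) ∧
      m • w.1 = m • Φ.vec ∧
      pA (m₁ • w.2) = κA • c.detVec (d + d) (fun l => b * Φ.s l) ∧
      pB (m₁ • w.2) = κB • c.detVec (d + d) (fun l => a * Φ.t l) ∧
      pf (m₁ • w.2) = κf • c.cd (d + d) (b * a) ∧ (κf = 0 → κA * κB = 0) := by
    rintro w ⟨x, Φ, a, b, ha, hb, ha0, hb0, hw1, hw2⟩ m m₁
    refine ⟨x, Φ, a, b, m₁ * c.detVec (d + d) (fun l => a * Φ.t l) J₀ * c.cd (d + d) (b * a) i₀,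
      m₁ * c.detVec (d + d) (fun l => b * Φ.s l) I₀ * c.cd (d + d) (b * a) i₀,
      m₁ * c.detVec (d + d) (fun l => b * Φ.s l) I₀ * c.detVec (d + d) (fun l => a * Φ.t l) J₀,
      ha, hb, by rw [hw1], funext fun I => ?_, funext fun I => ?_, funext fun i => ?_, ?_⟩
    · simp only [pA, hw2, Pi.smul_apply, smul_eq_mul]; ring
    · simp only [pB, hw2, Pi.smul_apply, smul_eq_mul]; ring
    · simp only [pf, hw2, Pi.smul_apply, smul_eq_mul]; ring
    · intro h0
      linear_combination (m₁ * c.cd (d + d) (b * a) i₀ * c.cd (d + d) (b * a) i₀) * h0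
  -- evaluations
  let fF : (c.AuxIdx ι d → K) → F := fun r => ∑ i, pf r i • c.e (d + d) i
  have hfW : ∀ r, fF r ∈ c.W (d + d) := fun r =>
    sum_mem fun i _ => Submodule.smul_mem _ _ (c.e_mem (d + d) i)
  set f := fF p
  have hf0 : f ≠ 0 := by
    intro h0
    have := congrArg (fun g => c.cd (d + d) g i₀) h0
    simp [f, fF, map_sum, cd_e, pf, Finset.sum_apply, Pi.single_apply, hq₀] at this
  have hfreg : c.Reg f := c.reg_of_mem_W (hfW p)
  have hevf : ∀ (r : c.AuxIdx ι d → K) (v : c.Pt),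
      c.ev v (fF r) = ∑ i, pf r i * c.ev v (c.e (d + d) i) := fun r v => by
    rw [c.ev_sum _ _ fun i _ => (c.reg_of_mem_W (c.e_mem (d + d) i)).smul _ _]
    exact Finset.sum_congr rfl fun i _ => c.ev_smul _ _ (c.reg_of_mem_W (c.e_mem (d + d) i) _)
  have polyA : ∀ Q : ι → c.Pt, IsPolyFun fun (_ : (ι → c.Idx (d + d)) → K) r => c.evT (d + d) (pA r) Q := fun Q => by
    simp only [evT_apply]
    exact IsPolyFun.sum _ fun I _ =>
      (IsPolyFun.coord_snd (I, J₀, i₀)).mul (IsPolyFun.const _)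
  have polyB : ∀ Q : ι → c.Pt, IsPolyFun fun (_ : (ι → c.Idx (d + d)) → K) r => c.evT (d + d) (pB r) Q := fun Q => by
    simp only [evT_apply]
    exact IsPolyFun.sum _ fun I _ =>
      (IsPolyFun.coord_snd (I₀, I, i₀)).mul (IsPolyFun.const _)
  have polyf : ∀ v : c.Pt, IsPolyFun fun (_ : (ι → c.Idx (d + d)) → K) r => c.ev v (fF r) := fun v => by
    simp only [hevf]
    exact IsPolyFun.sum _ fun i _ =>
      (IsPolyFun.coord_snd (I₀, J₀, i)).mul (IsPolyFun.const _)
  have polyz : ∀ Q : ι → c.Pt, IsPolyFun fun (w : (ι → c.Idx (d + d)) → K) (_ : c.AuxIdx ι d → K) => c.evT (d + d) w Q := fun Q => by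
    simp only [evT_apply]
    exact IsPolyFun.sum _ fun I _ => (IsPolyFun.coord_fst I).mul (IsPolyFun.const _)
  -- values on members
  have hWs : ∀ {x : Pic0 K F} (Φ : c.Frame ι d x) {b : F},
      b ∈ riemannRochSpace (-(Φ.D : Divisor K F) + c.mP d) → ∀ l, b * Φ.s l ∈ c.W (d + d) :=
    fun {x} Φ {b} hb l => by rw [mul_comm]; exact Φ.mul_mem_W (Φ.hs l) hb
  have hWt : ∀ {x : Pic0 K F} (Φ : c.Frame ι d x) {a : F},
      a ∈ riemannRochSpace ((Φ.D : Divisor K F) + c.mP d) → ∀ l, a * Φ.t l ∈ c.W (d + d) :=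
    fun {x} Φ {a} ha l => Φ.mul_mem_W ha (Φ.ht l)
  -- (i) antisymmetry
  have swapA : ∀ (Q : ι → c.Pt) (i l : ι), i ≠ l →
      c.evT (d + d) (pA p) (Q ∘ Equiv.swap i l) = -c.evT (d + d) (pA p) Q := by
    intro Q i l hil
    have := IsPolyFun.eq_of_inClosure (polyA (Q ∘ Equiv.swap i l))
      ((IsPolyFun.const (-1)).mul (polyA Q)) hcl fun w hw m m₁ => by
        obtain ⟨x, Φ, a, b, κA, κB, κf, -, hb, -, hA, -⟩ := hmem w hw m m₁
        rw [hA, map_smul, Pi.smul_apply, Pi.smul_apply, c.evT_detVec (hWs Φ hb),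
          c.evT_detVec (hWs Φ hb), c.detFn_swap _ _ hil]
        simp
    simpa using this
  have swapB : ∀ (Q : ι → c.Pt) (i l : ι), i ≠ l →
      c.evT (d + d) (pB p) (Q ∘ Equiv.swap i l) = -c.evT (d + d) (pB p) Q := by
    intro Q i l hil
    have := IsPolyFun.eq_of_inClosure (polyB (Q ∘ Equiv.swap i l))
      ((IsPolyFun.const (-1)).mul (polyB Q)) hcl fun w hw m m₁ => by
        obtain ⟨x, Φ, a, b, κA, κB, κf, ha, -, -, -, hB, -⟩ := hmem w hw m m₁
        rw [hB, map_smul, Pi.smul_apply, Pi.smul_apply, c.evT_detVec (hWt Φ ha),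
          c.evT_detVec (hWt Φ ha), c.detFn_swap _ _ hil]
        simp
    simpa using this
  -- (ii) the cross-ratio condition
  have hcross : ∀ Q R : ι → c.Pt,
      (c.evT (d + d) z Q * ∏ i, c.ev (Q i) f) * (c.evT (d + d) (pA p) R * c.evT (d + d) (pB p) R) =
      (c.evT (d + d) z R * ∏ i, c.ev (R i) f) * (c.evT (d + d) (pA p) Q * c.evT (d + d) (pB p) Q) := by
    intro Q R
    refine IsPolyFun.eq_of_inClosure
      (((polyz Q).mul (IsPolyFun.prod _ fun i _ => polyf (Q i))).mul ((polyA R).mul (polyB R)))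
      (((polyz R).mul (IsPolyFun.prod _ fun i _ => polyf (R i))).mul ((polyA Q).mul (polyB Q)))
      hcl fun w hw m m₁ => ?_
    obtain ⟨x, Φ, a, b, κA, κB, κf, ha, hb, hz', hA, hB, hf, -⟩ := hmem w hw m m₁
    have hba : b * a ∈ c.W (d + d) := by rw [mul_comm]; exact Φ.mul_mem_W ha hb
    have hval : fF (m₁ • w.2) = κf • (b * a) := by
      simp only [fF, hf, Pi.smul_apply, smul_assoc, ← Finset.smul_sum, c.sum_cd_smul_e hba]
    have hE : ∀ S : ι → c.Pt, c.evT (d + d) (m • w.1) S * ∏ i, c.ev (S i) (fF (m₁ • w.2)) =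
        m * κf ^ Fintype.card ι * (c.detFn (fun l => b * Φ.s l) S *
          c.detFn (fun l => a * Φ.t l) S) := by
      intro S
      rw [hval, hz', map_smul, Pi.smul_apply, smul_eq_mul, ← Φ.evT_vec_mul ha hb S,
        Finset.prod_congr rfl fun i _ => c.ev_smul (S i) κf (c.reg_of_mem_W hba _),
        Finset.prod_mul_distrib, Finset.prod_const, Finset.card_univ]
      ring
    rw [hE, hE, hA, hB, map_smul, map_smul]
    simp only [Pi.smul_apply, smul_eq_mul, c.evT_detVec (hWs Φ hb), c.evT_detVec (hWt Φ ha)]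
    ring
  -- (iii) products of slices are divisible by `f`
  have hdvd : ∀ (Q R : ι → c.Pt) (i l : ι),
      ∃ g ∈ c.W (d + d), c.slice1 (d + d) Q i (pA p) * c.slice1 (d + d) R l (pB p) = f * g := by
    intro Q R i l
    set u := c.slice1 (d + d) Q i (pA p)
    set v := c.slice1 (d + d) R l (pB p)
    have hu : c.Reg u := c.reg_of_mem_W (c.slice1_mem _ _ _ _)
    have hv : c.Reg v := c.reg_of_mem_W (c.slice1_mem _ _ _ _)
    let fam : Option (c.Idx (d + d)) → F := fun o => o.elim (u * v) fun j => f * c.e (d + d) j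
    have hfam : ∀ o, c.Reg (fam o) := by
      rintro (_ | j)
      exacts [hu.mul hv, hfreg.mul (c.reg_of_mem_W (c.e_mem (d + d) j))]
    have hdet : ∀ T : Option (c.Idx (d + d)) → c.Pt, c.detFn fam T = 0 := by
      intro T
      let φ : Option (c.Idx (d + d)) → Option (c.Idx (d + d)) →
          ((ι → c.Idx (d + d)) → K) → (c.AuxIdx ι d → K) → K := fun o x _ r => o.elim
        (c.evT (d + d) (pA r) (Function.update Q i (T x)) * c.evT (d + d) (pB r) (Function.update R l (T x)))
        fun j => c.ev (T x) (fF r) * c.ev (T x) (c.e (d + d) j)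
      have hφ : ∀ o x, IsPolyFun (φ o x) := by
        rintro (_ | j) x
        · exact (polyA _).mul (polyB _)
        · exact (polyf _).mul (IsPolyFun.const _)
      have hzero := IsPolyFun.eq_of_inClosure (IsPolyFun.det hφ) (IsPolyFun.const 0) hcl
        fun w hw m m₁ => by
          obtain ⟨x, Φ, a, b, κA, κB, κf, ha, hb, -, hA, hB, hf, hκ⟩ := hmem w hw m m₁
          have hba : b * a ∈ c.W (d + d) := by rw [mul_comm]; exact Φ.mul_mem_W ha hb
          have hval : fF (m₁ • w.2) = κf • (b * a) := by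
            simp only [fF, hf, Pi.smul_apply, smul_assoc, ← Finset.smul_sum, c.sum_cd_smul_e hba]
          have hsreg : ∀ l, c.Reg (b * Φ.s l) := fun l => c.reg_of_mem_W (hWs Φ hb l)
          have htreg : ∀ l, c.Reg (a * Φ.t l) := fun l => c.reg_of_mem_W (hWt Φ ha l)
          obtain ⟨α, hα⟩ := c.detFn_update hsreg Q i
          obtain ⟨β, hβ⟩ := c.detFn_update htreg R l
          set S := ∑ n, α n • Φ.s n with hS
          set T' := ∑ n, β n • Φ.t n with hT'
          have hg : S * T' ∈ c.W (d + d) := Φ.mul_mem_W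
            (sum_mem fun n _ => Submodule.smul_mem _ _ (Φ.hs n))
            (sum_mem fun n _ => Submodule.smul_mem _ _ (Φ.ht n))
          have e1 : (∑ n, α n • (b * Φ.s n)) = b * S := by
            rw [hS, Finset.mul_sum]; simp
          have e2 : (∑ n, β n • (a * Φ.t n)) = a * T' := by
            rw [hT', Finset.mul_sum]; simp
          have hnone : ∀ y, φ none y (m • w.1) (m₁ • w.2) =
              κA * κB * (c.ev (T y) (b * a) * c.ev (T y) (S * T')) := by
            intro y
            simp only [φ, Option.elim_none, hA, hB, map_smul, Pi.smul_apply, smul_eq_mul,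
              c.evT_detVec (hWs Φ hb), c.evT_detVec (hWt Φ ha), hα, hβ]
            rw [← c.ev_mul _ (c.reg_of_mem_W hba _) (c.reg_of_mem_W hg _), e1, e2]
            have r1 : c.Reg (b * S) := e1 ▸ Reg.sum fun n _ => (hsreg n).smul _
            have r2 : c.Reg (a * T') := e2 ▸ Reg.sum fun n _ => (htreg n).smul _
            rw [show b * a * (S * T') = (b * S) * (a * T') by ring,
              c.ev_mul _ (r1 _) (r2 _)]
            ring
          show Matrix.det _ = 0
          rcases eq_or_ne κf 0 with hk | hk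
          · refine Matrix.det_eq_zero_of_row_eq_zero none fun y => ?_
            rw [Matrix.of_apply, hnone, hκ hk, zero_mul]
          · refine Matrix.exists_vecMul_eq_zero_iff.1
              ⟨fun o => o.elim κf fun j => -(κA * κB * c.cd (d + d) (S * T') j),
                fun h0 => hk (congrFun h0 none), funext fun y => ?_⟩
            simp only [Matrix.vecMul, dotProduct, Fintype.sum_option, Option.elim_none,
              Option.elim_some, Matrix.of_apply, Pi.zero_apply]
            rw [hnone, c.ev_eq_sum (T y) hg]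
            simp only [φ, Option.elim_some, hval, c.ev_smul _ κf (c.reg_of_mem_W hba _),
              Finset.mul_sum]
            rw [← Finset.sum_add_distrib]
            exact Finset.sum_eq_zero fun j _ => by ring
      refine Eq.trans ?_ hzero
      rw [detFn]
      congr 1
      ext o x
      rcases o with _ | j
      · simp only [fam, φ, Option.elim_none, Matrix.of_apply, c.evT_update]
        exact c.ev_mul _ (hu _) (hv _)
      · simp only [fam, φ, Option.elim_some, Matrix.of_apply]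
        exact c.ev_mul _ (hfreg _) (c.reg_of_mem_W (c.e_mem (d + d) j) _)
    have hdep : ¬ LinearIndependent K fam := fun hli => by
      obtain ⟨T, -, hT⟩ := c.exists_detFn_ne_zero hfam hli ∅
      exact hT (hdet T)
    rw [Fintype.linearIndependent_iff] at hdep
    push Not at hdep
    obtain ⟨a, ha, o, ho⟩ := hdep
    rw [Fintype.sum_option] at ha
    simp only [fam, Option.elim_none, Option.elim_some] at ha
    have hsum : ∑ j, a (some j) • (f * c.e (d + d) j) = f * ∑ j, a (some j) • c.e (d + d) j := by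
      rw [Finset.mul_sum]; simp
    rw [hsum] at ha
    have hnone : a none ≠ 0 := fun h0 => by
      rw [h0, zero_smul, zero_add] at ha
      have h1 := Fintype.linearIndependent_iff.1 (c.linearIndependent_e (d + d)) _
        ((mul_eq_zero.1 ha).resolve_left hf0)
      rcases o with _ | j
      exacts [ho h0, ho (h1 j)]
    refine ⟨(-(a none)⁻¹) • ∑ j, a (some j) • c.e (d + d) j,
      Submodule.smul_mem _ _ (sum_mem fun j _ => Submodule.smul_mem _ _ (c.e_mem (d + d) j)), ?_⟩
    have : u * v = (a none)⁻¹ • (a none • (u * v)) := by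
      rw [smul_smul, inv_mul_cancel₀ hnone, one_smul]
    rw [this, eq_neg_of_add_eq_zero_left ha, neg_smul, mul_neg, smul_neg, mul_smul_comm]
  -- base tuples
  obtain ⟨QA, hQA⟩ := Function.ne_iff.1 ((map_ne_zero_iff _ (c.evT_injective (d + d))).2 hA0)
  obtain ⟨QB, hQB⟩ := Function.ne_iff.1 ((map_ne_zero_iff _ (c.evT_injective (d + d))).2 hB0)
  simp only [Pi.zero_apply] at hQA hQB
  let uA : ι → F := fun i => c.slice1 (d + d) QA i (pA p)
  let vB : ι → F := fun i => c.slice1 (d + d) QB i (pB p)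
  have hliA : LinearIndependent K uA := c.linearIndependent_slice swapA hQA
  have hliB : LinearIndependent K vB := c.linearIndependent_slice swapB hQB
  obtain ⟨Df, hDf, hDfdeg⟩ := HasPrincipalDivisors.exists_divisor (K := K) f hf0
  have hbound : ∀ (Q R : ι → c.Pt) (i l : ι) (v : Place K F),
      c.slice1 (d + d) Q i (pA p) ≠ 0 → c.slice1 (d + d) R l (pB p) ≠ 0 →
      Df v - c.mP ((d + d : ℕ) : ℤ) v ≤
        v.ord (c.slice1 (d + d) Q i (pA p)) + v.ord (c.slice1 (d + d) R l (pB p)) := by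
    intro Q R i l v hu0 hv0
    obtain ⟨g, hg, he⟩ := hdvd Q R i l
    have hg0 : g ≠ 0 := fun h0 => mul_ne_zero hu0 hv0 (by rw [he, h0, mul_zero])
    rw [← v.ord_mul hu0 hv0, he, v.ord_mul hf0 hg0, hDf v]
    have := le_ord_of_mem_L (D := c.mP ((d + d : ℕ) : ℤ)) hg hg0 v
    omega
  -- the smallest divisor whose space contains a finite family
  have hpole : ∀ u : ι → F, (∀ i, u i ≠ 0) → ∃ E : Divisor K F,
      (∀ i v, -E v ≤ v.ord (u i)) ∧ ∀ v, ∃ i, v.ord (u i) = -E v := by
    intro u hu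
    choose Du hDu _ using fun i => HasPrincipalDivisors.exists_divisor (K := K) (u i) (hu i)
    let E : Divisor K F := Finsupp.ofSupportFinite
      (fun v => Finset.univ.sup' Finset.univ_nonempty fun i => -v.ord (u i))
      (((Finset.univ.biUnion fun i => (Du i).support).finite_toSet).subset fun v hv => by
        by_contra hv'
        apply hv
        refine le_antisymm (Finset.sup'_le _ _ fun i _ => ?_) ?_
        · have : Du i v = 0 := by
            by_contra h0
            exact hv' (Finset.mem_biUnion.2 ⟨i, Finset.mem_univ i, Finsupp.mem_support_iff.2 h0⟩)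
          rw [← hDu i v, this, neg_zero]
        · obtain ⟨i⟩ := ‹Nonempty ι›
          refine le_trans ?_ (Finset.le_sup' (fun i => -v.ord (u i)) (Finset.mem_univ i))
          have : Du i v = 0 := by
            by_contra h0
            exact hv' (Finset.mem_biUnion.2 ⟨i, Finset.mem_univ i, Finsupp.mem_support_iff.2 h0⟩)
          rw [← hDu i v, this, neg_zero])
    refine ⟨E, fun i v => ?_, fun v => ?_⟩
    · have h1 := Finset.le_sup' (fun i => -v.ord (u i)) (Finset.mem_univ i)
      show -(Finset.univ.sup' Finset.univ_nonempty fun i => -v.ord (u i)) ≤ v.ord (u i)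
      omega
    · obtain ⟨i, -, hi⟩ := Finset.exists_mem_eq_sup' Finset.univ_nonempty fun i => -v.ord (u i)
      refine ⟨i, ?_⟩
      show v.ord (u i) = -(Finset.univ.sup' Finset.univ_nonempty fun i => -v.ord (u i))
      omega
  obtain ⟨EA, hEA, hEA'⟩ := hpole uA hliA.ne_zero
  obtain ⟨EB, hEB, hEB'⟩ := hpole vB hliB.ne_zero
  have hsum : EA + EB ≤ c.mP ((d + d : ℕ) : ℤ) - Df := Finsupp.le_def.2 fun v => by
    obtain ⟨i, hi⟩ := hEA' v
    obtain ⟨l, hl⟩ := hEB' v
    have := hbound QA QB i l v (hliA.ne_zero i) (hliB.ne_zero l)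
    rw [hi, hl] at this
    simp only [Finsupp.add_apply, Finsupp.sub_apply]
    omega
  have memA : ∀ i, uA i ∈ riemannRochSpace EA := fun i => mem_L_iff.2 fun _ v => hEA i v
  have memB : ∀ i, vB i ∈ riemannRochSpace EB := fun i => mem_L_iff.2 fun _ v => hEB i v
  have hdA := h.le_degree memA hliA
  have hdB := h.le_degree memB hliB
  have hdeg := degree_le_degree hsum
  rw [map_add, map_sub, c.degree_mP, hDfdeg] at hdeg
  simp only [Nat.cast_add] at hdeg
  have hdAeq : Divisor.degree EA = (d : ℤ) := by omega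
  have hdBeq : Divisor.degree EB = (d : ℤ) := by omega
  have hEq : EA + EB = c.mP ((d + d : ℕ) : ℤ) - Df := eq_of_le_of_degree_eq hsum (by
    rw [map_add, map_sub, c.degree_mP, hDfdeg, hdAeq, hdBeq]; simp)
  have hEqv : ∀ v, EA v + EB v = c.mP ((d + d : ℕ) : ℤ) v - Df v := fun v => by
    simpa using DFunLike.congr_fun hEq v
  have sliceA : c.SliceIn (Submodule.span K (Set.range uA)) (c.evT (d + d) (pA p)) := by
    rw [c.span_eq_L h hdAeq memA hliA]
    refine fun Q i => ⟨_, mem_L_iff.2 fun h0 v => ?_, fun w => c.evT_update (d + d) Q i _ w⟩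
    obtain ⟨l, hl⟩ := hEB' v
    have := hbound Q QB i l v h0 (hliB.ne_zero l)
    rw [hl] at this
    have := hEqv v
    omega
  have sliceB : c.SliceIn (Submodule.span K (Set.range vB)) (c.evT (d + d) (pB p)) := by
    rw [c.span_eq_L h hdBeq memB hliB]
    refine fun Q i => ⟨_, mem_L_iff.2 fun h0 v => ?_, fun w => c.evT_update (d + d) Q i _ w⟩
    obtain ⟨l, hl⟩ := hEA' v
    have := hbound QA Q l i v (hliA.ne_zero l) h0
    rw [hl] at this
    have := hEqv v
    omega
  have hregA : ∀ i, c.Reg (uA i) := fun i => c.reg_of_mem_W (c.slice1_mem _ _ _ _)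
  have hregB : ∀ i, c.Reg (vB i) := fun i => c.reg_of_mem_W (c.slice1_mem _ _ _ _)
  obtain ⟨mA, hmA⟩ := c.eq_smul_detFn hregA hliA sliceA swapA
  obtain ⟨mB, hmB⟩ := c.eq_smul_detFn hregB hliB sliceB swapB
  -- the frame
  let D : Divisor.degZero (K := K) (F := F) := ⟨EA - c.mP d, by
    rw [Divisor.mem_degZero, map_sub, c.degree_mP, hdAeq, sub_self]⟩
  let Φ : c.Frame ι d (Pic0.mk D) :=
    { D := D
      cls := rfl
      s := uA
      hs := fun l => by
        show uA l ∈ riemannRochSpace (EA - c.mP d + c.mP d)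
        rw [sub_add_cancel]; exact memA l
      lis := hliA
      t := fun l => f⁻¹ * vB l
      ht := fun l => mem_L_iff.2 fun h0 v => by
        obtain ⟨hf', hv'⟩ := mul_ne_zero_iff.1 h0
        rw [v.ord_mul hf' hv', v.ord_inv, ← hDf v]
        show -((-(EA - c.mP d) + c.mP d : Divisor K F) v) ≤ _
        simp only [Finsupp.add_apply, Finsupp.neg_apply, Finsupp.sub_apply]
        have := hEB l v
        have := hEqv v
        have : c.mP ((d + d : ℕ) : ℤ) v = c.mP d v + c.mP d v := by simp [mP_add]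
        omega
      lit := linearIndependent_mul_left hliB (inv_ne_zero hf0) }
  obtain ⟨R, -, hRA, hRB⟩ := (c.sliceReg_evT (d + d) (pA p)).exists_common (c.sliceReg_evT (d + d) (pB p))
    ⟨QA, hQA⟩ ⟨QB, hQB⟩ ∅
  set lam := (c.evT (d + d) z R * ∏ i, c.ev (R i) f) / (c.evT (d + d) (pA p) R * c.evT (d + d) (pB p) R)
  have hvec : ∀ Q, c.evT (d + d) Φ.vec Q * ∏ i, c.ev (Q i) f = c.detFn uA Q * c.detFn vB Q := by
    intro Q
    have h1 := c.evT_prodVec_mul (j := (d + d)) (s := uA) (t := fun l => f⁻¹ * vB l)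
      (fun l m => Φ.mul_mem_W (Φ.hs l) (Φ.ht m)) (a := 1) (b := f)
      (fun l => by rw [one_mul]; exact hregA l)
      (fun l => by rw [mul_inv_cancel_left₀ hf0]; exact hregB l)
      (by rw [one_mul]; exact hfreg) Q
    simp only [one_mul, mul_inv_cancel_left₀ hf0] at h1
    exact h1
  have key : c.evT (d + d) z = c.evT (d + d) ((lam * mA * mB) • Φ.vec) := by
    refine SliceReg.eq_of_mul_eq (c.sliceReg_evT _ _) (c.sliceReg_evT _ _)
      (sliceReg_prod hfreg) (c.prod_ev_ne_zero hfreg hf0) fun Q => ?_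
    rw [map_smul, Pi.smul_apply, smul_eq_mul, mul_assoc (lam * mA * mB), hvec]
    have hA' := congrFun hmA Q
    have hB' := congrFun hmB Q
    simp only [Pi.smul_apply, smul_eq_mul] at hA' hB'
    have h1 : c.evT (d + d) z Q * ∏ i, c.ev (Q i) f =
        lam * (c.evT (d + d) (pA p) Q * c.evT (d + d) (pB p) Q) := by
      rw [show lam * (c.evT (d + d) (pA p) Q * c.evT (d + d) (pB p) Q) =
        (c.evT (d + d) z R * ∏ i, c.ev (R i) f) * (c.evT (d + d) (pA p) Q * c.evT (d + d) (pB p) Q) /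
          (c.evT (d + d) (pA p) R * c.evT (d + d) (pB p) R) from by rw [div_mul_eq_mul_div],
        eq_div_iff (mul_ne_zero hRA hRB)]
      exact hcross Q R
    rw [h1, hA', hB']
    ring
  have hv := c.evT_injective (d + d) key
  exact ⟨_, Φ, lam * mA * mB, fun h0 => hz (by rw [hv, h0, zero_smul]), hv⟩

end Marked

end Fermat.Agent.MW.Kummer

end
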