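/-
Heights on the degree zero class group, part 6: descent. The classes fixed by a Galois action
through compatible semilinear automorphisms form a finitely generated group as soon as halving
has finite cokernel.
-/
import Fermat.Agent.MW.HeightBilinear
import Fermat.Agent.MW.HeightClosure
import Mathlib.FieldTheory.Galois.Infinite
import Mathlib.Algebra.Ring.Action.Submonoid

set_option autoImplicit false
set_option linter.style.haveILetI false
set_option linter.unusedSectionVars false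

noncomputable section

open AlgebraicCurve Fermat.Agent.Curve

namespace Fermat.Agent.MW.Kummer.Marked

theorem evalForm_smul {L : Type*} [Field L] {ι o : Type*} [Fintype ι] {N : ℕ}
    (B : o → (Fin N → ι) → L) (r : L) (z : ι → L) :
    evalForm B (r • z) = r ^ N • evalForm B z := by
  funext x
  simp only [evalForm, Pi.smul_apply, smul_eq_mul, Finset.mul_sum, Finset.prod_mul_distrib,
    Finset.prod_const, Finset.card_univ, Fintype.card_fin]
  exact Finset.sum_congr rfl fun I _ => by ring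

variable {L : Type*} [Field L] [CharZero L] [IsAlgClosed L] [Algebra.IsAlgebraic ℚ L]
variable [IsGalois ℚ L]
variable {F : Type*} [Field F] [Algebra L F] [IsCurveOver L F] [IsFunctionFieldOne L F]
variable (c : Marked L F)

/-- Finite generation of the fixed classes. -/
theorem fg_fixed [DistribMulAction (L ≃ₐ[ℚ] L) (Pic0 L F)]
    (sl : (L ≃ₐ[ℚ] L) → SemilinearAut L F) (hcompat : ∀ γ, c.Compat (sl γ))
    (hbase : ∀ γ a, SemilinearAut.baseAut (sl γ) a = γ a)
    (hsmul : ∀ γ (x : Pic0 L F), γ • x = sl γ • x)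
    (hfin : (nsmulAddMonoidHom (α := ↥(FixedPoints.addSubgroup (L ≃ₐ[ℚ] L) (Pic0 L F))) 2
      ).range.FiniteIndex) :
    AddGroup.FG ↥(FixedPoints.addSubgroup (L ≃ₐ[ℚ] L) (Pic0 L F)) := by
  classical
  -- the levels
  set d := 2 * c.g with hd
  set k := 2 * c.g + 2 with hk
  set n := c.g + 1 with hn
  have h : c.Dims n d := ⟨le_rfl, by omega⟩
  haveI := h.nonempty
  haveI : Nonempty (Idx' n k) := ⟨Sum.inl (Classical.arbitrary _)⟩
  let F1 : ∀ x : Pic0 L F, c.Frame (Idx' n k) (d + k) x := fun x =>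
    Classical.choice (Level.nonempty_frame c h.level' x)
  let F0 : ∀ x : Pic0 L F, c.Frame (Fin n) d x := fun x =>
    Classical.choice (Level.nonempty_frame c h.level x)
  let H : Pic0 L F → ℝ := fun x => absHeight (F1 x).vec
  let h0 : Pic0 L F → ℝ := fun x => absHeight (F0 x).vec
  have hΦ0 : ∀ {x : Pic0 L F} (Φ : c.Frame (Fin n) d x), absHeight Φ.vec = h0 x := by
    intro x Φ
    obtain ⟨m, hm, hv⟩ := Frame.exists_smul h.level (F0 x) Φ
    rw [hv, absHeight_smul _ hm]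
  have hΦ1 : ∀ {x : Pic0 L F} (Φ : c.Frame (Idx' n k) (d + k) x), absHeight Φ.vec = H x := by
    intro x Φ
    obtain ⟨m, hm, hv⟩ := Frame.exists_smul h.level' (F1 x) Φ
    rw [hv, absHeight_smul _ hm]
  -- the product of two coordinate vectors
  let Bm : Out c n d → (Fin n → c.Idx (d + d)) → (Fin n → c.Idx (d + d)) → L :=
    fun M I J => ∏ i, c.cd ((d + d) + (d + d)) (c.e (d + d) (I i) * c.e (d + d) (J i)) (M i)
  have hBm : ∀ a b, (fun M => ∑ I, ∑ J, Bm M I J * (a I * b J)) = c.mulVec (d + d) a b := by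
    intro a b
    funext M
    exact Finset.sum_congr rfl fun I _ => Finset.sum_congr rfl fun J _ => mul_comm _ _
  obtain ⟨C₁, hC₁⟩ := mul_lower Bm fun v w hv hw => by rw [hBm]; exact mulVec_ne_zero c hv hw
  -- doubling
  obtain ⟨B₄, hB₄⟩ := exists_quartic (c := c) (k := k) h le_rfl
  obtain ⟨C₂, hC₂⟩ := evalForm_lower B₄ (c.frameSet (Idx' n k) (d + k))
    fun z p hz hp hcl => by
      obtain ⟨x, Φ, m, hm, rfl⟩ := c.exists_frame_of_inClosure h.level' hz hp hcl
      obtain ⟨Φ₂, Φ₀, m', hm', hv⟩ := hB₄ x Φ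
      rw [evalForm_smul, hv, smul_smul]
      exact smul_ne_zero (mul_ne_zero (pow_ne_zero _ hm) hm')
        (mulVec_ne_zero c Φ₂.vec_ne_zero Φ₀.vec_ne_zero)
  obtain ⟨C₃, hC₃⟩ := absHeight_linear_le (L := L)
    (fun (M : Out c n d) (I : Fin n → c.Idx (d + d)) => ∑ J, Bm M I J * (F0 0).vec J)
  have hdouble : ∀ x : Pic0 L F, 4 * H x ≤ h0 (x + x) + (C₂ + C₃) := by
    intro x
    obtain ⟨p, hp, hmem⟩ := c.exists_mem_frameSet (F1 x)
    have e1 := hC₂ _ hmem (F1 x).vec_ne_zero hp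
    simp only at e1
    obtain ⟨Φ₂, Φ₀, m, hm, hv⟩ := hB₄ x (F1 x)
    rw [hv, absHeight_smul _ hm] at e1
    obtain ⟨r, hr, hr'⟩ := Frame.exists_smul h.level (F0 0) Φ₀
    have e2 : c.mulVec (d + d) Φ₂.vec Φ₀.vec = r • c.mulVec (d + d) Φ₂.vec (F0 0).vec := by
      rw [hr', ← hBm, ← hBm]
      funext M
      simp only [Pi.smul_apply, smul_eq_mul, Finset.mul_sum]
      exact Finset.sum_congr rfl fun I _ => Finset.sum_congr rfl fun J _ => by ring
    rw [e2, absHeight_smul _ hr, ← hBm] at e1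
    have e3 := hC₃ Φ₂.vec
    have e4 : (fun M => ∑ I, (∑ J, Bm M I J * (F0 0).vec J) * Φ₂.vec I) =
        fun M => ∑ I, ∑ J, Bm M I J * (Φ₂.vec I * (F0 0).vec J) := funext fun M =>
      Finset.sum_congr rfl fun I _ => by
        rw [Finset.sum_mul]
        exact Finset.sum_congr rfl fun J _ => by ring
    rw [e4, hΦ0 Φ₂] at e3
    push_cast at e1
    linarith
  -- translations
  have htrans : ∀ y : Pic0 L F, ∃ C : ℝ, ∀ x, h0 (x - y) ≤ 2 * H x + C := by
    intro y
    obtain ⟨B₂, hB₂⟩ := exists_translate (c := c) (k := k) h le_rfl y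
    obtain ⟨C₄, hC₄⟩ := evalForm_le B₂
    refine ⟨C₄ + C₁, fun x => ?_⟩
    obtain ⟨Φp, Φm, m, hm, hv⟩ := hB₂ x (F1 x)
    have e1 := hC₄ (F1 x).vec
    rw [hv, absHeight_smul _ hm, ← hBm] at e1
    have e2 := hC₁ Φp.vec Φm.vec Φp.vec_ne_zero Φm.vec_ne_zero
    rw [hΦ0 Φm, hΦ0 Φp] at e2
    have e3 : 0 ≤ h0 (x + y) := absHeight_nonneg _
    push_cast at e1
    linarith
  -- rationality of fixed classes and the Northcott property
  let G := FixedPoints.addSubgroup (L ≃ₐ[ℚ] L) (Pic0 L F)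
  have hrat : ∀ x : G, ∃ a : L, a ≠ 0 ∧ (∃ J, (a • (F1 (x : Pic0 L F)).vec) J = 1) ∧
      ∀ I, (a • (F1 (x : Pic0 L F)).vec) I ∈ (⊥ : IntermediateField ℚ L) := by
    intro x
    obtain ⟨J, hJ⟩ := Function.ne_iff.1 (F1 (x : Pic0 L F)).vec_ne_zero
    refine ⟨((F1 (x : Pic0 L F)).vec J)⁻¹, inv_ne_zero hJ, ⟨J, inv_mul_cancel₀ hJ⟩, fun I => ?_⟩
    rw [InfiniteGalois.mem_bot_iff_fixed]
    intro γ
    have hfix : sl γ • (x : Pic0 L F) = (x : Pic0 L F) := by rw [← hsmul]; exact x.2 γ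
    obtain ⟨m, hm, hv⟩ := Frame.exists_smul h.level' (F1 (x : Pic0 L F))
      (((F1 (x : Pic0 L F)).map (hcompat γ)).copy hfix)
    have hI : ∀ I, γ ((F1 (x : Pic0 L F)).vec I) = m * (F1 (x : Pic0 L F)).vec I := fun I => by
      have := congrFun hv I
      rwa [Frame.vec_copy, Frame.vec_map, hbase, Pi.smul_apply, smul_eq_mul] at this
    show γ (((F1 (x : Pic0 L F)).vec J)⁻¹ * (F1 (x : Pic0 L F)).vec I) = _
    rw [map_mul, map_inv₀, hI, hI, mul_inv_rev]
    show _ = ((F1 (x : Pic0 L F)).vec J)⁻¹ * (F1 (x : Pic0 L F)).vec I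
    field_simp
  haveI : Northcott (fun x : G => H (x : Pic0 L F)) := by
    refine ⟨fun b => ?_⟩
    haveI : NumberField (⊥ : IntermediateField ℚ L) := numberField_of_finiteDimensional ⊥
    have hZ := finite_absHeight_le (ι := Coord c n k d) (⊥ : IntermediateField ℚ L) b
    refine Set.Finite.of_finite_image
      (((hZ.biUnion fun z _ => c.finite_fibre h.level' z)).subset ?_) Subtype.val_injective.injOn
    rintro _ ⟨x, hx, rfl⟩
    obtain ⟨a, ha, hone, hbot⟩ := hrat x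
    refine Set.mem_iUnion₂.2 ⟨a • (F1 (x : Pic0 L F)).vec, ⟨hbot, hone, ?_⟩,
      F1 (x : Pic0 L F), a⁻¹, by rw [smul_smul, inv_mul_cancel₀ ha, one_smul]⟩
    rw [absHeight_smul _ ha]
    exact hx
  refine fg_of_halving hfin (fun x : G => H (x : Pic0 L F)) fun g => ?_
  obtain ⟨C, hC⟩ := htrans (g : Pic0 L F)
  refine ⟨(C₂ + C₃ + C) / 4, fun y => ?_⟩
  have e1 := hdouble (y : Pic0 L F)
  have e2 := hC ((g + 2 • y : G) : Pic0 L F)
  have e3 : ((g + 2 • y : G) : Pic0 L F) - (g : Pic0 L F) = (y : Pic0 L F) + y := by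
    push_cast
    rw [two_nsmul]
    abel
  rw [e3] at e2
  show H (y : Pic0 L F) ≤ H ((g + 2 • y : G) : Pic0 L F) / 2 + _
  linarith

end Fermat.Agent.MW.Kummer.Marked

end
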