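/-
Mordell-Weil for `J0(N)` over `ℚ`: weak Mordell-Weil and descent by the Kummer-coordinate height.
-/
import Fermat.Agent.MW.HeightAssembly
import Fermat.Agent.MW.BMarked
import Fermat.Agent.MW.WeakJZero

set_option autoImplicit false

open ModularCurve AlgebraicCurve

namespace Fermat.Agent.MW

/-- The rational classes on `J0(N)` form a finitely generated group. -/
theorem fg_invariants_jZero (N : ℕ) [NeZero N] :
    AddGroup.FG ↥(FixedPoints.addSubgroup ((AlgebraicClosure ℚ) ≃ₐ[ℚ] (AlgebraicClosure ℚ))
      (JZero N)) :=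
  Kummer.Marked.fg_fixed (jMarked N)
    (fun γ => arithmeticGalois (modularFunctionFieldFull N) γ)
    (compat_arithmeticGalois N) (fun _ _ => rfl) (fun _ _ => rfl)
    (JZero_finiteIndex_two N)

end Fermat.Agent.MW
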