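import Fermat.Agent.MW.WeakUnramified
import Mathlib.GroupTheory.Index
import Mathlib.Algebra.Ring.Action.Submonoid

/-!
# The abstract weak Mordell-Weil theorem over `ℚ`
-/

set_option autoImplicit false

namespace Fermat.Agent.MW

local notation "Qb" => AlgebraicClosure ℚ
local notation "GQ" => (AlgebraicClosure ℚ ≃ₐ[ℚ] AlgebraicClosure ℚ)

/-- Weak Mordell-Weil: if the points with `n`-th multiple fixed by the Galois group exist and are
unramified outside a finite set, then `M^G / n M^G` is finite. -/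
theorem finiteIndex_range_nsmul {M : Type*} [AddCommGroup M]
    [DistribMulAction GQ M]
    (n : ℕ) (S : Finset ℕ)
    (hopen : ∀ x : M, IsOpen (MulAction.stabilizer GQ x : Set GQ))
    (hdiv : ∀ x ∈ FixedPoints.addSubgroup GQ M, ∃ y : M, n • y = x)
    (htors : {z : M | n • z = 0}.Finite)
    (hunr : ∀ ℓ : ℕ, ℓ.Prime → ℓ ∉ S → ∀ A : ValuationSubring Qb,
      A.LiesOverPrime ℓ → ∀ σ ∈ A.inertiaSubgroupIn ℚ, ∀ y : M,
        n • y ∈ FixedPoints.addSubgroup GQ M → σ • y = y) :
    (nsmulAddMonoidHom n : ↥(FixedPoints.addSubgroup GQ M) →+ _).range.FiniteIndex := by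
  classical
  set T := {z : M | n • z = 0} with hT
  have : Finite T := htors.to_subtype
  have : Fintype T := Fintype.ofFinite T
  obtain ⟨U, hUo, hU⟩ :=
    exists_isOpen_le_of_isUnramifiedOutside S ((Fintype.card T) ^ (Fintype.card T))
  choose y hy using hdiv
  have hfixed : ∀ {x : M}, x ∈ FixedPoints.addSubgroup GQ M → ∀ g : GQ, g • x = x :=
    fun {x} hx g => hx g
  have hmove : ∀ (g : GQ) (z : M), n • z ∈ FixedPoints.addSubgroup GQ M → g • z - z ∈ T := by
    intro g z hz
    show n • (g • z - z) = 0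
    rw [nsmul_sub, sub_eq_zero]
    exact (smul_comm n g z).trans (hfixed hz g)
  -- `U` fixes every `n`-th root of a fixed point
  have key : ∀ z : M, n • z ∈ FixedPoints.addSubgroup GQ M → ∀ u ∈ U, u • z = z := by
    intro z hz
    let H : Subgroup GQ := ⨅ t : T, MulAction.stabilizer GQ (z + (t : M))
    have hroot : ∀ t : T, n • (z + (t : M)) ∈ FixedPoints.addSubgroup GQ M := fun t => by
      rw [nsmul_add, show n • (t : M) = 0 from t.2, add_zero]; exact hz
    have hmem : ∀ {h : GQ}, h ∈ H ↔ ∀ t : T, h • (z + (t : M)) = z + (t : M) := by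
      simp [H, Subgroup.mem_iInf]
    have hnormal : H.Normal := by
      refine ⟨fun h hh g => hmem.mpr fun t => ?_⟩
      have ht : g⁻¹ • (z + (t : M)) - z ∈ T := by
        show n • (_ - z) = 0
        rw [nsmul_sub, smul_comm, hfixed (hroot t) g⁻¹, nsmul_add,
          show n • (t : M) = 0 from t.2, add_zero, sub_self]
      have := hmem.mp hh ⟨_, ht⟩
      simp only [add_sub_cancel] at this
      rw [mul_smul, mul_smul, this, smul_inv_smul]
    have hopenH : IsOpen (H : Set GQ) := by
      simp only [H, Subgroup.coe_iInf]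
      exact isOpen_iInter_of_finite fun t => hopen _
    have hindex : H.index ≤ Fintype.card T ^ Fintype.card T := by
      refine (Subgroup.index_iInf_le _).trans ?_
      refine (Finset.prod_le_pow_card _ _ (Fintype.card T) fun t _ => ?_).trans_eq (by simp)
      rw [MulAction.index_stabilizer]
      refine (Set.ncard_le_ncard_of_injOn (fun w => w - (z + (t : M))) ?_
        (fun a _ b _ h => sub_left_inj.mp h) htors).trans_eq ?_
      · rintro _ ⟨g, rfl⟩
        exact hmove g _ (hroot t)
      · rw [← Nat.card_coe_set_eq, Nat.card_eq_fintype_card]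
    have hunram : IsUnramifiedOutside S H := fun ℓ hℓ hℓS A hA σ hσ =>
      hmem.mpr fun t => hunr ℓ hℓ hℓS A hA σ hσ _ (hroot t)
    intro u hu
    have := hmem.mp (hU H hnormal hopenH hindex hunram hu) ⟨0, nsmul_zero n⟩
    simpa using this
  have : Finite (GQ ⧸ U) := U.quotient_finite_of_isOpen hUo
  -- the Kummer map
  let Φ : ↥(FixedPoints.addSubgroup GQ M) → (GQ ⧸ U → T) := fun x q =>
    ⟨q.out • y x x.2 - y x x.2, hmove _ _ ((hy x x.2).symm ▸ x.2)⟩
  have hΦ : ∀ a b : ↥(FixedPoints.addSubgroup GQ M), Φ a = Φ b →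
      a - b ∈ (nsmulAddMonoidHom n : ↥(FixedPoints.addSubgroup GQ M) →+ _).range := by
    intro a b hab
    have hfix : y a a.2 - y b b.2 ∈ FixedPoints.addSubgroup GQ M := by
      intro σ
      show σ • (y a a.2 - y b b.2) = _
      obtain ⟨u, hu⟩ := QuotientGroup.mk_out_eq_mul U σ
      have hσ : ∀ c : ↥(FixedPoints.addSubgroup GQ M),
          σ • y c c.2 = (QuotientGroup.mk σ : GQ ⧸ U).out • y c c.2 := fun c => by
        rw [hu, mul_smul, key (y c c.2) ((hy c c.2).symm ▸ c.2) u u.2]
      have := congrArg Subtype.val (congrFun hab (QuotientGroup.mk σ))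
      simp only [Φ] at this
      rw [smul_sub, hσ, hσ]
      linear_combination (norm := abel) this
    refine ⟨⟨_, hfix⟩, Subtype.ext ?_⟩
    show n • (y a a.2 - y b b.2) = (a : M) - b
    rw [nsmul_sub, hy, hy]
  have hfin : Finite (↥(FixedPoints.addSubgroup GQ M) ⧸
      (nsmulAddMonoidHom n : ↥(FixedPoints.addSubgroup GQ M) →+ _).range) := by
    refine Finite.of_injective (fun q => Φ q.out) fun q q' h => ?_
    rw [← QuotientAddGroup.out_eq' q, ← QuotientAddGroup.out_eq' q', eq_comm,
      QuotientAddGroup.eq, neg_add_eq_sub]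
    exact hΦ _ _ h
  exact AddSubgroup.finiteIndex_of_finite_quotient

/-- Reduction maps invariant under inertia and injective on `n`-torsion give unramifiedness. -/
theorem smul_eq_self_of_reduction {M M' : Type*} [AddCommGroup M] [AddCommGroup M']
    [DistribMulAction (AlgebraicClosure ℚ ≃ₐ[ℚ] AlgebraicClosure ℚ) M]
    {n : ℕ} (r : M →+ M') (hinj : ∀ z : M, n • z = 0 → r z = 0 → z = 0)
    {σ : AlgebraicClosure ℚ ≃ₐ[ℚ] AlgebraicClosure ℚ} {y : M} (hr : r (σ • y) = r y)
    (hy : σ • (n • y) = n • y) : σ • y = y := by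
  refine sub_eq_zero.1 (hinj _ ?_ ?_)
  · rw [nsmul_sub]
    exact sub_eq_zero.2 ((smul_comm n σ y).trans hy)
  · rw [map_sub, hr, sub_self]

end Fermat.Agent.MW
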