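import Mathlib.NumberTheory.NumberField.Discriminant.Different
import Mathlib.NumberTheory.NumberField.ExistsRamified
import Mathlib.NumberTheory.RamificationInertia.Galois
import Mathlib.FieldTheory.Galois.IsGaloisGroup

/-!
# A bound on the discriminant of a Galois number field in terms of its degree and its ramified
primes
-/

set_option autoImplicit false

open scoped Pointwise

namespace Fermat.Agent.MW

open NumberField Module UniqueFactorizationMonoid

variable {L : Type*} [Field L] [NumberField L]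

/-- A natural number dividing the different (as an ideal) divides the degree. -/
theorem dvd_finrank_of_span_dvd_differentIdeal {k : ℕ} (hk : k ≠ 0)
    (h : Ideal.span {(k : 𝓞 L)} ∣ differentIdeal ℤ (𝓞 L)) : k ∣ finrank ℚ L := by
  have hkL : (k : L) ≠ 0 := Nat.cast_ne_zero.mpr hk
  -- every trace-dual element times `k⁻¹` is integral, so test on `x = 1`
  have h1 : ((k : ℚ)⁻¹ • (1 : L)) ∈ Submodule.traceDual ℤ ℚ (1 : Submodule (𝓞 L) L) := by
    rw [Submodule.mem_traceDual]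
    intro a ha
    obtain ⟨a, rfl⟩ := Submodule.mem_one.mp ha
    have hle : differentIdeal ℤ (𝓞 L) ≤ Ideal.span {(k : 𝓞 L)} := Ideal.le_of_dvd h
    rw [differentialIdeal_le_iff (K := ℚ) (L := L)
      (by simpa [Ideal.span_singleton_eq_bot] using hk)] at hle
    have hmem : ((k : ℚ)⁻¹ • (1 : L)) * algebraMap (𝓞 L) L a ∈
        (((Ideal.span {(k : 𝓞 L)} : FractionalIdeal (nonZeroDivisors (𝓞 L)) L)⁻¹ :) :
          Submodule (𝓞 L) L) := by
      rw [FractionalIdeal.coe_inv_of_ne_zero _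
        (FractionalIdeal.coeIdeal_ne_zero.mpr (by simpa [Ideal.span_singleton_eq_bot] using hk)),
        Submodule.mem_div_iff_forall_mul_mem]
      intro y hy
      obtain ⟨y, hy, rfl⟩ := hy
      obtain ⟨c, rfl⟩ := Ideal.mem_span_singleton'.mp hy
      rw [IsLocalization.coeSubmodule_top, Submodule.mem_one]
      refine ⟨a * c, ?_⟩
      simp only [Algebra.linearMap_apply, map_mul, map_natCast, Rat.smul_def]
      push_cast
      field_simp
    obtain ⟨z, hz⟩ := Submodule.mem_one.mp (hle ⟨_, hmem, rfl⟩)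
    exact ⟨z, by rw [Algebra.traceForm_apply]; exact hz⟩
  rw [Submodule.mem_traceDual] at h1
  obtain ⟨z, hz⟩ := h1 1 (Submodule.mem_one.mpr ⟨1, map_one _⟩)
  rw [Algebra.traceForm_apply, mul_one, map_smul, ← map_one (algebraMap ℚ L),
    Algebra.trace_algebraMap, smul_eq_mul, nsmul_eq_mul, mul_one] at hz
  have : (z : ℚ) * (k : ℚ) = (finrank ℚ L : ℚ) := by
    rw [show (z : ℚ) = (k : ℚ)⁻¹ * (finrank ℚ L : ℚ) from by simpa using hz]
    field_simp
  exact Int.natCast_dvd_natCast.mp ⟨z, by exact_mod_cast this.symm.trans (mul_comm _ _)⟩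

variable [IsGalois ℚ L]

/-- The different of a Galois extension is stable under the Galois group. -/
theorem smul_differentIdeal (σ : L ≃ₐ[ℚ] L) :
    σ • differentIdeal ℤ (𝓞 L) = differentIdeal ℤ (𝓞 L) := by
  suffices key : ∀ (τ : L ≃ₐ[ℚ] L) (x : 𝓞 L), x ∈ differentIdeal ℤ (𝓞 L) →
      τ • x ∈ differentIdeal ℤ (𝓞 L) by
    ext x
    rw [Ideal.mem_pointwise_smul_iff_inv_smul_mem]
    exact ⟨fun h => smul_inv_smul σ x ▸ key σ _ h, key σ⁻¹ x⟩
  intro τ x hx
  have hiff : ∀ y : 𝓞 L, y ∈ differentIdeal ℤ (𝓞 L) ↔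
      algebraMap (𝓞 L) L y ∈ (1 : Submodule (𝓞 L) L) / Submodule.traceDual ℤ ℚ 1 := by
    intro y
    rw [← coeSubmodule_differentIdeal ℤ ℚ, IsLocalization.coeSubmodule, Submodule.mem_map]
    exact ⟨fun h => ⟨y, h, rfl⟩, fun ⟨z, hz, hzy⟩ =>
      FaithfulSMul.algebraMap_injective (𝓞 L) L hzy ▸ hz⟩
  rw [hiff, Submodule.mem_div_iff_forall_mul_mem] at hx ⊢
  intro y hy
  have hy' : τ⁻¹ y ∈ Submodule.traceDual ℤ ℚ (1 : Submodule (𝓞 L) L) := by
    rw [Submodule.mem_traceDual] at hy ⊢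
    intro a ha
    obtain ⟨a, rfl⟩ := Submodule.mem_one.mp ha
    obtain ⟨z, hz⟩ := hy _ (Submodule.mem_one.mpr ⟨τ • a, rfl⟩)
    refine ⟨z, hz.trans ?_⟩
    rw [Algebra.traceForm_apply, Algebra.traceForm_apply,
      ← Algebra.trace_eq_of_algEquiv τ (τ⁻¹ y * algebraMap (𝓞 L) L a)]
    rw [map_mul τ]
    congr 2
    exact (AlgEquiv.apply_symm_apply τ y).symm
  obtain ⟨b, hb⟩ := Submodule.mem_one.mp (hx _ hy')
  refine Submodule.mem_one.mpr ⟨τ • b, ?_⟩
  calc algebraMap (𝓞 L) L (τ • b) = τ (algebraMap (𝓞 L) L b) := rfl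
    _ = _ := by
      rw [hb, map_mul]
      congr 1
      exact AlgEquiv.apply_symm_apply τ y

/-- A prime of a Galois number field with trivial inertia does not divide the different. -/
theorem not_dvd_differentIdeal_of_inertia {P : Ideal (𝓞 L)} [P.IsPrime] (hP : P ≠ ⊥)
    (h : P.inertia (L ≃ₐ[ℚ] L) = ⊥) : ¬ P ∣ differentIdeal ℤ (𝓞 L) := by
  have : (P.under ℤ).IsMaximal :=
    Ideal.IsPrime.isMaximal inferInstance (mt Ideal.eq_bot_of_comap_eq_bot hP)
  have hcard := Ideal.card_inertia_eq_ramificationIdxIn (G := L ≃ₐ[ℚ] L) (P.under ℤ) P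
  rw [h, Subgroup.card_bot,
    Ideal.ramificationIdxIn_eq_ramificationIdx (P.under ℤ) P (L ≃ₐ[ℚ] L)] at hcard
  rw [not_dvd_differentIdeal_iff]
  exact Ideal.ramificationIdx_eq_one_iff.mp hcard.symm

/-- A Galois number field of degree `d` which has trivial inertia at all primes not dividing `m`
has `|discriminant| ≤ m ^ (d * d)`. -/
theorem natAbs_discr_le_pow {m : ℕ} (hm : 0 < m)
    (h : ∀ P : Ideal (𝓞 L), P.IsPrime → (m : 𝓞 L) ∉ P → P.inertia (L ≃ₐ[ℚ] L) = ⊥) :
    (discr L).natAbs ≤ m ^ (finrank ℚ L * finrank ℚ L) := by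
  classical
  set d := finrank ℚ L with hd
  set D := differentIdeal ℤ (𝓞 L) with hDdef
  have hD : D ≠ 0 := differentIdeal_ne_bot
  have hspan : ∀ k : ℕ, k ≠ 0 → Ideal.span {((k : 𝓞 L)) ^ d} ≠ 0 := fun k hk => by
    simp [hk]
  have hcount : ∀ (Q I : Ideal (𝓞 L)) (k : ℕ), Prime Q → I ≠ 0 →
      (Q ^ k ∣ I ↔ k ≤ Multiset.count Q (normalizedFactors I)) := fun Q I k hQ hI => by
    rw [pow_dvd_iff_le_emultiplicity, emultiplicity_eq_count_normalizedFactors hQ.irreducible hI,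
      normalize_eq, Nat.cast_le]
  have main : D ∣ Ideal.span {((m : 𝓞 L)) ^ d} := by
    rw [dvd_iff_normalizedFactors_le_normalizedFactors hD (hspan m hm.ne'), Multiset.le_iff_count]
    intro Q
    by_cases hQf : Q ∈ normalizedFactors D
    swap
    · simp [Multiset.count_eq_zero_of_notMem hQf]
    have hQ : Prime Q := prime_of_normalized_factor Q hQf
    have hQp : Q.IsPrime := Ideal.isPrime_of_prime hQ
    have hQ0 : Q ≠ ⊥ := hQ.ne_zero
    have hmQ : (m : 𝓞 L) ∈ Q := by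
      by_contra hmQ
      exact not_dvd_differentIdeal_of_inertia hQ0 (h Q hQp hmQ)
        (dvd_of_mem_normalizedFactors hQf)
    obtain ⟨p, hp, hpm, hpQ⟩ : ∃ p : ℕ, p.Prime ∧ p ∣ m ∧ (p : 𝓞 L) ∈ Q := by
      have hm' : ((m.primeFactorsList : Multiset ℕ).map (fun p : ℕ => (p : 𝓞 L))).prod ∈ Q := by
        rw [Multiset.map_coe, Multiset.prod_coe, ← Nat.cast_list_prod,
          Nat.prod_primeFactorsList hm.ne']
        exact hmQ
      obtain ⟨_, hx, hxQ⟩ := (hQp.multiset_prod_mem_iff_exists_mem _).mp hm'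
      obtain ⟨p, hp, rfl⟩ := Multiset.mem_map.mp hx
      have hpQ := hxQ
      exact ⟨p, Nat.prime_of_mem_primeFactorsList hp, Nat.dvd_of_mem_primeFactorsList hp, hpQ⟩
    by_contra hlt
    push Not at hlt
    have key : Ideal.span {((p : 𝓞 L)) ^ d} ∣ D := by
      rw [dvd_iff_normalizedFactors_le_normalizedFactors (hspan p hp.ne_zero) hD,
        Multiset.le_iff_count]
      intro Q'
      by_cases hQ'f : Q' ∈ normalizedFactors (Ideal.span {((p : 𝓞 L)) ^ d})
      swap
      · simp [Multiset.count_eq_zero_of_notMem hQ'f]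
      have hQ' : Prime Q' := prime_of_normalized_factor Q' hQ'f
      have hQ'p : Q'.IsPrime := Ideal.isPrime_of_prime hQ'
      set k := Multiset.count Q' (normalizedFactors (Ideal.span {((p : 𝓞 L)) ^ d})) with hk
      rw [← hcount Q' D k hQ' hD]
      have hpQ' : (p : 𝓞 L) ∈ Q' := hQ'p.mem_of_pow_mem d
        (Ideal.le_of_dvd (dvd_of_mem_normalizedFactors hQ'f) (Ideal.mem_span_singleton_self _))
      have hpint : Prime (p : ℤ) := Nat.prime_iff_prime_int.mp hp
      have : Q.LiesOver (Ideal.span {(p : ℤ)}) :=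
        (Ideal.liesOver_span_iff hQp.ne_top hpint).mpr (by simpa using hpQ)
      have : Q'.LiesOver (Ideal.span {(p : ℤ)}) :=
        (Ideal.liesOver_span_iff hQ'p.ne_top hpint).mpr (by simpa using hpQ')
      obtain ⟨σ, hσ⟩ := Ideal.exists_smul_eq_of_isGaloisGroup (Ideal.span {(p : ℤ)}) Q Q'
        (L ≃ₐ[ℚ] L)
      have h1 : Q' ^ k ∣ Ideal.span {((p : 𝓞 L)) ^ d} :=
        (hcount Q' _ k hQ' (hspan p hp.ne_zero)).mpr le_rfl
      have h2 : Q ^ k ∣ Ideal.span {((p : 𝓞 L)) ^ d} := by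
        obtain ⟨J, hJ⟩ := h1
        refine ⟨σ⁻¹ • J, ?_⟩
        have := congrArg (σ⁻¹ • ·) hJ
        simp only [smul_mul', smul_pow', ← hσ, inv_smul_smul] at this
        rw [← this, Ideal.pointwise_smul_def, Ideal.map_span, Set.image_singleton]
        have hfix : σ⁻¹ • (p : 𝓞 L) = (p : 𝓞 L) :=
          map_natCast (MulSemiringAction.toRingHom (L ≃ₐ[ℚ] L) (𝓞 L) σ⁻¹) p
        simp [MulSemiringAction.toRingHom_apply, hfix]
      have h3 : Q ^ k ∣ Ideal.span {((m : 𝓞 L)) ^ d} := h2.trans <| by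
        rw [Ideal.dvd_iff_le, Ideal.span_singleton_le_span_singleton]
        exact pow_dvd_pow_of_dvd (map_dvd (Nat.castRingHom (𝓞 L)) hpm) d
      rw [hcount Q _ k hQ (hspan m hm.ne')] at h3
      obtain ⟨J, hJ⟩ := (hcount Q D k hQ hD).mpr (h3.trans hlt.le)
      refine ⟨σ • J, ?_⟩
      have hσD : σ • D = D := smul_differentIdeal σ
      rw [hJ, smul_mul', smul_pow', hσ] at hσD
      exact hJ.trans hσD.symm
    have hdvd := dvd_finrank_of_span_dvd_differentIdeal (k := p ^ d)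
      (pow_ne_zero _ hp.ne_zero) (by rwa [Nat.cast_pow])
    exact absurd (Nat.le_of_dvd finrank_pos hdvd) (not_le.mpr (Nat.lt_pow_self hp.one_lt))
  have hnorm := Ideal.absNorm_dvd_absNorm_of_le (Ideal.le_of_dvd main)
  rw [absNorm_differentIdeal L, Ideal.absNorm_span_singleton, map_pow,
    show ((m : 𝓞 L)) = algebraMap ℤ (𝓞 L) (m : ℤ) by simp, Algebra.norm_algebraMap,
    RingOfIntegers.rank, ← pow_mul, Int.natAbs_pow, Int.natAbs_natCast] at hnorm
  exact Nat.le_of_dvd (pow_pos hm _) hnorm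

end Fermat.Agent.MW
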